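import Fermat.Agent.GalCoh.Descent.Inertia
import Fermat.Agent.GalCoh.CFTInputs

/-!
# `μ_p` inside `ℚ̄`, Hilbert 90 for subgroups, cyclotomic characters of decomposition groups
-/

set_option autoImplicit false
set_option linter.unusedSectionVars false
set_option linter.style.haveILetI false

noncomputable section

open scoped Pointwise

namespace Fermat.Agent.GalCoh.Descent

open Fermat.Agent.FreyReducible ExtCitation

local notation "Ω" => AlgebraicClosure ℚ
local notation "Γ" => (AlgebraicClosure ℚ ≃ₐ[ℚ] AlgebraicClosure ℚ)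

local instance isAlgebraicQbar_mu : Algebra.IsAlgebraic ℚ (AlgebraicClosure ℚ) :=
  AlgebraicClosure.isAlgebraic ℚ
local instance isAlgClosureQbar_mu : IsAlgClosure ℚ (AlgebraicClosure ℚ) :=
  ⟨inferInstance, inferInstance⟩
local instance isGaloisQbar_mu : IsGalois ℚ (AlgebraicClosure ℚ) :=
  have : Normal ℚ (AlgebraicClosure ℚ) := IsAlgClosure.normal ℚ (AlgebraicClosure ℚ)
  have : Algebra.IsSeparable ℚ (AlgebraicClosure ℚ) :=
    Algebra.IsAlgebraic.isSeparable_of_perfectField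
  IsGalois.mk

theorem exists_primitiveRoot (n : ℕ) [NeZero n] : ∃ ζ : Ω, IsPrimitiveRoot ζ n := by
  haveI : NeZero (n : Ω) := ⟨Nat.cast_ne_zero.mpr (NeZero.ne n)⟩
  obtain ⟨ζ, hζ⟩ := IsAlgClosed.exists_root _
    (Polynomial.degree_cyclotomic_pos n Ω (Nat.pos_of_ne_zero (NeZero.ne n))).ne'
  exact ⟨ζ, Polynomial.isRoot_cyclotomic_iff.mp hζ⟩

variable (p : ℕ) [Fact p.Prime]

/-- A fixed primitive `p`-th root of unity. -/
def zetaP : Ω := (exists_primitiveRoot p).choose

theorem zetaP_spec : IsPrimitiveRoot (zetaP p) p := (exists_primitiveRoot p).choose_spec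

/-- `ZMod p` as the `p`-th roots of unity. -/
def mu (x : ZMod p) : Ω := zetaP p ^ x.val

variable {p}

theorem mu_zero : mu p (0 : ZMod p) = 1 := by rw [mu, ZMod.val_zero, pow_zero]

theorem mu_ne_zero (x : ZMod p) : mu p x ≠ 0 :=
  pow_ne_zero _ ((zetaP_spec p).ne_zero (NeZero.ne p))

theorem mu_pow (x : ZMod p) : mu p x ^ p = 1 := by
  rw [mu, ← pow_mul, mul_comm, pow_mul, (zetaP_spec p).pow_eq_one, one_pow]

theorem mu_eq_pow {x : ZMod p} {k : ℕ} (h : (k : ZMod p) = x) : mu p x = zetaP p ^ k := by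
  rw [mu, ← h, ZMod.val_natCast]
  exact (pow_eq_pow_mod k (zetaP_spec p).pow_eq_one).symm

theorem mu_add (x y : ZMod p) : mu p (x + y) = mu p x * mu p y := by
  rw [mu_eq_pow (k := x.val + y.val) (by simp), pow_add]
  rfl

theorem mu_neg (x : ZMod p) : mu p (-x) = (mu p x)⁻¹ :=
  eq_inv_of_mul_eq_one_left (by rw [← mu_add, neg_add_cancel, mu_zero])

theorem mu_sub (x y : ZMod p) : mu p (x - y) = mu p x / mu p y := by
  rw [sub_eq_add_neg, mu_add, mu_neg, div_eq_mul_inv]

theorem mu_natCast_mul (n : ℕ) (x : ZMod p) : mu p ((n : ZMod p) * x) = mu p x ^ n := by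
  rw [mu_eq_pow (k := x.val * n) (by simp [mul_comm]), pow_mul]
  rfl

theorem mu_injective : Function.Injective (mu p) := fun x y h ↦
  ZMod.val_injective p ((zetaP_spec p).pow_inj (ZMod.val_lt x) (ZMod.val_lt y) h)

theorem exists_mu_eq {z : Ω} (hz : z ^ p = 1) : ∃ x, mu p x = z := by
  obtain ⟨i, -, rfl⟩ := (zetaP_spec p).eq_pow_of_pow_eq_one hz
  exact ⟨i, mu_eq_pow rfl⟩

open Classical in
variable (p) in
/-- The inverse of `mu`. -/
def muLog (z : Ω) : ZMod p := if h : ∃ x, mu p x = z then h.choose else 0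

theorem mu_muLog {z : Ω} (hz : z ^ p = 1) : mu p (muLog p z) = z := by
  rw [muLog, dif_pos (exists_mu_eq hz)]
  exact (exists_mu_eq hz).choose_spec

theorem apply_zetaP (σ : Γ) : σ (zetaP p) = zetaP p ^ ((cycloChar p σ : ZMod p)).val := by
  have hu : ((zetaP_spec p).isUnit (NeZero.ne p)).unit ∈ rootsOfUnity p Ω :=
    (mem_rootsOfUnity' _ _).2 (by simpa using (zetaP_spec p).pow_eq_one)
  show σ (zetaP p) = zetaP p ^ ((modularCyclotomicCharacter Ω (card_rootsOfUnity_eq_self p)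
    (σ : Ω ≃+* Ω) : (ZMod p)ˣ) : ZMod p).val
  simpa using modularCyclotomicCharacter.spec Ω (card_rootsOfUnity_eq_self p) (σ : Ω ≃+* Ω) hu

theorem apply_mu (σ : Γ) (x : ZMod p) : σ (mu p x) = mu p ((cycloChar p σ : ZMod p) * x) := by
  rw [mu, map_pow, apply_zetaP, ← pow_mul, eq_comm]
  exact mu_eq_pow (by simp)

theorem cycloChar_eq_one {σ : Γ} (h : σ (zetaP p) = zetaP p) : cycloChar p σ = 1 := by
  refine Units.ext (mu_injective (p := p) ?_)
  have h1 := apply_mu σ (1 : ZMod p)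
  rw [mul_one] at h1
  rw [← h1, Units.val_one, mu, map_pow, h]

theorem apply_mu_eq {σ : Γ} (h : cycloChar p σ = 1) (x : ZMod p) : σ (mu p x) = mu p x := by
  rw [apply_mu, h, Units.val_one, one_mul]

/-! ### Open subgroups -/

theorem exists_normal_fixes {U : Subgroup Γ} (hU : fullLevels.mem U) {ι : Type*} [Finite ι]
    (y : ι → Ω) :
    ∃ M : Subgroup Γ, fullLevels.mem M ∧ M.Normal ∧ M ≤ U ∧ ∀ m ∈ M, ∀ i, m (y i) = y i := by
  haveI : FiniteDimensional ℚ (IntermediateField.adjoin ℚ (Set.range y)) :=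
    IntermediateField.finiteDimensional_adjoin fun x _ ↦ Algebra.IsIntegral.isIntegral x
  have hy : fullLevels.mem (IntermediateField.adjoin ℚ (Set.range y)).fixingSubgroup :=
    ⟨_, inferInstance, le_rfl⟩
  obtain ⟨M, hM, hn, hle⟩ := fullLevels.exists_normal (fullLevels.inf_mem hU hy)
  exact ⟨M, hM, hn, hle.trans inf_le_left, fun m hm i ↦
    (IntermediateField.mem_fixingSubgroup_iff _ _).mp (hle hm).2 _
      (IntermediateField.subset_adjoin ℚ _ ⟨i, rfl⟩)⟩

theorem mem_of_fixed {E : IntermediateField ℚ Ω} [FiniteDimensional ℚ E] {x : Ω}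
    (h : ∀ σ ∈ E.fixingSubgroup, σ x = x) : x ∈ E := by
  rw [← InfiniteGalois.fixedField_fixingSubgroup E, IntermediateField.mem_fixedField_iff]
  exact h

theorem finite_quotient {U : Subgroup Γ} (hU : fullLevels.mem U) : Finite (Γ ⧸ U) :=
  haveI := fullLevels.finiteIndex hU
  inferInstance

theorem exists_pow_mem {U : Subgroup Γ} (hU : fullLevels.mem U) (σ : Γ) :
    ∃ n : ℕ, 0 < n ∧ σ ^ n ∈ U := by
  obtain ⟨N, hN, hn, hNU⟩ := fullLevels.exists_normal hU
  haveI := fullLevels.finiteIndex hN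
  exact ⟨N.index, Nat.pos_of_ne_zero Subgroup.FiniteIndex.index_ne_zero,
    hNU (Subgroup.pow_index_mem N σ)⟩

/-! ### Multiplicative coboundaries and Hilbert 90 -/

/-- The coboundary of a multiplicative one-cochain. -/
def dd (x : Γ → Ω) (s t : Γ) : Ω := s (x t) * x s / x (s * t)

theorem dd_mul (x y : Γ → Ω) (s t : Γ) :
    dd (fun r ↦ x r * y r) s t = dd x s t * dd y s t := by
  simp only [dd, map_mul]
  ring

theorem dd_div (x y : Γ → Ω) (s t : Γ) :
    dd (fun r ↦ x r / y r) s t = dd x s t / dd y s t := by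
  simp only [dd, div_eq_mul_inv, map_mul, map_inv₀, mul_inv, inv_inv]
  ring

theorem dd_pow (x : Γ → Ω) (n : ℕ) (s t : Γ) : dd (fun r ↦ x r ^ n) s t = dd x s t ^ n := by
  simp only [dd, map_pow, div_pow, mul_pow]

theorem dd_apply_div {a : Ω} (ha : a ≠ 0) (s t : Γ) : dd (fun r ↦ r a / a) s t = 1 := by
  have h : ∀ r : Γ, r a ≠ 0 := fun r ↦ by simpa using ha
  have h1 : s (t a) ≠ 0 := h (s * t)
  have h2 := h s
  simp only [dd, map_div₀, AlgEquiv.mul_apply]
  field_simp

theorem hilbert90 {J U : Subgroup Γ} (hU : fullLevels.mem U) {a : Γ → Ω}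
    (h0 : ∀ s ∈ J, a s ≠ 0) (hcoc : ∀ s ∈ J, ∀ t ∈ J, a (s * t) = s (a t) * a s)
    (hcts : ∀ s ∈ J, ∀ t ∈ J, t ∈ U → a (s * t) = a s) :
    ∃ x, x ≠ 0 ∧ ∀ s ∈ J, a s = s x / x := by
  classical
  haveI := fullLevels.finiteIndex hU
  haveI : Finite (↥J ⧸ U.subgroupOf J) := Subgroup.finite_quotient_of_finiteIndex
  cases nonempty_fintype (↥J ⧸ U.subgroupOf J)
  obtain ⟨M, hM, hMn, hMU, hMfix⟩ :=
    exists_normal_fixes hU fun q : ↥J ⧸ U.subgroupOf J ↦ a ((q.out : ↥J) : Γ)
  haveI := fullLevels.finiteIndex hM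
  haveI : Finite (↥J ⧸ M.subgroupOf J) := Subgroup.finite_quotient_of_finiteIndex
  cases nonempty_fintype (↥J ⧸ M.subgroupOf J)
  obtain ⟨F, hF, hFM⟩ := hM
  let L : IntermediateField ℚ Ω := IntermediateField.fixedField M
  have hL : L.fixingSubgroup = M := by
    have hopen : IsOpen (M : Set Γ) :=
      Subgroup.isOpen_mono hFM (IntermediateField.fixingSubgroup_isOpen F)
    exact InfiniteGalois.fixingSubgroup_fixedField ⟨M, M.isClosed_of_isOpen hopen⟩
  let f : ↥J ⧸ M.subgroupOf J → (↥L →* Ω) := fun q ↦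
    { toFun := fun y ↦ ((q.out : ↥J) : Γ) (y : Ω)
      map_one' := by simp
      map_mul' := fun y z ↦ by simp }
  have hf : Function.Injective f := fun q q' h ↦ by
    have key : ((q.out : ↥J) : Γ)⁻¹ * ((q'.out : ↥J) : Γ) ∈ M := by
      refine hL.le ((IntermediateField.mem_fixingSubgroup_iff _ _).mpr ?_)
      intro y hy
      rw [AlgEquiv.mul_apply, AlgEquiv.aut_inv, AlgEquiv.symm_apply_eq]
      exact (DFunLike.congr_fun h ⟨y, hy⟩).symm
    rw [← q.out_eq, ← q'.out_eq]
    exact QuotientGroup.eq.mpr key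
  have hind := (linearIndependent_monoidHom ↥L Ω).comp f hf
  let c : ↥J ⧸ M.subgroupOf J → Ω := fun q ↦ a ((q.out : ↥J) : Γ)
  have hne : ∃ y : L, ∑ q, c q * f q y ≠ 0 := by
    by_contra! h
    have h1 := Fintype.linearIndependent_iff.mp hind c (funext fun y ↦ by
      simpa [Finset.sum_apply] using h y) (QuotientGroup.mk (1 : ↥J))
    exact h0 _ (Subtype.coe_prop _) h1
  obtain ⟨y, hy⟩ := hne
  set b := ∑ q, c q * f q y with hb
  refine ⟨b⁻¹, inv_ne_zero hy, fun s hs ↦ ?_⟩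
  have hrep : ∀ r ∈ J, ∀ r' ∈ J, r⁻¹ * r' ∈ M → a r' = a r ∧ r' (y : Ω) = r (y : Ω) := by
    intro r hr r' hr' hm
    have e : r' = r * (r⁻¹ * r') := by group
    constructor
    · rw [e, hcts r hr _ (mul_mem (inv_mem hr) hr') (hMU hm)]
    · rw [e, AlgEquiv.mul_apply]
      congr 1
      exact (IntermediateField.mem_fixedField_iff _ _).mp y.2 _ hm
  have hsb : s b * a s = b := by
    rw [hb, map_sum, Finset.sum_mul]
    refine Fintype.sum_bijective (fun q ↦ (⟨s, hs⟩ : ↥J) • q) (MulAction.bijective _) _ _ fun q ↦ ?_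
    set q' := (⟨s, hs⟩ : ↥J) • q with hq'
    have hm : (s * ((q.out : ↥J) : Γ))⁻¹ * ((q'.out : ↥J) : Γ) ∈ M :=
      (QuotientGroup.eq (s := M.subgroupOf J) (a := (⟨s, hs⟩ : ↥J) * q.out) (b := q'.out)).mp (by
          rw [QuotientGroup.out_eq', hq']
          conv_rhs => rw [← QuotientGroup.out_eq' q]
          rfl)
    obtain ⟨h1, h2⟩ := hrep _ (mul_mem hs q.out.2) _ q'.out.2 hm
    simp only [c, f, MonoidHom.coe_mk, OneHom.coe_mk]
    rw [h1, h2, hcoc s hs _ q.out.2, map_mul, AlgEquiv.mul_apply]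
    ring
  have hsb0 : s b ≠ 0 := by simpa using hy
  rw [map_inv₀, inv_div_inv, eq_div_iff hsb0, mul_comm]
  exact hsb

/-! ### Characters -/

theorem exists_hom_zmod {C : Type*} [CommGroup C] [Finite C] (h : p ∣ Nat.card C) :
    ∃ ψ : C →* Multiplicative (ZMod p), ψ ≠ 1 := by
  classical
  let P : Subgroup C := (powMonoidHom p).range
  have hkill : ∀ x : C ⧸ P, x ^ p = 1 := fun x ↦ by
    induction x using QuotientGroup.induction_on with
    | _ x => exact (QuotientGroup.eq_one_iff _).mpr ⟨x, rfl⟩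
  letI : Module (ZMod p) (Additive (C ⧸ P)) :=
    AddCommGroup.zmodModule (n := p) fun x ↦ congrArg Additive.ofMul (hkill x.toMul)
  obtain ⟨x, hx⟩ : ∃ x : C, x ∉ P := by
    by_contra! hall
    obtain ⟨g, hg⟩ := exists_prime_orderOf_dvd_card' p h
    have hinj := Finite.injective_iff_surjective.mpr (show Function.Surjective (powMonoidHom p : C →* C)
      from fun y ↦ hall y)
    have : g = 1 := hinj (by simp [← hg, pow_orderOf_eq_one])
    rw [this, orderOf_one] at hg
    exact (Fact.out : p.Prime).ne_one hg.symm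
  have hx' : Additive.ofMul (QuotientGroup.mk x : C ⧸ P) ≠ 0 := fun h0 ↦
    hx ((QuotientGroup.eq_one_iff x).mp h0)
  haveI : Module.Free (ZMod p) (Additive (C ⧸ P)) := Module.Free.of_divisionRing (ZMod p) _
  haveI : Module.Projective (ZMod p) (Additive (C ⧸ P)) := Module.Projective.of_free
  have hdual := Module.forall_dual_apply_eq_zero_iff (V := Additive (C ⧸ P)) (ZMod p)
    (Additive.ofMul (QuotientGroup.mk x : C ⧸ P))
  obtain ⟨φ, hφ⟩ := not_forall.mp (mt hdual.mp hx')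
  refine ⟨(AddMonoidHom.toMultiplicativeRight φ.toAddMonoidHom).comp (QuotientGroup.mk' P),
    fun h1 ↦ hφ ?_⟩
  exact DFunLike.congr_fun h1 x

variable {A : ValuationSubring Ω} {q n : ℕ}

theorem eq_one_of_valuation_sub_one_lt (hq : q.Prime) (hA : A.LiesOverPrime q) (hn : ¬ q ∣ n)
    {η : Ω} (hη : η ^ n = 1) (h1 : A.valuation (η - 1) < 1) : η = 1 := by
  have hn0 : n ≠ 0 := fun h => hn (h ▸ dvd_zero q)
  by_contra hne
  have hsum : ∑ i ∈ Finset.range n, η ^ i = 0 := by
    have h := geom_sum_mul η n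
    rw [hη, sub_self, mul_eq_zero] at h
    exact h.resolve_right (sub_ne_zero.mpr hne)
  have hηA : η ∈ A := mem_of_isIntegral_int A
    (IsIntegral.of_pow (Nat.pos_of_ne_zero hn0) (hη ▸ isIntegral_one))
  have hres : IsLocalRing.residue A ⟨η, hηA⟩ = 1 := by
    rw [← sub_eq_zero, ← map_one (IsLocalRing.residue A), ← map_sub, IsLocalRing.residue_eq_zero_iff,
      ← ValuationSubring.coe_mem_nonunits_iff, ValuationSubring.mem_nonunits_iff]
    exact h1
  have h := congrArg (IsLocalRing.residue A)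
    (show ∑ i ∈ Finset.range n, (⟨η, hηA⟩ : A) ^ i = 0 from Subtype.ext (by push_cast; exact hsum))
  rw [map_sum] at h
  simp only [map_pow, hres, one_pow, map_zero, Finset.sum_const, Finset.card_range, nsmul_one] at h
  haveI := Frobenius.residueField_charP hq hA
  exact hn ((CharP.cast_eq_zero_iff (IsLocalRing.ResidueField A) q n).mp h)

/-- Frobenius raises roots of unity of order prime to `q` to the power `q`. -/
theorem frobenius_root_of_unity (hq : q.Prime) (hA : A.LiesOverPrime q) (hn : ¬ q ∣ n) {σ : Γ}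
    (hσ : A.IsFrobeniusAt σ q) {μ : Ω} (hμ : μ ^ n = 1) : σ μ = μ ^ q := by
  obtain ⟨hd, hfr⟩ := hσ
  have hn0 : n ≠ 0 := fun h => hn (h ▸ dvd_zero q)
  have hμ0 : μ ≠ 0 := fun h => by rw [h, zero_pow hn0] at hμ; exact zero_ne_one hμ
  have hμA : μ ∈ A := mem_of_isIntegral_int A
    (IsIntegral.of_pow (Nat.pos_of_ne_zero hn0) (hμ ▸ isIntegral_one))
  have hv : A.valuation (μ ^ q) = 1 := by
    rw [map_pow, (pow_eq_one_iff_of_nonneg zero_le hn0).1
      (show A.valuation μ ^ n = 1 by rw [← map_pow, hμ, map_one]), one_pow]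
  have h2 := hfr (IsLocalRing.residue A ⟨μ, hμA⟩)
  rw [← IsLocalRing.ResidueField.residue_smul, ← map_pow, ← sub_eq_zero, ← map_sub,
    IsLocalRing.residue_eq_zero_iff, ← ValuationSubring.coe_mem_nonunits_iff,
    ValuationSubring.mem_nonunits_iff] at h2
  refine (div_eq_one_iff_eq (pow_ne_zero q hμ0)).mp (eq_one_of_valuation_sub_one_lt hq hA hn ?_ ?_)
  · rw [div_pow, ← map_pow, hμ, map_one, ← pow_mul, mul_comm, pow_mul, hμ, one_pow, div_one]
  · rw [div_sub_one (pow_ne_zero q hμ0), map_div₀, hv, div_one]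
    exact h2

end Fermat.Agent.GalCoh.Descent
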