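import Fermat.Agent.GalCoh.Descent.Inertia

/-!
# Divisors outside `S`, principal up to the class number; roots
-/

set_option autoImplicit false
set_option linter.unusedSectionVars false
set_option linter.style.haveILetI false

noncomputable section

open NumberField IsDedekindDomain
open scoped Pointwise NumberField nonZeroDivisors

namespace Fermat.Agent.GalCoh.Descent

open Fermat.Agent.FreyReducible Fermat.Agent.CFT

local notation "Ω" => AlgebraicClosure ℚ
local notation "Γ" => (AlgebraicClosure ℚ ≃ₐ[ℚ] AlgebraicClosure ℚ)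

local instance isAlgebraicQbar_dv : Algebra.IsAlgebraic ℚ (AlgebraicClosure ℚ) :=
  AlgebraicClosure.isAlgebraic ℚ
local instance isAlgClosureQbar_dv : IsAlgClosure ℚ (AlgebraicClosure ℚ) :=
  ⟨inferInstance, inferInstance⟩
local instance isGaloisQbar_dv : IsGalois ℚ (AlgebraicClosure ℚ) :=
  have : Normal ℚ (AlgebraicClosure ℚ) := IsAlgClosure.normal ℚ (AlgebraicClosure ℚ)
  have : Algebra.IsSeparable ℚ (AlgebraicClosure ℚ) :=
    Algebra.IsAlgebraic.isSeparable_of_perfectField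
  IsGalois.mk

/-- A cocycle with values in functions on a `G`-set, vanishing on stabilisers, is a coboundary. -/
theorem exists_coboundary {G X M : Type*} [Group G] [MulAction G X] [AddCommGroup M]
    (θ : G → X → M) (hθ : ∀ s t x, θ (s * t) x = θ s x + θ t (s⁻¹ • x))
    (hstab : ∀ s x, s • x = x → θ s x = 0) :
    ∃ η : X → M, (∀ s x, θ s x = η x - η (s⁻¹ • x)) ∧ ∀ x, (∀ s, θ s x = 0) → η x = 0 := by
  classical
  let r : X → X := fun x ↦ (Quotient.mk (MulAction.orbitRel G X) x).out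
  have hex : ∀ x, ∃ t : G, t • r x = x := fun x ↦
    Setoid.symm' _ (Quotient.mk_out (s := MulAction.orbitRel G X) x)
  choose t ht using hex
  refine ⟨fun x ↦ θ (t x) x, fun s x ↦ ?_, fun x hx ↦ hx _⟩
  set y := s⁻¹ • x with hy
  have hr : r y = r x :=
    congrArg Quotient.out (Quotient.sound (s := MulAction.orbitRel G X) ⟨s⁻¹, rfl⟩)
  have hu : ((t x)⁻¹ * (s * t y)) • r x = r x := by
    rw [mul_smul, mul_smul, inv_smul_eq_iff, ← hr, ht, hy, smul_inv_smul, hr, ht]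
  have h1 := hθ s (t y) x
  have h2 := hθ (t x) ((t x)⁻¹ * (s * t y)) x
  rw [mul_inv_cancel_left, show (t x)⁻¹ • x = r x by rw [inv_smul_eq_iff, ht],
    hstab _ _ hu, add_zero] at h2
  rw [h2] at h1
  simp only [h1]
  abel

lemma ordv_eq_cnt {M : Type} [Field M] [NumberField M] (w : HeightOneSpectrum (𝓞 M)) {r : 𝓞 M}
    (hr : r ≠ 0) :
    ordv w (algebraMap (𝓞 M) M r) = (ExtVanishing.cnt w.asIdeal (Ideal.span {r}) : ℕ) := by
  have h0 : algebraMap (𝓞 M) M r ≠ 0 := by simpa using hr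
  have key : ∀ k : ℕ, (k : ℤ) ≤ ordv w (algebraMap (𝓞 M) M r) ↔
      k ≤ ExtVanishing.cnt w.asIdeal (Ideal.span {r}) := fun k ↦ by
    rw [← valuation_le_exp_iff w h0, w.valuation_of_algebraMap, w.intValuation_le_pow_iff_mem,
      ExtVanishing.mem_pow_iff_cnt w.isPrime w.ne_bot hr]
  obtain ⟨n, hn⟩ := Int.eq_ofNat_of_zero_le (ordv_algebraMap_nonneg w r)
  rw [hn] at key ⊢
  exact congrArg Nat.cast (le_antisymm ((key n).mp le_rfl)
    (by have := (key (ExtVanishing.cnt w.asIdeal (Ideal.span {r}))).mpr le_rfl; omega))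

/-- Effective divisors become principal after multiplication by the class number. -/
lemma exists_ordv_eq_classNumber_mul {M : Type} [Field M] [NumberField M]
    (s : Finset (HeightOneSpectrum (𝓞 M))) (n : HeightOneSpectrum (𝓞 M) → ℕ)
    (hn : ∀ w ∉ s, n w = 0) :
    ∃ r : 𝓞 M, r ≠ 0 ∧
      ∀ w, ordv w (algebraMap (𝓞 M) M r) = (Fintype.card (ClassGroup (𝓞 M)) * n w : ℕ) := by
  classical
  set h := Fintype.card (ClassGroup (𝓞 M))
  let I : Ideal (𝓞 M) := ∏ w ∈ s, w.asIdeal ^ n w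
  have hI : I ≠ 0 := Finset.prod_ne_zero_iff.mpr fun w _ ↦ pow_ne_zero _ w.ne_bot
  let J : (Ideal (𝓞 M))⁰ := ⟨I, mem_nonZeroDivisors_of_ne_zero hI⟩
  have h1 : ClassGroup.mk0 (J ^ h) = 1 := by rw [map_pow, pow_card_eq_one]
  obtain ⟨r, hr⟩ := (ClassGroup.mk0_eq_one_iff (J ^ h).2).mp h1
  rw [Ideal.submodule_span_eq] at hr
  change I ^ h = Ideal.span {r} at hr
  have hr0 : r ≠ 0 := fun h0 ↦ pow_ne_zero h hI (by rw [hr, h0]; simp)
  refine ⟨r, hr0, fun w ↦ ?_⟩
  rw [ordv_eq_cnt w hr0, ← hr, ExtVanishing.cnt_pow, ExtVanishing.cnt_prod _ _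
    (fun v _ ↦ pow_ne_zero _ v.ne_bot)]
  simp only [ExtVanishing.cnt_pow]
  congr 2
  rw [Finset.sum_eq_single w (fun v _ hv ↦ ?_) (fun hw ↦ by rw [hn w hw, zero_mul]),
    ExtVanishing.cnt_self w.isPrime w.ne_bot, mul_one]
  rw [ExtVanishing.cnt, Multiset.count_eq_zero.mpr ?_, mul_zero]
  intro hmem
  refine hv (HeightOneSpectrum.ext ?_)
  have hle := Ideal.le_of_dvd (UniqueFactorizationMonoid.dvd_of_mem_normalizedFactors hmem)
  exact (v.isPrime.isMaximal v.ne_bot).eq_of_le w.isPrime.ne_top hle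

lemma exists_place_over {M : IntermediateField ℚ Ω} [NumberField M]
    (w : HeightOneSpectrum (𝓞 M)) :
    ∃ (q : Nat.Primes) (A : ValuationSubring Ω),
      A.LiesOverPrime (q : ℕ) ∧ fieldPrime A M = w.asIdeal := by
  obtain ⟨A, hA⟩ := exists_valuationSubring_over M w.asIdeal
  obtain ⟨n, hn⟩ := (inferInstance : (w.asIdeal.under ℤ).IsPrincipal)
  rw [Ideal.submodule_span_eq, ← Int.span_natAbs] at hn
  have hn0 : w.asIdeal.under ℤ ≠ ⊥ := Ideal.IsIntegral.comap_ne_bot ℤ w.ne_bot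
  have hq : n.natAbs.Prime := by
    rw [Nat.prime_iff_prime_int]
    refine (Ideal.span_singleton_prime (fun h ↦ hn0 ?_)).mp (hn ▸ w.isPrime.under ℤ)
    rw [hn, Ideal.span_singleton_eq_bot]
    exact h
  have hP : (fieldPrime A M).IsPrime :=
    inferInstanceAs ((placeIdeal A).under (𝓞 M)).IsPrime
  have heq : fieldPrime A M = w.asIdeal := (w.isMaximal.eq_of_le hP.ne_top hA).symm
  refine ⟨⟨n.natAbs, hq⟩, A, ?_, heq⟩
  have h : ((n.natAbs : ℕ) : 𝓞 M) ∈ w.asIdeal := by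
    have h : ((n.natAbs : ℕ) : ℤ) ∈ w.asIdeal.under ℤ := by
      rw [hn]; exact Ideal.mem_span_singleton_self _
    rw [Ideal.mem_comap, map_natCast] at h
    exact h
  rw [← heq, mem_fieldPrime] at h
  rw [ValuationSubring.LiesOverPrime]
  push_cast at h
  exact h

lemma prime_unique {M : Type} [Field M] [NumberField M] (w : HeightOneSpectrum (𝓞 M))
    {q q' : Nat.Primes} (h : ((q : ℕ) : 𝓞 M) ∈ w.asIdeal) (h' : ((q' : ℕ) : 𝓞 M) ∈ w.asIdeal) :
    q = q' := by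
  by_contra hne
  have hcop := (Nat.coprime_primes q.2 q'.2).mpr fun e ↦ hne (Subtype.ext e)
  refine w.isPrime.ne_top ((Ideal.eq_top_iff_one _).mpr ?_)
  have hu := Nat.gcd_eq_gcd_ab (q : ℕ) (q' : ℕ)
  rw [hcop.gcd_eq_one] at hu
  have := congrArg (Int.cast : ℤ → 𝓞 M) hu
  push_cast at this
  rw [this]
  exact add_mem (Ideal.mul_mem_right _ _ h) (Ideal.mul_mem_right _ _ h')

variable {S : Finset Nat.Primes} {E : IntermediateField ℚ Ω}

lemma apply_eq_of_unramified (hE : E.IsUnramifiedOutside S) {q : Nat.Primes} (hqS : q ∉ S)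
    {A : ValuationSubring Ω} (hA : A.LiesOverPrime (q : ℕ)) {σ : Γ}
    (hσ : σ ∈ A.inertiaSubgroupIn ℚ) {x : Ω} (hx : x ∈ E) : σ x = x :=
  (IntermediateField.mem_fixingSubgroup_iff _ _).mp (hE.2 q hqS A hA hσ) x hx

lemma exists_int_nu (hE : E.IsUnramifiedOutside S) {q : Nat.Primes} (hqS : q ∉ S)
    {A : ValuationSubring Ω} (hA : A.LiesOverPrime (q : ℕ)) {x : Ω} (hx : x ∈ E) (hx0 : x ≠ 0) :
    ∃ m : ℤ, nu q A x = m :=
  exists_int_nu_eq q.2 hA hx0 fun _ hσ ↦ apply_eq_of_unramified hE hqS hA hσ hx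

lemma nu_eq_ordv (hE : E.IsUnramifiedOutside S) [NumberField E] {q : Nat.Primes} (hqS : q ∉ S)
    {A : ValuationSubring Ω} (hA : A.LiesOverPrime (q : ℕ)) {x : E} (hx : x ≠ 0) :
    nu q A (x : Ω) = ordv (fieldPlace q.2 hA E) x := by
  obtain ⟨π, hπ0, hπ⟩ := exists_ordv_eq_one (fieldPlace q.2 hA E)
  obtain ⟨m, hm⟩ := exists_int_nu hE hqS hA π.2 (by simpa using hπ0)
  have hpos := ordv_natCast_pos q.2 hA E
  rw [nu_eq_div q.2 hA E hπ0, hπ, Int.cast_one, eq_comm, eq_div_iff (by exact_mod_cast hpos.ne')]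
    at hm
  have he : m * ordv (fieldPlace q.2 hA E) ((q : ℕ) : E) = 1 := by exact_mod_cast hm
  have he' : ordv (fieldPlace q.2 hA E) ((q : ℕ) : E) = 1 :=
    Int.eq_one_of_dvd_one hpos.le (Dvd.intro_left m he)
  rw [nu_eq_div q.2 hA E hx, he', Int.cast_one, div_one]

/-- A divisor outside `S` on a Galois field unramified outside `S` becomes principal outside `S`
after multiplication by the class number. -/
theorem exists_elem_nu (hE : E.IsUnramifiedOutside S) [NumberField E] [IsGalois ℚ E]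
    (D : ValuationSubring Ω → ℤ)
    (hinv : ∀ n ∈ E.fixingSubgroup, ∀ (q : Nat.Primes) A,
      q ∉ S → A.LiesOverPrime (q : ℕ) → D (n • A) = D A)
    (hfin : ∃ T : Finset Nat.Primes, ∀ (q : Nat.Primes) A, q ∉ S → q ∉ T →
      A.LiesOverPrime (q : ℕ) → D A = 0) :
    ∃ α : Ω, α ∈ E ∧ α ≠ 0 ∧ ∀ (q : Nat.Primes) A, q ∉ S → A.LiesOverPrime (q : ℕ) →
      nu q A α = (Fintype.card (ClassGroup (𝓞 E)) : ℚ) * D A := by
  classical
  haveI := hE.1
  choose qw Aw hAw hAwE using fun w : HeightOneSpectrum (𝓞 E) ↦ exists_place_over w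
  let n : HeightOneSpectrum (𝓞 E) → ℤ := fun w ↦ if qw w ∈ S then 0 else D (Aw w)
  obtain ⟨T, hT⟩ := hfin
  have hT0 : Ideal.span {((∏ q ∈ T, (q : ℕ) : ℕ) : 𝓞 E)} ≠ 0 := by
    rw [ne_eq, Submodule.zero_eq_bot, Ideal.span_singleton_eq_bot, Nat.cast_eq_zero]
    exact Finset.prod_ne_zero_iff.mpr fun q _ ↦ q.2.ne_zero
  have hmemq : ∀ w, ((qw w : ℕ) : 𝓞 E) ∈ w.asIdeal := fun w ↦ by
    rw [← hAwE w]; exact natCast_mem_fieldPrime (qw w).2 (hAw w) E
  have hsupp : {w | n w ≠ 0}.Finite := by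
    refine (Ideal.finite_factors hT0).subset fun w hw ↦ ?_
    simp only [Set.mem_ofPred_eq, n] at hw
    split_ifs at hw with hS
    · exact absurd rfl hw
    have hD := hw
    refine Ideal.dvd_span_singleton.mpr ?_
    have hqT : qw w ∈ T := by_contra fun hq ↦ hD (hT _ _ hS hq (hAw w))
    obtain ⟨c, hc⟩ := Finset.dvd_prod_of_mem (fun q : Nat.Primes ↦ (q : ℕ)) hqT
    rw [hc, Nat.cast_mul]
    exact Ideal.mul_mem_right _ _ (hmemq w)
  obtain ⟨r₁, hr₁, h₁⟩ := exists_ordv_eq_classNumber_mul hsupp.toFinset (fun w ↦ (n w).toNat)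
    fun w hw ↦ by simp only [Set.Finite.mem_toFinset, Set.mem_ofPred_eq, not_not] at hw; simp [hw]
  obtain ⟨r₂, hr₂, h₂⟩ := exists_ordv_eq_classNumber_mul hsupp.toFinset (fun w ↦ (-n w).toNat)
    fun w hw ↦ by simp only [Set.Finite.mem_toFinset, Set.mem_ofPred_eq, not_not] at hw; simp [hw]
  have e₁ : algebraMap (𝓞 E) E r₁ ≠ 0 := by simpa using hr₁
  have e₂ : algebraMap (𝓞 E) E r₂ ≠ 0 := by simpa using hr₂
  set α : E := algebraMap (𝓞 E) E r₁ / algebraMap (𝓞 E) E r₂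
  refine ⟨(α : Ω), α.2, fun h ↦ div_ne_zero e₁ e₂ (Subtype.ext h), fun q A hqS hA ↦ ?_⟩
  set w := fieldPlace q.2 hA E with hw
  have hqw : qw w = q := prime_unique w (hmemq w) (natCast_mem_fieldPrime q.2 hA E)
  have hAw' : (Aw w).LiesOverPrime (q : ℕ) := hqw ▸ hAw w
  obtain ⟨g, hg, hgA⟩ := exists_fixing_smul_eq q.2 hAw' E hA (hAwE w)
  have hn : n w = D A := by
    simp only [n, hqw, if_neg hqS]
    rw [← hinv g hg q _ hqS hAw', hgA]
  rw [nu_eq_ordv hE hqS hA (div_ne_zero e₁ e₂), ordv_div w e₁ e₂, h₁, h₂, hn]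
  have hd : ((D A).toNat : ℤ) - ((-D A).toNat : ℤ) = D A := by omega
  push_cast
  rw [← mul_sub]
  congr 1
  exact_mod_cast congrArg (Int.cast : ℤ → ℚ) hd

/-- Adjoining `p`-power roots of elements with divisible valuations outside `S ∋ p` keeps the
field unramified outside `S`. -/
theorem exists_root_level {p : Nat.Primes} (hpS : p ∈ S) (hE : E.IsUnramifiedOutside S) (k : ℕ)
    {ι : Type} [Finite ι] (y : ι → Ω) (hy0 : ∀ i, y i ≠ 0)
    (hyE : ∀ i, y i ^ (p : ℕ) ^ k ∈ E)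
    (hdiv : ∀ i (q : Nat.Primes) A, q ∉ S → A.LiesOverPrime (q : ℕ) →
      ∃ b ∈ E, b ≠ 0 ∧ nu q A (y i ^ (p : ℕ) ^ k) = (((p : ℕ) ^ k : ℕ) : ℚ) * nu q A b) :
    ∃ F : IntermediateField ℚ Ω, F.IsUnramifiedOutside S ∧ Normal ℚ F ∧ E ≤ F ∧ ∀ i, y i ∈ F := by
  haveI := hE.1
  let F₀ := E ⊔ IntermediateField.adjoin ℚ (Set.range y)
  haveI : FiniteDimensional ℚ (IntermediateField.adjoin ℚ (Set.range y)) :=
    IntermediateField.finiteDimensional_adjoin fun x _ ↦ Algebra.IsIntegral.isIntegral x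
  have hF₀ : F₀.IsUnramifiedOutside S := by
    refine ⟨IntermediateField.finiteDimensional_sup _ _, fun q hqS A hA σ hσ ↦ ?_⟩
    have hle : F₀ ≤ IntermediateField.fixedField (Subgroup.zpowers σ) := by
      have key : ∀ x : Ω, σ x = x → x ∈ IntermediateField.fixedField (Subgroup.zpowers σ) :=
        fun x hx ↦ (IntermediateField.mem_fixedField_iff _ _).mpr fun g hg ↦ by
          obtain ⟨n, rfl⟩ := Subgroup.mem_zpowers_iff.mp hg
          have : σ ∈ MulAction.stabilizer Γ x := hx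
          exact zpow_mem this n
      refine sup_le (fun x hx ↦ key x (apply_eq_of_unramified hE hqS hA hσ hx))
        (IntermediateField.adjoin_le_iff.mpr ?_)
      rintro _ ⟨i, rfl⟩
      obtain ⟨b, hbE, hb0, hb⟩ := hdiv i q A hqS hA
      refine key _ (apply_root_eq q.2 hA p.2 (fun h ↦ hqS (Subtype.ext h ▸ hpS)) hσ (hy0 i) rfl
        (apply_eq_of_unramified hE hqS hA hσ (hyE i)) hb0
        (apply_eq_of_unramified hE hqS hA hσ hbE) hb)
    exact (IntermediateField.mem_fixingSubgroup_iff _ _).mpr fun x hx ↦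
      (IntermediateField.mem_fixedField_iff _ _).mp (hle hx) σ (Subgroup.mem_zpowers σ)
  exact ⟨IntermediateField.normalClosure ℚ F₀ Ω, isUnramifiedOutside_normalClosure hF₀,
    normalClosure.normal ℚ F₀ Ω, le_sup_left.trans F₀.le_normalClosure,
    fun i ↦ F₀.le_normalClosure ((le_sup_right : _ ≤ F₀)
      (IntermediateField.subset_adjoin ℚ _ ⟨i, rfl⟩))⟩

end Fermat.Agent.GalCoh.Descent
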