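import Fermat.Agent.GalCoh.Descent.Inertia
import Fermat.Agent.GalCoh.CFTInputs

/-!
# The image of the local Galois group is the decomposition group
-/

set_option autoImplicit false
set_option linter.unusedSectionVars false
set_option linter.style.haveILetI false

noncomputable section

open scoped Pointwise TensorProduct NNReal

namespace Fermat.Agent.GalCoh.Descent

open Fermat.Agent.FreyReducible ExtCitation

local notation "Ω" => AlgebraicClosure ℚ
local notation "Γ" => (AlgebraicClosure ℚ ≃ₐ[ℚ] AlgebraicClosure ℚ)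

variable (q : ℕ) [Fact q.Prime]

theorem padicPlace_liesOver : (padicPlace q).LiesOverPrime q := by
  rw [ValuationSubring.LiesOverPrime, ValuationSubring.mem_nonunits_iff_or]
  right
  rw [mem_padicPlace_iff, map_inv₀, map_natCast, not_le]
  have h : ‖((q : ℕ) : PadicAlgCl q)‖ < 1 := by
    rw [← map_natCast (algebraMap ℚ_[q] (PadicAlgCl q)), norm_algebraMap', Padic.norm_p]
    exact inv_lt_one_of_one_lt₀ (by exact_mod_cast (Fact.out : q.Prime).one_lt)
  have h0 : (0 : ℝ) < ‖((q : ℕ) : PadicAlgCl q)‖ :=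
    norm_pos_iff.mpr (Nat.cast_ne_zero.mpr (Fact.out : q.Prime).ne_zero)
  rw [← NNReal.coe_lt_coe, coe_nnnorm, norm_inv, NNReal.coe_one]
  exact (one_lt_inv₀ h0).mpr h

lemma norm_padicEmbedding_eq_one {y : Ω} (h : (padicPlace q).valuation y = 1) :
    ‖padicEmbedding q y‖ = 1 := by
  have h1 : y ∈ padicPlace q := ((padicPlace q).valuation_le_one_iff y).mp h.le
  have h2 : y⁻¹ ∈ padicPlace q := ((padicPlace q).valuation_le_one_iff y⁻¹).mp (by simp [h])
  have hy : padicEmbedding q y ≠ 0 := by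
    simp only [ne_eq, map_eq_zero]
    rintro rfl
    simp at h
  rw [mem_padicPlace_iff, ← NNReal.coe_le_coe, coe_nnnorm, NNReal.coe_one] at h1 h2
  rw [map_inv₀, norm_inv] at h2
  exact le_antisymm h1 ((inv_le_one₀ (norm_pos_iff.mpr hy)).mp h2)

lemma norm_padicEmbedding_apply {σ : Γ} (hσ : σ ∈ (padicPlace q).decompositionSubgroup ℚ)
    (y : Ω) : ‖padicEmbedding q (σ y)‖ = ‖padicEmbedding q y‖ := by
  rcases eq_or_ne y 0 with rfl | hy
  · rw [map_zero]
  have hσ' : σ • padicPlace q = padicPlace q := hσ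
  have hq : q.Prime := Fact.out
  obtain ⟨a, b, hb, -, hab⟩ := hasNu_nu hq (padicPlace_liesOver q) hy
  have hq0 : ((q : ℕ) : Ω) ≠ 0 := Nat.cast_ne_zero.mpr hq.ne_zero
  have key : ∀ z : Ω, (padicPlace q).valuation (z ^ b / (q : Ω) ^ a) = 1 →
      ‖padicEmbedding q z‖ ^ b = ‖((q : ℕ) : PadicAlgCl q)‖ ^ a := fun z hz ↦ by
    have h := norm_padicEmbedding_eq_one q hz
    rw [map_div₀, map_pow, map_zpow₀, map_natCast, norm_div, norm_pow, norm_zpow] at h
    exact (div_eq_one_iff_eq (zpow_ne_zero _ (norm_ne_zero_iff.mpr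
      (Nat.cast_ne_zero.mpr hq.ne_zero)))).mp h
  have h1 : (padicPlace q).valuation (y ^ b / (q : Ω) ^ a) = 1 := by
    rw [map_div₀, map_pow, map_zpow₀, hab, div_self]
    exact zpow_ne_zero _ ((Valuation.ne_zero_iff _).mpr hq0)
  have h2 : (padicPlace q).valuation ((σ y) ^ b / (q : Ω) ^ a) = 1 := by
    have h := (valuation_apply_eq_one (padicPlace q) σ _).mpr h1
    rwa [hσ', map_div₀ σ, map_pow σ, map_zpow₀ σ, map_natCast σ] at h
  exact (pow_left_inj₀ (norm_nonneg _) (norm_nonneg _) hb.ne').mp ((key _ h2).trans (key _ h1).symm)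

/-- `ℚ_q ⊗ Ω → ℚ̄_q` along an embedding twisted by `σ`. -/
def twistLift (σ : Γ) : ℚ_[q] ⊗[ℚ] Ω →ₐ[ℚ_[q]] PadicAlgCl q :=
  Algebra.TensorProduct.lift (Algebra.ofId ℚ_[q] (PadicAlgCl q))
    ((padicEmbedding q).comp σ.toAlgHom) fun _ _ ↦ Commute.all _ _

lemma twistLift_tmul (σ : Γ) (c : ℚ_[q]) (y : Ω) :
    twistLift q σ (c ⊗ₜ y) = c • padicEmbedding q (σ y) := by
  rw [twistLift, Algebra.TensorProduct.lift_tmul, Algebra.smul_def]
  rfl

lemma twistLift_eq_zero {σ : Γ} (hσ : σ ∈ (padicPlace q).decompositionSubgroup ℚ)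
    (z : ℚ_[q] ⊗[ℚ] Ω) (hz : twistLift q 1 z = 0) : twistLift q σ z = 0 := by
  obtain ⟨s, rfl⟩ := TensorProduct.exists_finset z
  simp only [map_sum, twistLift_tmul, AlgEquiv.one_apply] at hz ⊢
  set B := ∑ i ∈ s, (‖padicEmbedding q (σ i.2)‖ + ‖padicEmbedding q i.2‖) with hB
  refine norm_le_zero_iff.mp (le_of_forall_pos_le_add fun ε hε ↦ ?_)
  have hB0 : 0 ≤ B := Finset.sum_nonneg fun i _ ↦ add_nonneg (norm_nonneg _) (norm_nonneg _)
  choose r hr using fun c : ℚ_[q] ↦ Padic.rat_dense q c (ε := ε / (B + 1)) (by positivity)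
  set y : Ω := ∑ i ∈ s, (r i.1 : Ω) * i.2
  have hy : ∀ τ : Γ, padicEmbedding q (τ y) =
      ∑ i ∈ s, (r i.1 : ℚ_[q]) • padicEmbedding q (τ i.2) := fun τ ↦ by
    simp only [y, map_sum, map_mul, map_ratCast, Algebra.smul_def]
  have e1 : (∑ i ∈ s, i.1 • padicEmbedding q (σ i.2)) =
      (∑ i ∈ s, (i.1 - r i.1) • padicEmbedding q (σ i.2)) + padicEmbedding q (σ y) := by
    rw [hy, ← Finset.sum_add_distrib]
    simp [sub_smul]
  have e2 : padicEmbedding q y = -∑ i ∈ s, (i.1 - r i.1) • padicEmbedding q i.2 := by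
    have h := hy 1
    simp only [AlgEquiv.one_apply] at h
    simp only [sub_smul, Finset.sum_sub_distrib, hz, h, zero_sub, neg_neg]
  have hle : ∀ f : Ω → PadicAlgCl q, ‖∑ i ∈ s, (i.1 - r i.1) • f i.2‖ ≤
      ε / (B + 1) * ∑ i ∈ s, ‖f i.2‖ := fun f ↦ by
    rw [Finset.mul_sum]
    refine (norm_sum_le _ _).trans (Finset.sum_le_sum fun i _ ↦ ?_)
    rw [norm_smul]
    exact mul_le_mul_of_nonneg_right (hr i.1).le (norm_nonneg _)
  rw [zero_add, e1]
  refine (norm_add_le _ _).trans ?_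
  rw [norm_padicEmbedding_apply q hσ, e2, norm_neg]
  calc _ ≤ ε / (B + 1) * (∑ i ∈ s, ‖padicEmbedding q (σ i.2)‖) +
      ε / (B + 1) * ∑ i ∈ s, ‖padicEmbedding q i.2‖ :=
        add_le_add (hle fun x ↦ padicEmbedding q (σ x)) (hle fun x ↦ padicEmbedding q x)
    _ = ε / (B + 1) * B := by rw [hB, Finset.sum_add_distrib]; ring
    _ ≤ ε := by
      rw [div_mul_eq_mul_div, div_le_iff₀ (by linarith)]
      nlinarith

/-- Every element of the decomposition group comes from the local Galois group. -/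
theorem exists_localGaloisToGlobal_eq {σ : Γ}
    (hσ : σ ∈ (padicPlace q).decompositionSubgroup ℚ) :
    ∃ τ, localGaloisToGlobal q τ = σ := by
  set f₁ := twistLift q 1
  set R := f₁.range
  have hR : IsField R := Subalgebra.isField_of_algebraic R
  let e := Ideal.quotientKerEquivRange f₁
  let g : R →ₐ[ℚ_[q]] PadicAlgCl q :=
    (Ideal.Quotient.liftₐ (RingHom.ker f₁.toRingHom) (twistLift q σ)
      fun z hz ↦ twistLift_eq_zero q hσ z hz).comp e.symm.toAlgHom
  let F : IntermediateField ℚ_[q] (PadicAlgCl q) := R.toIntermediateField' hR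
  haveI : Normal ℚ_[q] (PadicAlgCl q) := IsAlgClosure.normal ℚ_[q] (PadicAlgCl q)
  let t : PadicAlgCl q →ₐ[ℚ_[q]] PadicAlgCl q := (show F →ₐ[ℚ_[q]] PadicAlgCl q from g).liftNormal _
  refine ⟨AlgEquiv.ofBijective t (Algebra.IsAlgebraic.algHom_bijective t), AlgEquiv.ext fun x ↦ ?_⟩
  apply (padicEmbedding q).toRingHom.injective
  show padicEmbedding q _ = padicEmbedding q _
  rw [padicEmbedding_localGaloisToGlobal, AlgEquiv.coe_ofBijective]
  have hx : padicEmbedding q x ∈ R := ⟨1 ⊗ₜ x, by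
    show f₁ (1 ⊗ₜ x) = _
    rw [twistLift_tmul, one_smul, AlgEquiv.one_apply]⟩
  have h1 : t (padicEmbedding q x) = g ⟨_, hx⟩ :=
    AlgHom.liftNormal_commutes _ (PadicAlgCl q) (⟨_, hx⟩ : F)
  have h2 : e.symm ⟨_, hx⟩ = Ideal.Quotient.mk _ (1 ⊗ₜ x) := by
    rw [AlgEquiv.symm_apply_eq]
    refine Subtype.ext ?_
    show padicEmbedding q x = f₁ (1 ⊗ₜ x)
    rw [twistLift_tmul, one_smul, AlgEquiv.one_apply]
  rw [h1]
  simp only [g, AlgHom.comp_apply]
  erw [h2]
  show twistLift q σ (1 ⊗ₜ x) = _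
  rw [twistLift_tmul, one_smul]

/-- The image of a conjugated local group is the decomposition group of the conjugate place. -/
theorem exists_conjLoc_eq (v : Nat.Primes) (g : Γ) {σ : Γ}
    (hσ : σ ∈ (g • primeLocalPlace v).decompositionSubgroup ℚ) :
    ∃ x : ExtCitation.primeLocalGaloisGroup v, conjLoc (Sum.inr v) g x = σ := by
  haveI : Fact (v : ℕ).Prime := ⟨v.2⟩
  have h : g⁻¹ * σ * g ∈ (padicPlace (v : ℕ)).decompositionSubgroup ℚ := by
    have h' : σ • g • padicPlace (v : ℕ) = g • padicPlace (v : ℕ) := hσ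
    show (g⁻¹ * σ * g) • padicPlace (v : ℕ) = padicPlace (v : ℕ)
    rw [mul_smul, mul_smul, h', inv_smul_smul]
  obtain ⟨τ, hτ⟩ := exists_localGaloisToGlobal_eq (v : ℕ) h
  refine ⟨τ, ?_⟩
  show g * localGaloisToGlobal (v : ℕ) τ * g⁻¹ = σ
  rw [hτ]
  group

theorem conjLoc_mem_decomposition (v : Nat.Primes) (g : Γ)
    (x : ExtCitation.primeLocalGaloisGroup v) :
    conjLoc (Sum.inr v) g x ∈ (g • primeLocalPlace v).decompositionSubgroup ℚ := by
  haveI : Fact (v : ℕ).Prime := ⟨v.2⟩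
  have h : localGaloisToGlobal (v : ℕ) x • padicPlace (v : ℕ) = padicPlace (v : ℕ) :=
    localGaloisToGlobal_mem_decompositionSubgroup (v : ℕ) x
  show (g * localGaloisToGlobal (v : ℕ) x * g⁻¹) • g • padicPlace (v : ℕ) = g • padicPlace (v : ℕ)
  rw [mul_smul, inv_smul_smul, mul_smul, h]

theorem primeLocalPlace_liesOver (v : Nat.Primes) :
    (ExtCitation.primeLocalPlace v).LiesOverPrime (v : ℕ) :=
  haveI : Fact (v : ℕ).Prime := ⟨v.2⟩
  padicPlace_liesOver (v : ℕ)

end Fermat.Agent.GalCoh.Descent
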