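import Fermat.Agent.GalCoh.Descent.Mu
import Fermat.Agent.GalCoh.Descent.LocalImage

/-!
# A non-zero local class killed by a cyclotomic extension
-/

set_option autoImplicit false
set_option linter.unusedSectionVars false
set_option linter.style.haveILetI false

noncomputable section

open NumberField IsDedekindDomain
open scoped Pointwise NumberField

namespace Fermat.Agent.GalCoh.Descent

open Fermat.Agent.FreyReducible Fermat.Agent.CFT ExtCitation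

local notation "Ω" => AlgebraicClosure ℚ
local notation "Γ" => (AlgebraicClosure ℚ ≃ₐ[ℚ] AlgebraicClosure ℚ)

local instance isAlgebraicQbar_lc : Algebra.IsAlgebraic ℚ (AlgebraicClosure ℚ) :=
  AlgebraicClosure.isAlgebraic ℚ
local instance isAlgClosureQbar_lc : IsAlgClosure ℚ (AlgebraicClosure ℚ) :=
  ⟨inferInstance, inferInstance⟩
local instance isGaloisQbar_lc : IsGalois ℚ (AlgebraicClosure ℚ) :=
  have : Normal ℚ (AlgebraicClosure ℚ) := IsAlgClosure.normal ℚ (AlgebraicClosure ℚ)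
  have : Algebra.IsSeparable ℚ (AlgebraicClosure ℚ) :=
    Algebra.IsAlgebraic.isSeparable_of_perfectField
  IsGalois.mk

theorem fixingSubgroup_fixedField_of_mem {U : Subgroup Γ} (hU : fullLevels.mem U) :
    (IntermediateField.fixedField U : IntermediateField ℚ Ω).fixingSubgroup = U := by
  obtain ⟨F, hF, hFU⟩ := hU
  have hopen : IsOpen (U : Set Γ) :=
    Subgroup.isOpen_mono hFU (IntermediateField.fixingSubgroup_isOpen F)
  exact InfiniteGalois.fixingSubgroup_fixedField ⟨U, U.isClosed_of_isOpen hopen⟩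

theorem finiteDimensional_fixedField {U : Subgroup Γ} (hU : fullLevels.mem U) :
    FiniteDimensional ℚ (IntermediateField.fixedField U : IntermediateField ℚ Ω) := by
  obtain ⟨F, hF, hFU⟩ := hU
  have h : IntermediateField.fixedField U ≤ F := by
    conv_rhs => rw [← InfiniteGalois.fixedField_fixingSubgroup F]
    exact fun x hx ↦ (IntermediateField.mem_fixedField_iff _ _).mpr fun g hg ↦
      (IntermediateField.mem_fixedField_iff _ _).mp hx g (hFU hg)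
  exact FiniteDimensional.of_injective (IntermediateField.inclusion h).toLinearMap
    (IntermediateField.inclusion h).toRingHom.injective

theorem inertia_fixes_root {A : ValuationSubring Ω} {q n : ℕ} (hq : q.Prime)
    (hA : A.LiesOverPrime q) (hn : ¬ q ∣ n) {σ : Γ} (hσ : σ ∈ A.inertiaSubgroupIn ℚ) {μ : Ω}
    (hμ : μ ^ n = 1) : σ μ = μ := by
  have hn0 : n ≠ 0 := fun h => hn (h ▸ dvd_zero q)
  have hμ0 : μ ≠ 0 := fun h => by rw [h, zero_pow hn0] at hμ; exact zero_ne_one hμ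
  have hv : A.valuation μ = 1 := (pow_eq_one_iff_of_nonneg zero_le hn0).1
    (show A.valuation μ ^ n = 1 by rw [← map_pow, hμ, map_one])
  have h := ((FreyReducible.mem_inertiaSubgroupIn_iff A σ).mp hσ).2 μ
    ((A.valuation_le_one_iff μ).mp hv.le)
  rw [ValuationSubring.mem_nonunits_iff] at h
  refine (div_eq_one_iff_eq hμ0).mp (eq_one_of_valuation_sub_one_lt hq hA hn ?_ ?_)
  · rw [div_pow, ← map_pow, hμ, map_one, div_one]
  · rw [div_sub_one hμ0, map_div₀, hv, div_one]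
    exact h

variable {p : ℕ} [Fact p.Prime] {H : Subgroup Γ}

/-- Restriction of the local groups to a smaller subgroup. -/
def shrinkMor {H' : Subgroup Γ} (h : H' ≤ H) (v : Place) (g : Γ) :
    Mor ((levelsOn H).comap (decompToH H v g)) ((levelsOn H').comap (decompToH H' v g))
      ((muOn p H).comp (decompToH H v g)) ((muOn p H').comp (decompToH H' v g)) where
  f := Subgroup.inclusion (show decompIn H' v g ≤ decompIn H v g from fun _ hx ↦ h hx)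
  φ := LinearMap.id
  comm _ _ := rfl
  compat := fun _ ⟨_, ⟨U, hU, hUV⟩, hVW⟩ ↦
    ⟨U.comap H'.subtype, ⟨U, hU, le_rfl⟩, fun _ hx ↦ hVW (hUV hx)⟩

/-- A non-zero local class vanishing on every subgroup fixing the `m`-th roots of unity. -/
theorem exists_local_class (hH : fullLevels.mem H) (q : Nat.Primes) (g : Γ) {m k : ℕ} [NeZero m]
    (hqm : ¬ (q : ℕ) ∣ m) (hk : ∀ σ : Γ, σ ^ k ∈ H)
    (hord : p ∣ orderOf (((q : ℕ) : ZMod m) ^ k)) :
    ∃ y : H2 ((levelsOn H).comap (decompToH H (Sum.inr q) g))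
        ((muOn p H).comp (decompToH H (Sum.inr q) g)),
      y ≠ 0 ∧ ∀ H' : Subgroup Γ, ∀ hle : H' ≤ H,
        (∀ σ ∈ H', ∀ z : Ω, z ^ m = 1 → σ z = z) → (shrinkMor hle (Sum.inr q) g).map₂ y = 0 := by
  classical
  set A : ValuationSubring Ω := g • primeLocalPlace q with hAdef
  have hA : A.LiesOverPrime (q : ℕ) := GalCoh.liesOverPrime_smul (primeLocalPlace_liesOver q) g
  set J : Subgroup Γ := H ⊓ A.decompositionSubgroup ℚ with hJ
  obtain ⟨ζ, hζ⟩ := exists_primitiveRoot m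
  let χ : Γ →* (ZMod m)ˣ := hζ.autToPow ℚ
  have hχ : ∀ σ : Γ, ζ ^ ((χ σ : ZMod m)).val = σ ζ := fun σ ↦ hζ.autToPow_spec ℚ σ
  -- the unramified character
  obtain ⟨Φ, hΦ⟩ := Frobenius.exists_isFrobeniusAt_qbar q.2 hA
  have hΦJ : Φ ^ k ∈ J := ⟨hk Φ, Subgroup.pow_mem _ hΦ.choose k⟩
  have hχΦ : (χ Φ : ZMod m) = ((q : ℕ) : ZMod m) := by
    have h := hχ Φ
    rw [frobenius_root_of_unity q.2 hA hqm hΦ hζ.pow_eq_one,
      (hζ.isOfFinOrder (NeZero.ne m)).pow_eq_pow_iff_modEq, ← hζ.eq_orderOf,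
      ← ZMod.natCast_eq_natCast_iff, ZMod.natCast_zmod_val] at h
    exact h
  have hC : p ∣ Nat.card (J.map χ) := by
    refine hord.trans (dvd_trans (dvd_of_eq ?_) (orderOf_dvd_natCard (⟨χ (Φ ^ k), Φ ^ k, hΦJ, rfl⟩ : J.map χ)))
    rw [← Subgroup.orderOf_coe]
    show orderOf _ = orderOf (χ (Φ ^ k))
    rw [map_pow, ← hχΦ, ← Units.val_pow_eq_pow_val, orderOf_units]
  obtain ⟨ψ₀, hψ₀⟩ := exists_hom_zmod hC
  let ψ : Γ → ZMod p := fun σ ↦
    if h : σ ∈ J then Multiplicative.toAdd (ψ₀ ⟨χ σ, σ, h, rfl⟩) else 0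
  have hψadd : ∀ s ∈ J, ∀ t ∈ J, ψ (s * t) = ψ s + ψ t := fun s hs t ht ↦ by
    simp only [ψ, dif_pos hs, dif_pos ht, dif_pos (mul_mem hs ht), ← toAdd_mul, ← map_mul]
    exact congrArg (fun c ↦ Multiplicative.toAdd (ψ₀ c)) (Subtype.ext (map_mul χ s t))
  have hψfix : ∀ s, s ζ = ζ → ψ s = 0 := fun s hs ↦ by
    have h1 : χ s = 1 := by
      refine Units.ext ?_
      have h : ζ ^ ((χ s : ZMod m)).val = ζ ^ 1 := by rw [hχ s, hs, pow_one]
      rw [(hζ.isOfFinOrder (NeZero.ne m)).pow_eq_pow_iff_modEq, ← hζ.eq_orderOf,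
        ← ZMod.natCast_eq_natCast_iff, ZMod.natCast_zmod_val, Nat.cast_one] at h
      rw [h, Units.val_one]
    simp only [ψ]
    split_ifs with h
    · rw [show (⟨χ s, s, h, rfl⟩ : J.map χ) = 1 from Subtype.ext h1, map_one, toAdd_one]
    · rfl
  obtain ⟨σ₀, hσ₀J, hσ₀⟩ : ∃ σ ∈ J, ψ σ ≠ 0 := by
    by_contra! hall
    refine hψ₀ (MonoidHom.ext fun ⟨c, σ, hσ, hc⟩ ↦ ?_)
    subst hc
    have hd : ψ σ = Multiplicative.toAdd (ψ₀ ⟨χ σ, σ, hσ, rfl⟩) := dif_pos hσ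
    exact toAdd_eq_zero.mp (hd.symm.trans (hall σ hσ))
  -- the Kummer cocycle of a uniformiser
  let K : IntermediateField ℚ Ω := IntermediateField.fixedField H
  haveI := finiteDimensional_fixedField hH
  haveI : NumberField K := { to_charZero := inferInstance, to_finiteDimensional := inferInstance }
  set w := fieldPlace q.2 hA K with hw
  obtain ⟨π, hπ0, hπ⟩ := exists_ordv_eq_one w
  set e := ordv w ((q : ℕ) : K) with he
  have hepos : 0 < e := ordv_natCast_pos q.2 hA K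
  have hπΩ : (π : Ω) ≠ 0 := fun h ↦ hπ0 (Subtype.ext h)
  obtain ⟨α, hα⟩ := IsAlgClosed.exists_pow_nat_eq (π : Ω) (Fact.out : p.Prime).pos
  have hα0 : α ≠ 0 := fun h ↦ hπΩ (by rw [← hα, h, zero_pow (Fact.out : p.Prime).ne_zero])
  have hπfix : ∀ σ ∈ H, σ (π : Ω) = π := (IntermediateField.mem_fixedField_iff _ _).mp π.2
  let κ : Γ → ZMod p := fun σ ↦ muLog p (σ α / α)
  have hκ : ∀ σ ∈ H, mu p (κ σ) = σ α / α := fun σ hσ ↦ mu_muLog (by
    rw [div_pow, ← map_pow, hα, hπfix σ hσ, div_self hπΩ])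
  have hκadd : ∀ s ∈ H, ∀ t ∈ H, κ (s * t) = (cycloChar p s : ZMod p) * κ t + κ s := by
    intro s hs t ht
    refine mu_injective ?_
    rw [mu_add, ← apply_mu, hκ _ (mul_mem hs ht), hκ t ht, hκ s hs, map_div₀, AlgEquiv.mul_apply,
      div_mul_div_cancel₀ (by simpa using hα0)]
  let ι : ↥(decompIn H (Sum.inr q) g) → Γ := fun x ↦ conjLoc (Sum.inr q) g x
  have hιJ : ∀ x, ι x ∈ J := fun x ↦ ⟨x.2, conjLoc_mem_decomposition q g x.1⟩
  have hιmul : ∀ x x', ι (x * x') = ι x * ι x' := fun x x' ↦ map_mul _ x.1 x'.1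
  obtain ⟨M, hM, -, -, hMfix⟩ := exists_normal_fixes hH ![α, ζ]
  let f : ↥(decompIn H (Sum.inr q) g) × ↥(decompIn H (Sum.inr q) g) → ZMod p :=
    fun x ↦ κ (ι x.1) * ψ (ι x.2)
  have hfZ : f ∈ Z2 ((levelsOn H).comap (decompToH H (Sum.inr q) g))
      ((muOn p H).comp (decompToH H (Sum.inr q) g)) := by
    refine mem_Z2_iff.mpr ⟨fun a b c ↦ ?_, ?_⟩
    · show f (a * b, c) + f (a, b) = muRep p (ι a) (f (b, c)) + f (a, b * c)
      simp only [f, muRep_apply, hιmul, hκadd _ (hιJ a).1 _ (hιJ b).1,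
        hψadd _ (hιJ b) _ (hιJ c)]
      ring
    · refine ⟨_, ⟨M.comap H.subtype, ⟨M, hM, le_rfl⟩, le_rfl⟩, fun a b s hs s' hs' ↦ ?_⟩
      have hs1 : ι s α = α := hMfix (ι s) hs 0
      have hs2 : ι s' ζ = ζ := hMfix (ι s') hs' 1
      have h1 : κ (ι (a * s)) = κ (ι a) := by
        show muLog p (ι (a * s) α / α) = _
        rw [hιmul, AlgEquiv.mul_apply, hs1]
      have h2 : ψ (ι (b * s')) = ψ (ι b) := by
        rw [hιmul, hψadd _ (hιJ b) _ (hιJ s'), hψfix _ hs2, add_zero]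
      simp only [f, h1, h2]
  refine ⟨H2mk ((levelsOn H).comap (decompToH H (Sum.inr q) g))
    ((muOn p H).comp (decompToH H (Sum.inr q) g)) ⟨f, hfZ⟩, ?_, fun H' hle hfix ↦ ?_⟩
  swap
  · rw [Mor.map₂_mk, H2mk_eq_zero_iff]
    convert Submodule.zero_mem _ using 1
    funext x
    show f _ = 0
    simp only [f]
    rw [hψfix (ι ((shrinkMor hle (Sum.inr q) g).f x.2)) (hfix _ x.2.2 ζ hζ.pow_eq_one), mul_zero]
  intro h0
  rw [H2mk_eq_zero_iff, mem_B2_iff] at h0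
  obtain ⟨Y, ⟨W, ⟨V, ⟨U, hU, hUV⟩, hVW⟩, hY⟩, hdY⟩ := h0
  have hYU : ∀ x s, ι s ∈ U → Y (x * s) = Y x := fun x s hs ↦ hY x s (hVW (hUV hs))
  choose pre hpre using fun σ : J ↦ exists_conjLoc_eq q g σ.2.2
  let lift : J → ↥(decompIn H (Sum.inr q) g) := fun σ ↦
    ⟨pre σ, show conjLoc (Sum.inr q) g (pre σ) ∈ H by rw [hpre σ]; exact σ.2.1⟩
  have hlift : ∀ σ : J, ι (lift σ) = σ := hpre
  let Yb : Γ → ZMod p := fun σ ↦ if h : σ ∈ J then Y (lift ⟨σ, h⟩) else 0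
  have hYb : ∀ x, Yb (ι x) = Y x := fun x ↦ by
    have h1 : ι x * ι (x⁻¹ * lift ⟨ι x, hιJ x⟩) = ι x := by
      rw [← hιmul, mul_inv_cancel_left, hlift]
    simp only [Yb, dif_pos (hιJ x)]
    conv_lhs => rw [show lift ⟨ι x, hιJ x⟩ = x * (x⁻¹ * lift ⟨ι x, hιJ x⟩) by group]
    exact hYU _ _ (by rw [mul_eq_left.mp h1]; exact one_mem U)
  have hid : ∀ s ∈ J, ∀ t ∈ J,
      (cycloChar p s : ZMod p) * Yb t - Yb (s * t) + Yb s = κ s * ψ t := fun s hs t ht ↦ by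
    obtain ⟨x, rfl⟩ : ∃ x, ι x = s := ⟨_, hlift ⟨s, hs⟩⟩
    obtain ⟨x', rfl⟩ : ∃ x', ι x' = t := ⟨_, hlift ⟨t, ht⟩⟩
    rw [← hιmul, hYb, hYb, hYb]
    have h := congrFun hdY (x, x')
    rw [d1_apply] at h
    exact (congrArg (fun c ↦ c - Y (x * x') + Y x) (muRep_apply p (ι x) (Y x')).symm).trans h
  have hψ1 : ψ 1 = 0 := hψfix 1 rfl
  have hYb1 : Yb 1 = 0 := by
    have h := hid 1 (one_mem J) 1 (one_mem J)
    rwa [hψ1, mul_zero, map_one, Units.val_one, one_mul, one_mul, sub_self, zero_add] at h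
  have hYbU : ∀ u ∈ J, u ∈ U → Yb u = 0 := fun u hu huU ↦ by
    obtain ⟨x, rfl⟩ : ∃ x, ι x = u := ⟨_, hlift ⟨u, hu⟩⟩
    rw [hYb, ← one_mul x, hYU 1 x huU, ← hYb 1, show ι 1 = 1 from map_one _, hYb1]
  -- the cochain in `Ωˣ`
  let v : Γ → ℕ := fun σ ↦ (ψ σ).val
  let W₀ : Γ → Ω := fun σ ↦ α ^ v σ / mu p (Yb σ)
  have hW0 : ∀ σ, W₀ σ ≠ 0 := fun σ ↦ div_ne_zero (pow_ne_zero _ hα0) (mu_ne_zero _)
  have hdW : ∀ s ∈ J, ∀ t ∈ J, dd W₀ s t = α ^ (v t + v s) / α ^ v (s * t) := fun s hs t ht ↦ by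
    have h1 : mu p (κ s * ψ t) = (s α / α) ^ v t := by
      rw [← hκ s hs.1, ← mu_natCast_mul, ZMod.natCast_zmod_val, mul_comm]
    have h2 : dd (fun σ ↦ mu p (Yb σ)) s t = mu p (κ s * ψ t) := by
      rw [← hid s hs t ht, mu_add, mu_sub, ← apply_mu, dd]
      ring
    rw [show W₀ = fun σ ↦ α ^ v σ / mu p (Yb σ) from rfl, dd_div, h2, h1]
    simp only [dd, map_pow, div_pow]
    have := hα0
    have : s α ≠ 0 := by simpa using hα0
    field_simp
    ring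
  set I : Subgroup Γ := H ⊓ A.inertiaSubgroupIn ℚ with hI
  have hIJ : I ≤ J := fun σ hσ ↦ ⟨hσ.1, ((FreyReducible.mem_inertiaSubgroupIn_iff A σ).mp hσ.2).1⟩
  have hvI : ∀ i ∈ I, v i = 0 := fun i hi ↦ by
    simp only [v, hψfix i (inertia_fixes_root q.2 hA hqm hi.2 hζ.pow_eq_one), ZMod.val_zero]
  obtain ⟨M₁, hM₁, -, hM₁U, hM₁fix⟩ := exists_normal_fixes hU ![α, ζ]
  have hW1 : ∀ u ∈ J, u ∈ M₁ → W₀ u = 1 := fun u hu huM ↦ by
    have hu0 : v u = 0 := by simp only [v, hψfix u (hM₁fix u huM 1), ZMod.val_zero]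
    simp only [W₀, hu0, hYbU u hu (hM₁U huM), pow_zero, mu_zero, div_one]
  have hcocI : ∀ s ∈ I, ∀ t ∈ I, W₀ (s * t) = s (W₀ t) * W₀ s := fun s hs t ht ↦ by
    have h := hdW s (hIJ hs) t (hIJ ht)
    rw [hvI s hs, hvI t ht, hvI _ (mul_mem hs ht), pow_zero, div_one, dd,
      div_eq_one_iff_eq (hW0 _)] at h
    exact h.symm
  obtain ⟨x, hx0, hx⟩ := hilbert90 hM₁ (fun s _ ↦ hW0 s) hcocI fun s hs t ht htM ↦ by
    rw [hcocI s hs t ht, hW1 t (hIJ ht) htM, map_one, one_mul]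
  let W₁ : Γ → Ω := fun σ ↦ W₀ σ / (σ x / x)
  have hsx : ∀ σ : Γ, σ x ≠ 0 := fun σ ↦ by simpa using hx0
  have hW1ne : ∀ σ, W₁ σ ≠ 0 := fun σ ↦ div_ne_zero (hW0 σ) (div_ne_zero (hsx σ) hx0)
  have hdW₁ : ∀ s ∈ J, ∀ t ∈ J, dd W₁ s t = α ^ (v t + v s) / α ^ v (s * t) := fun s hs t ht ↦ by
    rw [show W₁ = fun σ ↦ W₀ σ / (σ x / x) from rfl, dd_div, dd_apply_div hx0, div_one,
      hdW s hs t ht]
  have hW₁I : ∀ i ∈ I, W₁ i = 1 := fun i hi ↦ by
    simp only [W₁, hx i hi, div_self (div_ne_zero (hsx i) hx0)]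
  have hψI : ∀ i ∈ I, ψ i = 0 := fun i hi ↦ (ZMod.val_eq_zero (ψ i)).mp (hvI i hi)
  have hfixW : ∀ t ∈ J, ∀ i ∈ I, i (W₁ t) = W₁ t := fun t ht i hi ↦ by
    have hconj : t⁻¹ * i * t ∈ I := by
      refine ⟨mul_mem (mul_mem (H.inv_mem ht.1) hi.1) ht.1, ?_⟩
      have h := conj_mem_inertiaSubgroupIn hi.2 t⁻¹
      rwa [inv_inv, show t⁻¹ • A = A from (A.decompositionSubgroup ℚ).inv_mem ht.2] at h
    have h1 := hdW₁ i (hIJ hi) t ht
    have h2 := hdW₁ t ht _ (hIJ hconj)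
    have e1 : v (i * t) = v t := by
      simp only [v, hψadd i (hIJ hi) t ht, hψI i hi, zero_add]
    have e2 : t * (t⁻¹ * i * t) = i * t := by group
    rw [hvI i hi, add_zero, e1, div_self (pow_ne_zero _ hα0), dd, hW₁I i hi, mul_one,
      div_eq_one_iff_eq (hW1ne _)] at h1
    rw [hvI _ hconj, zero_add, e2, e1, div_self (pow_ne_zero _ hα0), dd, hW₁I _ hconj, map_one,
      one_mul, div_eq_one_iff_eq (hW1ne _)] at h2
    rw [e2] at h2
    rw [h1, ← h2]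
  have hint : ∀ t ∈ J, ∃ z : ℤ, (e : ℚ) * nu q A (W₁ t) = z := fun t ht ↦ by
    obtain ⟨c, hcK, hc0, hc⟩ := exists_base_nu_eq q.2 hA K (hW1ne t) fun σ hσ hσK ↦
      hfixW t ht σ ⟨(fixingSubgroup_fixedField_of_mem hH).le hσK, hσ⟩
    refine ⟨ordv w (⟨c, hcK⟩ : K), ?_⟩
    rw [← hc]
    show (e : ℚ) * nu (q : ℕ) A ((⟨c, hcK⟩ : K) : Ω) = _
    rw [nu_eq_div q.2 hA K (fun h ↦ hc0 (congrArg Subtype.val h)), ← he,
      mul_div_cancel₀ _ (Int.cast_ne_zero.mpr hepos.ne')]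
  have hνα : (p : ℚ) * (e : ℚ) * nu q A α = 1 := by
    rw [mul_right_comm, ← nu_pow q.2 hA hα0, hα, nu_eq_div q.2 hA K hπ0, hπ, ← he, Int.cast_one,
      div_mul_cancel₀ _ (Int.cast_ne_zero.mpr hepos.ne')]
  let h' : Γ → ℚ := fun σ ↦ (p : ℚ) * e * nu q A (W₁ σ) - v σ
  have hadd : ∀ s ∈ J, ∀ t ∈ J, h' (s * t) = h' s + h' t := fun s hs t ht ↦ by
    have hh := hdW₁ s hs t ht
    rw [dd, div_eq_div_iff (hW1ne _) (pow_ne_zero _ hα0)] at hh
    have h2 := congrArg (nu (q : ℕ) A) hh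
    have hst : s (W₁ t) ≠ 0 := by simpa using hW1ne t
    rw [nu_mul q.2 hA (mul_ne_zero hst (hW1ne s)) (pow_ne_zero _ hα0), nu_mul q.2 hA hst (hW1ne s),
      nu_mul q.2 hA (pow_ne_zero _ hα0) (hW1ne _), nu_pow q.2 hA hα0, nu_pow q.2 hA hα0] at h2
    have hsν : nu q A (s (W₁ t)) = nu q A (W₁ t) := by
      conv_lhs => rw [← show s • A = A from hs.2]
      exact nu_smul q.2 hA s (hW1ne t)
    rw [hsν] at h2
    push_cast at h2
    simp only [h']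
    linear_combination (-(p : ℚ) * e) * h2 +
      ((v (s * t) : ℚ) - v t - v s) * hνα
  obtain ⟨M₂, hM₂, -, hM₂U, hM₂fix⟩ := exists_normal_fixes hM₁ ![x]
  obtain ⟨n, hn, hnM⟩ := exists_pow_mem hM₂ σ₀
  have hpow : ∀ j : ℕ, h' (σ₀ ^ j) = j * h' σ₀ := by
    intro j
    induction j with
    | zero =>
      have h := hadd 1 (one_mem J) 1 (one_mem J)
      rw [one_mul] at h
      simpa using h
    | succ j ih =>
      rw [pow_succ, hadd _ (pow_mem hσ₀J j) _ hσ₀J, ih]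
      push_cast
      ring
  have hzero : h' σ₀ = 0 := by
    have h1 := hpow n
    have hW : W₁ (σ₀ ^ n) = 1 := by
      simp only [W₁, hW1 _ (pow_mem hσ₀J n) (hM₂U hnM), show (σ₀ ^ n) x = x from hM₂fix _ hnM 0,
        div_self hx0, div_one]
    have hv : v (σ₀ ^ n) = 0 := by
      simp only [v, hψfix _ (hM₁fix _ (hM₂U hnM) 1), ZMod.val_zero]
    rw [show h' (σ₀ ^ n) = 0 by simp [h', hW, hv, nu_one q.2 hA]] at h1
    exact (mul_eq_zero.mp h1.symm).resolve_left (Nat.cast_ne_zero.mpr hn.ne')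
  obtain ⟨z, hz⟩ := hint σ₀ hσ₀J
  simp only [h', mul_assoc, hz, sub_eq_zero] at hzero
  have hdvd : (p : ℤ) ∣ (v σ₀ : ℤ) := ⟨z, by exact_mod_cast hzero.symm⟩
  exact hσ₀ ((ZMod.val_eq_zero _).mp (Nat.eq_zero_of_dvd_of_lt (Int.natCast_dvd_natCast.mp hdvd)
    (ZMod.val_lt _)))

end Fermat.Agent.GalCoh.Descent
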