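import Fermat.Agent.GalCoh.Descent.Mu

/-!
# Two-cocycles with values in `ℚ̄ˣ` which split on an open normal subgroup are inflated
-/

set_option autoImplicit false
set_option linter.unusedSectionVars false
set_option linter.style.haveILetI false

noncomputable section

open scoped Pointwise

namespace Fermat.Agent.GalCoh.Descent

local notation "Ω" => AlgebraicClosure ℚ
local notation "Γ" => (AlgebraicClosure ℚ ≃ₐ[ℚ] AlgebraicClosure ℚ)

/-- Multiplicative two-cocycles on a subgroup. -/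
def IsMulCoc (H : Subgroup Γ) (F : Γ → Γ → Ω) : Prop :=
  ∀ s ∈ H, ∀ t ∈ H, ∀ u ∈ H, F (s * t) u * F s t = s (F t u) * F s (t * u)

theorem dd_cocycle {x : Γ → Ω} (hx : ∀ r, x r ≠ 0) (s t u : Γ) :
    dd x (s * t) u * dd x s t = s (dd x t u) * dd x s (t * u) := by
  have h : ∀ (g : Γ) r, g (x r) ≠ 0 := fun g r ↦ by simpa using hx r
  have := h s (t * u); have := hx (s * t); have := hx (s * (t * u)); have := h s t
  simp only [dd, map_div₀, map_mul, AlgEquiv.mul_apply, mul_assoc]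
  field_simp

theorem IsMulCoc.mul_dd {H : Subgroup Γ} {F : Γ → Γ → Ω} (hF : IsMulCoc H F) {x : Γ → Ω}
    (hx : ∀ r, x r ≠ 0) : IsMulCoc H fun s t ↦ F s t * dd x s t := fun s hs t ht u hu ↦ by
  calc F (s * t) u * dd x (s * t) u * (F s t * dd x s t)
      = F (s * t) u * F s t * (dd x (s * t) u * dd x s t) := by ring
    _ = s (F t u) * F s (t * u) * (s (dd x t u) * dd x s (t * u)) := by
        rw [hF s hs t ht u hu, dd_cocycle hx]
    _ = s (F t u * dd x t u) * (F s (t * u) * dd x s (t * u)) := by rw [map_mul]; ring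

variable {H G M : Subgroup Γ}

/-- The inflated form of a cocycle split on an open normal subgroup. -/
theorem exists_inflated (hGn : G.Normal) (hGH : G ≤ H) {p : ℕ} (hM : fullLevels.mem M)
    (hMn : M.Normal) (hMG : M ≤ G) {F : Γ → Γ → Ω} (hF0 : ∀ s t, F s t ≠ 0)
    (hcoc : IsMulCoc H F) (hFp : ∀ s t, F s t ^ p = 1)
    (hF1 : ∀ s ∈ H, F s 1 = 1 ∧ F 1 s = 1)
    (hFM : ∀ s ∈ H, ∀ t ∈ H, ∀ m ∈ M, ∀ m' ∈ M, F (s * m) (t * m') = F s t)
    {g : Γ → Ω} (hg0 : ∀ n, g n ≠ 0) (hgp : ∀ n, g n ^ p = 1)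
    (hgM : ∀ n ∈ G, ∀ m ∈ M, g (n * m) = g n)
    (hdg : ∀ n ∈ G, ∀ n' ∈ G, F n n' = dd g n n') :
    ∃ Φ : Γ → Ω, (∀ s, Φ s ≠ 0) ∧ (∀ s ∈ H, ∀ m ∈ M, Φ (s * m) = Φ s) ∧ Φ 1 = 1 ∧
      (∀ n ∈ G, Φ n ^ p = 1) ∧ (∀ s ∈ H, ∀ n ∈ G, Φ (s * n) ^ p = Φ s ^ p) ∧
      ∀ s ∈ H, ∀ t ∈ H, ∀ n ∈ G, ∀ n' ∈ G,
        F (s * n) (t * n') * dd Φ (s * n) (t * n') = F s t * dd Φ s t ∧
        n (F s t * dd Φ s t) = F s t * dd Φ s t ∧
        F n t * dd Φ n t = 1 ∧ F s n * dd Φ s n = 1 := by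
  classical
  let rep : Γ ⧸ G → Γ := fun q ↦ if q = QuotientGroup.mk 1 then 1 else q.out
  let r : Γ → Γ := fun s ↦ rep (QuotientGroup.mk s)
  have hr : ∀ s, (r s)⁻¹ * s ∈ G := fun s ↦ by
    simp only [r, rep]
    split_ifs with h
    · rw [inv_one, one_mul]
      have h1 := QuotientGroup.eq.mp h.symm
      rwa [inv_one, one_mul] at h1
    · exact QuotientGroup.eq.mp (QuotientGroup.out_eq' _)
  have hrn : ∀ s, ∀ n ∈ G, r (s * n) = r s := fun s n hn ↦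
    congrArg rep (QuotientGroup.eq.mpr (by
      rw [show (s * n)⁻¹ * s = n⁻¹ by group]
      exact inv_mem hn))
  have hr1 : ∀ n ∈ G, r n = 1 := fun n hn ↦
    if_pos (QuotientGroup.eq.mpr (by rw [mul_one]; exact inv_mem hn))
  have hrr : ∀ s, r (r s) = r s := fun s ↦ by
    conv_rhs => rw [show s = r s * ((r s)⁻¹ * s) by group, hrn _ _ (hr s)]
  have hrH : ∀ s ∈ H, r s ∈ H := fun s hs ↦ by
    have h := H.mul_mem hs (H.inv_mem (hGH (hr s)))
    rwa [show s * ((r s)⁻¹ * s)⁻¹ = r s by group] at h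
  have hgone : g 1 = 1 := by
    have h := hdg 1 (one_mem G) 1 (one_mem G)
    rw [(hF1 1 (one_mem H)).1, dd, one_mul, AlgEquiv.one_apply, mul_div_assoc,
      div_self (hg0 1), mul_one] at h
    exact h.symm
  let Φ₀ : Γ → Ω := fun s ↦ F (r s) ((r s)⁻¹ * s) * (r s) (g ((r s)⁻¹ * s))⁻¹
  have hΦ₀0 : ∀ s, Φ₀ s ≠ 0 := fun s ↦ mul_ne_zero (hF0 _ _) (by simpa using hg0 _)
  have hΦ₀n : ∀ n ∈ G, Φ₀ n = (g n)⁻¹ := fun n hn ↦ by
    simp only [Φ₀, hr1 n hn, inv_one, one_mul, AlgEquiv.one_apply, (hF1 n (hGH hn)).2]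
  have hΦ₀r : ∀ s ∈ H, Φ₀ (r s) = 1 := fun s hs ↦ by
    simp only [Φ₀, hrr, inv_mul_cancel, (hF1 _ (hrH s hs)).1, hgone, inv_one, map_one, mul_one]
  set c₀ : Γ → Γ → Ω := fun s t ↦ F s t * dd Φ₀ s t with hc₀
  have hcoc₀ : IsMulCoc H c₀ := hcoc.mul_dd hΦ₀0
  have hc₀G : ∀ n ∈ G, ∀ n' ∈ G, c₀ n n' = 1 := fun n hn n' hn' ↦ by
    simp only [c₀, dd, hΦ₀n n hn, hΦ₀n n' hn', hΦ₀n _ (mul_mem hn hn'), hdg n hn n' hn', map_inv₀]
    have := hg0 n; have := hg0 (n * n')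
    have : n (g n') ≠ 0 := by simpa using hg0 n'
    field_simp
  have hc₀r : ∀ s ∈ H, ∀ n ∈ G, c₀ (r s) n = 1 := fun s hs n hn ↦ by
    have h1 : Φ₀ (r s * n) = F (r s) n * (r s) (g n)⁻¹ := by
      simp only [Φ₀, hrn _ _ hn, hrr, inv_mul_cancel_left]
    have h2 : (r s) (Φ₀ n) = (r s) (g n)⁻¹ := by rw [hΦ₀n n hn]
    simp only [c₀, dd, h1, h2, hΦ₀r s hs, mul_one]
    rw [← mul_div_assoc, div_self (mul_ne_zero (hF0 _ _) (by simpa using hg0 n))]
  have hc₀s : ∀ s ∈ H, ∀ n ∈ G, c₀ s n = 1 := fun s hs n hn ↦ by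
    have h := hcoc₀ (r s) (hrH s hs) _ (hGH (hr s)) n (hGH hn)
    rwa [show r s * ((r s)⁻¹ * s) = s by group, hc₀r s hs _ (hr s), hc₀r s hs _ (mul_mem (hr s) hn),
      hc₀G _ (hr s) n hn, map_one, mul_one, mul_one] at h
  have hc₀right : ∀ n ∈ G, ∀ t ∈ H, ∀ n' ∈ G, c₀ n (t * n') = c₀ n t := fun n hn t ht n' hn' ↦ by
    have h := hcoc₀ n (hGH hn) t ht n' (hGH hn')
    rw [hc₀s t ht n' hn', hc₀s _ (mul_mem (hGH hn) ht) n' hn', map_one, one_mul, one_mul] at h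
    exact h.symm
  have hex : ∀ q : Γ ⧸ G, ∃ x : Ω, x ≠ 0 ∧ (q = QuotientGroup.mk 1 → x = 1) ∧
      (rep q ∈ H → r (rep q) = rep q → ∀ n ∈ G, c₀ n (rep q) = n x / x) := fun q ↦ by
    by_cases hq : q = QuotientGroup.mk 1
    · refine ⟨1, one_ne_zero, fun _ ↦ rfl, fun _ _ n hn ↦ ?_⟩
      rw [show rep q = 1 from if_pos hq, hc₀G n hn 1 (one_mem G), map_one, div_one]
    by_cases hqH : rep q ∈ H ∧ r (rep q) = rep q
    · set t := rep q
      have ht : t ∈ H := hqH.1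
      have hcocG : ∀ n ∈ G, ∀ n' ∈ G, c₀ (n * n') t = n (c₀ n' t) * c₀ n t := fun n hn n' hn' ↦ by
        have h := hcoc₀ n (hGH hn) n' (hGH hn') t ht
        rw [hc₀G n hn n' hn', mul_one, show n' * t = t * (t⁻¹ * n' * t) by group,
          hc₀right n hn t ht _ (hGn.conj_mem' n' hn' t)] at h
        exact h
      have hM1 : ∀ m ∈ M, c₀ m t = 1 := fun m hm ↦ by
        have hm' : t⁻¹ * m * t ∈ M := hMn.conj_mem' m hm t
        have h1 : F m t = 1 := by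
          have h := hFM 1 (one_mem H) t ht m hm 1 (one_mem M)
          rw [one_mul, mul_one] at h
          rw [h, (hF1 t ht).2]
        have h2 : Φ₀ t = 1 := by rw [← hqH.2]; exact hΦ₀r t ht
        have hgm : ∀ m ∈ M, g m = 1 := fun m hm ↦ by
          rw [← one_mul m, hgM 1 (one_mem G) m hm, hgone]
        have h4 : r (m * t) = t := by
          rw [show m * t = t * (t⁻¹ * m * t) by group, hrn _ _ (hMG hm'), hqH.2]
        have h5 : F t (t⁻¹ * (m * t)) = 1 := by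
          have h := hFM t ht 1 (one_mem H) 1 (one_mem M) _ hm'
          rw [mul_one, one_mul] at h
          rw [← mul_assoc, h, (hF1 t ht).1]
        have h6 : Φ₀ (m * t) = 1 := by
          simp only [Φ₀, h4, h5, one_mul]
          rw [← mul_assoc, hgm _ hm', inv_one, map_one]
        simp only [c₀, dd, h1, h2, h6, hΦ₀n m (hMG hm), hgm m hm, inv_one, map_one, mul_one,
          div_one]
      obtain ⟨x, hx0, hx⟩ := hilbert90 (J := G) (a := fun n ↦ c₀ n t) hM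
        (fun n _ ↦ mul_ne_zero (hF0 _ _) (div_ne_zero (mul_ne_zero (by simpa using hΦ₀0 t)
          (hΦ₀0 n)) (hΦ₀0 _))) hcocG fun n hn m hm hmM ↦ by
        rw [hcocG n hn m hm, hM1 m hmM, map_one, one_mul]
      exact ⟨x, hx0, fun h ↦ absurd h hq, fun _ _ n hn ↦ hx n hn⟩
    · exact ⟨1, one_ne_zero, fun h ↦ absurd h hq, fun a b ↦ absurd ⟨a, b⟩ hqH⟩
  choose X hX0 hX1 hX using hex
  let u : Γ → Ω := fun s ↦ (X (QuotientGroup.mk s))⁻¹
  have hu0 : ∀ s, u s ≠ 0 := fun s ↦ inv_ne_zero (hX0 _)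
  have hun : ∀ s, ∀ n ∈ G, u (s * n) = u s := fun s n hn ↦ by
    refine congrArg (fun q ↦ (X q)⁻¹) (QuotientGroup.eq.mpr ?_)
    rw [show (s * n)⁻¹ * s = n⁻¹ by group]
    exact inv_mem hn
  have huG : ∀ n ∈ G, u n = 1 := fun n hn ↦ by
    simp only [u, hX1 (QuotientGroup.mk n) (QuotientGroup.eq.mpr (by rw [mul_one]; exact inv_mem hn)),
      inv_one]
  refine ⟨fun s ↦ Φ₀ s * u s, fun s ↦ mul_ne_zero (hΦ₀0 s) (hu0 s), fun s hs m hm ↦ ?_,
    by simp only [hΦ₀n 1 (one_mem G), hgone, inv_one, huG 1 (one_mem G), mul_one],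
    fun n hn ↦ by simp only [hΦ₀n n hn, huG n hn, mul_one, inv_pow, hgp, inv_one],
    fun s hs n hn ↦ ?_, ?_⟩
  · simp only [hun s m (hMG hm), mul_eq_mul_right_iff]
    left
    simp only [Φ₀, hrn s m (hMG hm), ← mul_assoc]
    rw [hgM _ (hr s) m hm]
    have h := hFM (r s) (hrH s hs) _ (hGH (hr s)) 1 (one_mem M) m hm
    rw [mul_one] at h
    rw [h]
  · simp only [hun s n hn, mul_pow, Φ₀, hrn s n hn, hFp, ← map_pow, inv_pow, hgp, inv_one, map_one]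
  set Φ : Γ → Ω := fun s ↦ Φ₀ s * u s with hΦ
  set c : Γ → Γ → Ω := fun s t ↦ F s t * dd Φ s t with hc
  have hcc : ∀ s t, c s t = c₀ s t * dd u s t := fun s t ↦ by
    simp only [c, Φ, c₀, dd_mul, mul_assoc]
  have hcoc' : IsMulCoc H c := hcoc.mul_dd fun s ↦ mul_ne_zero (hΦ₀0 s) (hu0 s)
  have hcs : ∀ s ∈ H, ∀ n ∈ G, c s n = 1 := fun s hs n hn ↦ by
    rw [hcc, hc₀s s hs n hn, one_mul, dd, huG n hn, map_one, one_mul, hun s n hn, div_self (hu0 s)]
  have hright : ∀ s ∈ H, ∀ t ∈ H, ∀ n ∈ G, c s (t * n) = c s t := fun s hs t ht n hn ↦ by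
    have h := hcoc' s hs t ht n (hGH hn)
    rw [hcs t ht n hn, hcs _ (mul_mem hs ht) n hn, map_one, one_mul, one_mul] at h
    exact h.symm
  have hcn : ∀ n ∈ G, ∀ t ∈ H, c n t = 1 := fun n hn t ht ↦ by
    rw [show t = r t * ((r t)⁻¹ * t) by group, hright n (hGH hn) _ (hrH t ht) _ (hr t), hcc]
    have hq : rep (QuotientGroup.mk t) = r t := rfl
    have hx := hX (QuotientGroup.mk t) (hrH t ht) (by rw [hq, hrr]) n hn
    rw [hq] at hx
    have hu : u (r t) = (X (QuotientGroup.mk t))⁻¹ := by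
      simp only [u]
      exact congrArg (fun q ↦ (X q)⁻¹) (QuotientGroup.eq.mpr (hr t))
    have h2 : u (n * r t) = u (r t) := by
      rw [show n * r t = r t * ((r t)⁻¹ * n * r t) by group, hun _ _ (hGn.conj_mem' n hn _)]
    rw [hx, dd, huG n hn, h2, hu, mul_one, map_inv₀]
    have := hX0 (QuotientGroup.mk t)
    have : n (X (QuotientGroup.mk t)) ≠ 0 := by simpa using this
    field_simp
  have hleft : ∀ s ∈ H, ∀ t ∈ H, ∀ n ∈ G, c (s * n) t = c s t := fun s hs t ht n hn ↦ by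
    have h := hcoc' s hs n (hGH hn) t ht
    rw [hcs s hs n hn, hcn n hn t ht, map_one, mul_one, one_mul,
      show n * t = t * (t⁻¹ * n * t) by group, hright s hs t ht _ (hGn.conj_mem' n hn t)] at h
    exact h
  intro s hs t ht n hn n' hn'
  refine ⟨?_, ?_, hcn n hn t ht, hcs s hs n hn⟩
  · show c (s * n) (t * n') = c s t
    rw [hright _ (mul_mem hs (hGH hn)) t ht n' hn', hleft s hs t ht n hn]
  · show n (c s t) = c s t
    have h := hcoc' n (hGH hn) s hs t ht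
    rw [hcn n hn s hs, hcn n hn _ (mul_mem hs ht), mul_one, mul_one,
      show n * s = s * (s⁻¹ * n * s) by group, hleft s hs t ht _ (hGn.conj_mem' n hn s)] at h
    exact h.symm

end Fermat.Agent.GalCoh.Descent
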