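import Fermat.Agent.GalCoh.Descent.Bridge

/-!
# Classes unramified outside a large `S` which vanish over all levels vanish
-/

set_option autoImplicit false
set_option linter.unusedSectionVars false
set_option linter.style.haveILetI false

noncomputable section

open NumberField
open scoped Pointwise

namespace Fermat.Agent.GalCoh.Descent

open Fermat.Agent.FreyReducible Fermat.Agent.CFT ExtCitation

local notation "Ω" => AlgebraicClosure ℚ
local notation "Γ" => (AlgebraicClosure ℚ ≃ₐ[ℚ] AlgebraicClosure ℚ)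

local instance isAlgebraicQbar_ij : Algebra.IsAlgebraic ℚ (AlgebraicClosure ℚ) :=
  AlgebraicClosure.isAlgebraic ℚ
local instance isAlgClosureQbar_ij : IsAlgClosure ℚ (AlgebraicClosure ℚ) :=
  ⟨inferInstance, inferInstance⟩
local instance isGaloisQbar_ij : IsGalois ℚ (AlgebraicClosure ℚ) :=
  have : Normal ℚ (AlgebraicClosure ℚ) := IsAlgClosure.normal ℚ (AlgebraicClosure ℚ)
  have : Algebra.IsSeparable ℚ (AlgebraicClosure ℚ) :=
    Algebra.IsAlgebraic.isSeparable_of_perfectField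
  IsGalois.mk

variable {p : ℕ} [Fact p.Prime] {H : Subgroup Γ}

theorem forgetMor_injective (hH : fullLevels.mem H) {S : Finset Nat.Primes}
    {E₀ : IntermediateField ℚ Ω} (hE₀ : E₀.IsUnramifiedOutside S) (hE₀H : E₀.fixingSubgroup ≤ H)
    (hz : zetaP p ∈ E₀) (hpS : pPrime p ∈ S)
    [NumberField (IntermediateField.fixedField H : IntermediateField ℚ Ω)]
    (hgen : GenClass (primesOver S (IntermediateField.fixedField H : IntermediateField ℚ Ω))) :
    Function.Injective (forgetMor p H S).map₂ := by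
  classical
  have hp : p.Prime := Fact.out
  haveI := hE₀.1
  rw [injective_iff_map_eq_zero]
  intro z hz0
  obtain ⟨f, rfl, hf1⟩ :=
    exists_normalized (isCtsRep_muOn (L := levelsS S) ⟨E₀, hE₀, le_rfl⟩ hz) z
  rw [Mor.map₂_mk, H2mk_eq_zero_iff, mem_B2_iff] at hz0
  obtain ⟨g, ⟨W, ⟨U, hU, hUW⟩, hg⟩, hdg⟩ := hz0
  have hdg' : d1 (muOn p H) g = f.1 := hdg
  obtain ⟨W₁, ⟨V, ⟨F₁, hF₁, hF₁V⟩, hVW⟩, hf⟩ := (mem_Z2_iff.mp f.2).2
  haveI := hF₁.1
  let E := IntermediateField.normalClosure ℚ (F₁ ⊔ E₀ : IntermediateField ℚ Ω) Ω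
  haveI : FiniteDimensional ℚ (F₁ ⊔ E₀ : IntermediateField ℚ Ω) :=
    IntermediateField.finiteDimensional_sup _ _
  have hE : E.IsUnramifiedOutside S := isUnramifiedOutside_normalClosure (hF₁.sup hE₀)
  haveI := hE.1
  have hle : F₁ ⊔ E₀ ≤ E := IntermediateField.le_normalClosure _
  haveI : Normal ℚ E := normalClosure.normal ℚ _ Ω
  set G := E.fixingSubgroup with hG
  have hGn : G.Normal := inferInstance
  have hGH : G ≤ H := (IntermediateField.fixingSubgroup_antitone (le_sup_right.trans hle)).trans hE₀H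
  have hGV : ∀ n : ↥H, (n : Γ) ∈ G → n ∈ W₁ := fun n hn ↦
    hVW (hF₁V (IntermediateField.fixingSubgroup_antitone (le_sup_left.trans hle) hn))
  have hGcyc : ∀ n ∈ G, cycloChar p n = 1 := fun n hn ↦ cycloChar_eq_one
    ((IntermediateField.mem_fixingSubgroup_iff _ _).mp hn _ (le_sup_right.trans hle hz))
  have hd : ∀ s t : ↥H,
      (cycloChar p (s : Γ) : ZMod p) * g t - g (s * t) + g s = f.1 (s, t) := fun s t ↦ by
    rw [← congrFun hdg' (s, t), d1_apply]
    exact congrArg (fun c ↦ c - g (s * t) + g s) (muRep_apply p (s : Γ) (g t)).symm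
  have hfr : ∀ s n : ↥H, (n : Γ) ∈ G → f.1 (s, n) = 0 := fun s n hn ↦ by
    have h := hf s 1 1 (one_mem _) n (hGV n hn)
    rw [mul_one, one_mul] at h
    rw [h, (hf1 s).1]
  have hfl : ∀ n t : ↥H, (n : Γ) ∈ G → f.1 (n, t) = 0 := fun n t hn ↦ by
    have h := hf 1 t n (hGV n hn) 1 (one_mem _)
    rw [mul_one, one_mul] at h
    rw [h, (hf1 t).2]
  have hgn : ∀ s n : ↥H, (n : Γ) ∈ G →
      g (s * n) = (cycloChar p (s : Γ) : ZMod p) * g n + g s := fun s n hn ↦ by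
    have h := hd s n
    rw [hfr s n hn] at h
    linear_combination -h
  have hng : ∀ n s : ↥H, (n : Γ) ∈ G → g (n * s) = g s + g n := fun n s hn ↦ by
    have h := hd n s
    rw [hfl n s hn, hGcyc _ hn, Units.val_one, one_mul] at h
    linear_combination -h
  let a : Γ → Ω := fun n ↦ mu p (ext₁ g n)
  have hae : ∀ n : ↥H, a n = mu p (g n) := fun n ↦ by simp only [a, ext₁_apply]
  obtain ⟨α, hα0, hα⟩ := hilbert90 (J := G) (a := a) hU (fun s _ ↦ mu_ne_zero _)
    (fun s hs t ht ↦ by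
      rw [hae ⟨s, hGH hs⟩, hae ⟨t, hGH ht⟩, apply_mu_eq (hGcyc s hs), mul_comm, ← mu_add,
        ← hng _ _ (show ((⟨s, hGH hs⟩ : ↥H) : Γ) ∈ G from hs) |>.trans (add_comm _ _)]
      exact (hae (⟨s, hGH hs⟩ * ⟨t, hGH ht⟩) :))
    (fun s hs t ht htU ↦ by
      rw [hae ⟨s, hGH hs⟩, ← hg ⟨s, hGH hs⟩ ⟨t, hGH ht⟩ (hUW htU)]
      exact (hae (⟨s, hGH hs⟩ * ⟨t, hGH ht⟩) :))
  have hsα : ∀ s : Γ, s α ≠ 0 := fun s ↦ by simpa using hα0
  set a₀ := α ^ p with ha₀
  have ha₀0 : a₀ ≠ 0 := pow_ne_zero _ hα0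
  have ha₀E : a₀ ∈ E := mem_of_fixed fun n hn ↦ by
    have h : (n α / α) ^ p = 1 := by rw [← hα n hn]; exact mu_pow _
    rw [div_pow, div_eq_one_iff_eq (pow_ne_zero _ hα0)] at h
    rw [ha₀, map_pow, h]
  have hγ : ∀ s ∈ H, s α / α ∈ E := fun s hs ↦ mem_of_fixed fun n hn ↦ by
    have hns : s⁻¹ * n * s ∈ G := hGn.conj_mem' n hn s
    let s' : ↥H := ⟨s, hs⟩
    let n' : ↥H := ⟨n, hGH hn⟩
    let m' : ↥H := ⟨s⁻¹ * n * s, hGH hns⟩
    have h1 : g n' = (cycloChar p s : ZMod p) * g m' := by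
      have e1 := hng n' s' hn
      have e2 := hgn s' m' hns
      rw [show n' * s' = s' * m' from Subtype.ext (show n * s = s * (s⁻¹ * n * s) by group)] at e1
      rw [e1] at e2
      linear_combination e2
    have h2 : n α / α = s ((s⁻¹ * n * s) α) / s α := by
      rw [← map_div₀, ← hα _ hns, ← hα n hn, hae n', hae m', h1, apply_mu]
    rw [← AlgEquiv.mul_apply s, show s * (s⁻¹ * n * s) = n * s by group, AlgEquiv.mul_apply] at h2
    have := hsα n; have := hsα s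
    rw [map_div₀, div_eq_div_iff (hsα n) hα0]
    rw [div_eq_div_iff hα0 (hsα s)] at h2
    linear_combination -h2
  set K : IntermediateField ℚ Ω := IntermediateField.fixedField H
  have hKfix : K.fixingSubgroup = H := fixingSubgroup_fixedField_of_mem hH
  have hK : K.IsUnramifiedOutside S := isUnramifiedOutside_of_le (fixedField_le hE₀H) hE₀
  have hint : ∀ {x : Ω}, x ∈ E → x ≠ 0 → ∀ (q : Nat.Primes) A, q ∉ S → A.LiesOverPrime (q : ℕ) →
      nu q A x = intNu S A x := fun hx hx0 q A hq hA ↦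
    intNu_spec hq hA (exists_int_nu hE hq hA hx hx0)
  obtain ⟨T, hT⟩ := exists_finite_nu ha₀0
  have hinv : ∀ n ∈ K.fixingSubgroup, ∀ (q : Nat.Primes) A, q ∉ S → A.LiesOverPrime (q : ℕ) →
      intNu S (n • A) a₀ % (p : ℤ) = intNu S A a₀ % (p : ℤ) := by
    intro s hs q A hq hA
    rw [hKfix] at hs
    have hA' : (s • A).LiesOverPrime (q : ℕ) := GalCoh.liesOverPrime_smul hA s
    have hs' : s⁻¹ a₀ = a₀ * (s⁻¹ α / α) ^ p := by
      rw [ha₀, map_pow, div_pow, mul_div_cancel₀ _ (pow_ne_zero _ hα0)]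
    have hγ' := hγ s⁻¹ (inv_mem hs)
    have hγ0 : s⁻¹ α / α ≠ 0 := div_ne_zero (hsα _) hα0
    have hnu : nu q (s • A) a₀ = nu q A a₀ + (p : ℚ) * nu q A (s⁻¹ α / α) := by
      conv_lhs => rw [show a₀ = s (s⁻¹ a₀) from (s.apply_symm_apply a₀).symm]
      rw [nu_smul q.2 hA s (by simpa using ha₀0), hs',
        nu_mul q.2 hA ha₀0 (pow_ne_zero _ hγ0), nu_pow q.2 hA hγ0]
    rw [hint ha₀E ha₀0 q _ hq hA', hint ha₀E ha₀0 q _ hq hA, hint hγ' hγ0 q _ hq hA] at hnu
    have hz' : intNu S (s • A) a₀ = intNu S A a₀ + (p : ℤ) * intNu S A (s⁻¹ α / α) := by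
      exact_mod_cast hnu
    simp only [hz', Int.add_mul_emod_self_left]
  have hfin : ∃ T' : Finset Nat.Primes, ∀ (q : Nat.Primes) A, q ∉ S → q ∉ T' →
      A.LiesOverPrime (q : ℕ) → intNu S A a₀ % (p : ℤ) = 0 := by
    refine ⟨T, fun q A hq hqT hA ↦ ?_⟩
    have h := hT q A hqT hA
    rw [hint ha₀E ha₀0 q A hq hA, Int.cast_eq_zero] at h
    simp only [h, Int.zero_emod]
  obtain ⟨b, hbK, hb0, hb⟩ :=
    exists_base_elem hK hgen (fun A ↦ intNu S A a₀ % (p : ℤ)) hinv hfin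
  obtain ⟨β, hβ⟩ := IsAlgClosed.exists_pow_nat_eq b hp.pos
  have hβ0 : β ≠ 0 := fun h ↦ hb0 (by rw [← hβ, h, zero_pow hp.ne_zero])
  have hbE : b ∈ E := (fixedField_le hGH) hbK
  have hbfix : ∀ s ∈ H, s (β ^ p) = β ^ p := fun s hs ↦ by
    rw [hβ]; exact (IntermediateField.mem_fixedField_iff _ _).mp hbK s hs
  have hypow : (α / β) ^ ((pPrime p : Nat.Primes) : ℕ) ^ 1 = a₀ / b := by
    rw [pow_one, pPrime_coe, div_pow, hβ]
  obtain ⟨F, hF, hFn, hEF, hyF⟩ := exists_root_level hpS hE 1 (fun _ : Unit ↦ α / β)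
    (fun _ ↦ div_ne_zero hα0 hβ0) (fun _ ↦ by rw [hypow]; exact div_mem ha₀E hbE) fun _ q A hq hA ↦ by
      obtain ⟨c, hcE, hc0, hc⟩ := exists_mem_nu_eq hE hq hA (intNu S A a₀ / (p : ℤ))
      refine ⟨c, hcE, hc0, ?_⟩
      rw [hypow, nu_div q.2 hA ha₀0 hb0, hb q A hq hA, hint ha₀E ha₀0 q A hq hA, hc, pow_one,
        pPrime_coe, Int.emod_def]
      push_cast
      ring
  rw [H2mk_eq_zero_iff, mem_B2_iff]
  refine ⟨fun s ↦ g s - kummer β (s : Γ),
    ⟨F.fixingSubgroup.comap H.subtype, ⟨_, ⟨F, hF, le_rfl⟩, le_rfl⟩, fun s n hn ↦ ?_⟩, ?_⟩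
  · have hnG : (n : Γ) ∈ G := IntermediateField.fixingSubgroup_antitone hEF hn
    have h0 : g n = kummer β (n : Γ) := by
      refine mu_injective (p := p) ?_
      rw [mu_kummer hβ0 (hbfix _ n.2), ← hae, hα _ hnG, div_eq_div_iff hα0 hβ0]
      have h := (IntermediateField.mem_fixingSubgroup_iff _ _).mp hn _ (hyF ())
      have := hsα n; have : (n : Γ) β ≠ 0 := by simpa using hβ0
      simp only [Subgroup.coe_subtype, map_div₀] at h
      rw [div_eq_div_iff this hβ0] at h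
      linear_combination h
    simp only [hgn s n hnG, Subgroup.coe_mul, kummer_mul hβ0 (hbfix _ s.2) (hbfix _ n.2), h0]
    ring
  · funext ⟨s, t⟩
    rw [d1_apply]
    show muRep p (s : Γ) (g t - kummer β (t : Γ)) - _ + _ = _
    rw [muRep_apply, ← hd s t, Subgroup.coe_mul, kummer_mul hβ0 (hbfix _ s.2) (hbfix _ t.2)]
    ring

end Fermat.Agent.GalCoh.Descent
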