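import Fermat.Agent.GalCoh.Descent.Bridge

/-!
# The Galois set of places outside `S`
-/

set_option autoImplicit false
set_option linter.unusedSectionVars false
set_option linter.style.haveILetI false

noncomputable section

open scoped Pointwise

namespace Fermat.Agent.GalCoh.Descent

open Fermat.Agent.FreyReducible ExtCitation

local notation "Ω" => AlgebraicClosure ℚ
local notation "Γ" => (AlgebraicClosure ℚ ≃ₐ[ℚ] AlgebraicClosure ℚ)

/-- A place of `ℚ̄` over a prime outside `S`. -/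
def OutPlace (S : Finset Nat.Primes) : Type :=
  {A : ValuationSubring Ω // ∃ q : Nat.Primes, q ∉ S ∧ A.LiesOverPrime (q : ℕ)}

namespace OutPlace

variable {S : Finset Nat.Primes}

instance : MulAction Γ (OutPlace S) where
  smul σ x := ⟨σ • x.1, x.2.choose, x.2.choose_spec.1,
    GalCoh.liesOverPrime_smul x.2.choose_spec.2 σ⟩
  one_smul x := Subtype.ext (one_smul Γ x.1)
  mul_smul σ τ x := Subtype.ext (mul_smul σ τ x.1)

@[simp] theorem coe_smul (σ : Γ) (x : OutPlace S) : (σ • x).1 = σ • x.1 := rfl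

/-- The prime under a place. -/
def prime (x : OutPlace S) : Nat.Primes := x.2.choose

theorem prime_notMem (x : OutPlace S) : x.prime ∉ S := x.2.choose_spec.1

theorem liesOver (x : OutPlace S) : x.1.LiesOverPrime (x.prime : ℕ) := x.2.choose_spec.2

/-- The place of a valuation subring. -/
def of {A : ValuationSubring Ω} {q : Nat.Primes} (hq : q ∉ S) (hA : A.LiesOverPrime (q : ℕ)) :
    OutPlace S :=
  ⟨A, q, hq, hA⟩

theorem prime_of {A : ValuationSubring Ω} {q : Nat.Primes} (hq : q ∉ S)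
    (hA : A.LiesOverPrime (q : ℕ)) : (of hq hA).prime = q :=
  liesOverPrime_unique (of hq hA).liesOver hA

theorem prime_smul (σ : Γ) (x : OutPlace S) : (σ • x).prime = x.prime :=
  liesOverPrime_unique (σ • x).liesOver (GalCoh.liesOverPrime_smul x.liesOver σ)

/-- The valuation at a place. -/
def val (x : OutPlace S) (a : Ω) : ℚ := nu x.prime x.1 a

theorem val_of {A : ValuationSubring Ω} {q : Nat.Primes} (hq : q ∉ S)
    (hA : A.LiesOverPrime (q : ℕ)) (a : Ω) : (of hq hA).val a = nu q A a := by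
  rw [val, prime_of hq hA]; rfl

variable (x : OutPlace S) {a b : Ω}

theorem val_mul (ha : a ≠ 0) (hb : b ≠ 0) : x.val (a * b) = x.val a + x.val b :=
  nu_mul x.prime.2 x.liesOver ha hb

theorem val_div (ha : a ≠ 0) (hb : b ≠ 0) : x.val (a / b) = x.val a - x.val b :=
  nu_div x.prime.2 x.liesOver ha hb

theorem val_pow (ha : a ≠ 0) (n : ℕ) : x.val (a ^ n) = n * x.val a :=
  nu_pow x.prime.2 x.liesOver ha n

theorem val_one : x.val 1 = 0 := nu_one x.prime.2 x.liesOver

theorem val_of_pow_eq_one {n : ℕ} (hn : n ≠ 0) (h : a ^ n = 1) : x.val a = 0 :=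
  nu_of_pow_eq_one x.prime.2 x.liesOver hn h

theorem val_apply (σ : Γ) (ha : a ≠ 0) : x.val (σ a) = (σ⁻¹ • x).val a := by
  have h := nu_smul (σ⁻¹ • x).prime.2 (σ⁻¹ • x).liesOver σ ha
  rw [coe_smul, smul_inv_smul] at h
  rw [val, val, coe_smul, ← h, prime_smul]

theorem val_dd {φ : Γ → Ω} (hφ : ∀ r, φ r ≠ 0) (s t : Γ) :
    x.val (dd φ s t) = (s⁻¹ • x).val (φ t) + x.val (φ s) - x.val (φ (s * t)) := by
  have h : s (φ t) ≠ 0 := by simpa using hφ t
  rw [dd, val_div x (mul_ne_zero h (hφ s)) (hφ _), val_mul x h (hφ s), val_apply x s (hφ t)]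

theorem exists_int_val {E : IntermediateField ℚ Ω} (hE : E.IsUnramifiedOutside S) (ha : a ∈ E)
    (ha0 : a ≠ 0) : ∃ m : ℤ, x.val a = m :=
  exists_int_nu hE x.prime_notMem x.liesOver ha ha0

end OutPlace

theorem exists_finite_val_family {S : Finset Nat.Primes} {ι : Type*} [Finite ι] {a : ι → Ω}
    (ha : ∀ i, a i ≠ 0) :
    ∃ T : Finset Nat.Primes, ∀ i, ∀ x : OutPlace S, x.prime ∉ T → x.val (a i) = 0 := by
  obtain ⟨T, hT⟩ := exists_finite_nu_family ha
  exact ⟨T, fun i x hx ↦ hT i x.prime x.1 hx x.liesOver⟩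

open Classical in
/-- A chosen element of `H` in a class modulo `U`. -/
def repIn {U : Subgroup Γ} (H : Subgroup Γ) (q : Γ ⧸ U) : Γ :=
  if h : ∃ s ∈ H, QuotientGroup.mk s = q then h.choose else 1

theorem repIn_spec {U H : Subgroup Γ} {s : Γ} (hs : s ∈ H) :
    repIn H (QuotientGroup.mk s : Γ ⧸ U) ∈ H ∧
      (repIn H (QuotientGroup.mk s : Γ ⧸ U))⁻¹ * s ∈ U := by
  have h : ∃ r ∈ H, (QuotientGroup.mk r : Γ ⧸ U) = QuotientGroup.mk s := ⟨s, hs, rfl⟩
  rw [repIn, dif_pos h]
  exact ⟨h.choose_spec.1, QuotientGroup.eq.mp h.choose_spec.2⟩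

theorem repIn_mem {U H : Subgroup Γ} (q : Γ ⧸ U) : repIn H q ∈ H := by
  rw [repIn]
  split_ifs with h
  · exact h.choose_spec.1
  · exact one_mem H

/-- A function on `H` invariant under `U` is a function of the class. -/
theorem apply_repIn {U H : Subgroup Γ} {β : Type*} {φ : Γ → β}
    (hφ : ∀ s ∈ H, ∀ u ∈ U, u ∈ H → φ (s * u) = φ s) {s : Γ} (hs : s ∈ H) :
    φ (repIn H (QuotientGroup.mk s : Γ ⧸ U)) = φ s := by
  obtain ⟨h1, h2⟩ := repIn_spec (U := U) hs
  have h3 := hφ _ h1 _ h2 (mul_mem (inv_mem h1) hs)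
  rw [mul_inv_cancel_left] at h3
  exact h3.symm

open Classical in
/-- A chosen `p`-th root. -/
def pRoot (p : ℕ) (z : Ω) : Ω := if h : ∃ y, y ^ p = z then h.choose else 1

theorem pRoot_pow {p : ℕ} (hp : 0 < p) (z : Ω) : pRoot p z ^ p = z := by
  rw [pRoot, dif_pos (IsAlgClosed.exists_pow_nat_eq z hp)]
  exact (IsAlgClosed.exists_pow_nat_eq z hp).choose_spec

end Fermat.Agent.GalCoh.Descent
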