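import Fermat.Agent.GalCoh.Descent.Killing
import Fermat.Agent.GalCoh.Descent.Inflation
import Fermat.Agent.GalCoh.Descent.Injective
import Fermat.Agent.GalCoh.Descent.OutPlaces

/-!
# Descent of global classes to a large finite set of places
-/

set_option autoImplicit false
set_option linter.unusedSectionVars false
set_option linter.style.haveILetI false

noncomputable section

open NumberField
open scoped Pointwise NumberField

namespace Fermat.Agent.GalCoh.Descent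

open Fermat.Agent.FreyReducible Fermat.Agent.CFT ExtCitation

local notation "Ω" => AlgebraicClosure ℚ
local notation "Γ" => (AlgebraicClosure ℚ ≃ₐ[ℚ] AlgebraicClosure ℚ)

local instance isAlgebraicQbar_ds : Algebra.IsAlgebraic ℚ (AlgebraicClosure ℚ) :=
  AlgebraicClosure.isAlgebraic ℚ
local instance isAlgClosureQbar_ds : IsAlgClosure ℚ (AlgebraicClosure ℚ) :=
  ⟨inferInstance, inferInstance⟩
local instance isGaloisQbar_ds : IsGalois ℚ (AlgebraicClosure ℚ) :=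
  have : Normal ℚ (AlgebraicClosure ℚ) := IsAlgClosure.normal ℚ (AlgebraicClosure ℚ)
  have : Algebra.IsSeparable ℚ (AlgebraicClosure ℚ) :=
    Algebra.IsAlgebraic.isSeparable_of_perfectField
  IsGalois.mk

variable {p : ℕ} [Fact p.Prime] {H : Subgroup Γ} {S : Finset Nat.Primes}

theorem normal_fixing (E : IntermediateField ℚ Ω) [Normal ℚ E] [FiniteDimensional ℚ E] :
    E.fixingSubgroup.Normal :=
  haveI h : IsGalois ℚ E := IsGalois.mk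
  (InfiniteGalois.normal_iff_isGalois E).mpr (by exact h)

theorem dd_ne_zero {φ : Γ → Ω} (hφ : ∀ r, φ r ≠ 0) (s t : Γ) : dd φ s t ≠ 0 :=
  div_ne_zero (mul_ne_zero (by simpa using hφ t) (hφ s)) (hφ _)

/-- A class vanishing at a place is split on the decomposition group. -/
theorem exists_local_split (f : ↥(Z2 (levelsOn H) (muOn p H))) (hf1 : ∀ s, f.1 (s, 1) = 0)
    (x : OutPlace S)
    (hz : ∀ v g, ¬ InPlaces S v →
      (placeMor p H v g).map₂ (H2mk (levelsOn H) (muOn p H) f) = 0) :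
    ∃ (Y : Γ → ZMod p) (U : Subgroup Γ), fullLevels.mem U ∧
      (∀ s ∈ H ⊓ x.1.decompositionSubgroup ℚ, ∀ t ∈ H ⊓ x.1.decompositionSubgroup ℚ,
        (cycloChar p s : ZMod p) * Y t - Y (s * t) + Y s = ext₂ f.1 s t) ∧
      ∀ u ∈ H ⊓ x.1.decompositionSubgroup ℚ, u ∈ U → Y u = 0 := by
  classical
  obtain ⟨A, hAS⟩ := x
  obtain ⟨q, hqS, hA⟩ := id hAS
  obtain ⟨g, hg⟩ := Frobenius.exists_smul_eq_of_liesOverPrime_qbar q.2 (primeLocalPlace_liesOver q) hA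
  have h0 := hz (Sum.inr q) g hqS
  rw [Mor.map₂_mk, H2mk_eq_zero_iff, mem_B2_iff] at h0
  obtain ⟨Y, ⟨W, ⟨V, ⟨U, hU, hUV⟩, hVW⟩, hY⟩, hdY⟩ := h0
  show ∃ (Y : Γ → ZMod p) (U : Subgroup Γ), fullLevels.mem U ∧
      (∀ s ∈ H ⊓ A.decompositionSubgroup ℚ, ∀ t ∈ H ⊓ A.decompositionSubgroup ℚ,
        (cycloChar p s : ZMod p) * Y t - Y (s * t) + Y s = ext₂ f.1 s t) ∧
      ∀ u ∈ H ⊓ A.decompositionSubgroup ℚ, u ∈ U → Y u = 0
  subst hg
  set J := H ⊓ (g • primeLocalPlace q).decompositionSubgroup ℚ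
  let ι : ↥(decompIn H (Sum.inr q) g) → Γ := fun y ↦ conjLoc (Sum.inr q) g y
  have hιJ : ∀ y, ι y ∈ J := fun y ↦ ⟨y.2, conjLoc_mem_decomposition q g y.1⟩
  have hιmul : ∀ y y', ι (y * y') = ι y * ι y' := fun y y' ↦ map_mul _ y.1 y'.1
  have hYU : ∀ y s, ι s ∈ U → Y (y * s) = Y y := fun y s hs ↦ hY y s (hVW (hUV hs))
  choose pre hpre using fun σ : J ↦ exists_conjLoc_eq q g σ.2.2
  let lift : J → ↥(decompIn H (Sum.inr q) g) := fun σ ↦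
    ⟨pre σ, show conjLoc (Sum.inr q) g (pre σ) ∈ H by rw [hpre σ]; exact σ.2.1⟩
  have hlift : ∀ σ : J, ι (lift σ) = σ := hpre
  let Yb : Γ → ZMod p := fun σ ↦ if h : σ ∈ J then Y (lift ⟨σ, h⟩) else 0
  have hYb : ∀ y, Yb (ι y) = Y y := fun y ↦ by
    have h1 : ι y * ι (y⁻¹ * lift ⟨ι y, hιJ y⟩) = ι y := by
      rw [← hιmul, mul_inv_cancel_left, hlift]
    simp only [Yb, dif_pos (hιJ y)]
    conv_lhs => rw [show lift ⟨ι y, hιJ y⟩ = y * (y⁻¹ * lift ⟨ι y, hιJ y⟩) by group]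
    exact hYU _ _ (by rw [mul_eq_left.mp h1]; exact one_mem U)
  have hid : ∀ s ∈ J, ∀ t ∈ J,
      (cycloChar p s : ZMod p) * Yb t - Yb (s * t) + Yb s = ext₂ f.1 s t := fun s hs t ht ↦ by
    obtain ⟨y, rfl⟩ : ∃ y, ι y = s := ⟨_, hlift ⟨s, hs⟩⟩
    obtain ⟨y', rfl⟩ : ∃ y', ι y' = t := ⟨_, hlift ⟨t, ht⟩⟩
    rw [← hιmul, hYb, hYb, hYb]
    have h := congrFun hdY (y, y')
    rw [d1_apply] at h
    refine ((congrArg (fun c ↦ c - Y (y * y') + Y y) (muRep_apply p (ι y) (Y y')).symm).trans h).trans ?_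
    exact (ext₂_apply f.1 ⟨ι y, (hιJ y).1⟩ ⟨ι y', (hιJ y').1⟩).symm
  have hYb1 : Yb 1 = 0 := by
    have h := hid 1 (one_mem J) 1 (one_mem J)
    rw [map_one, Units.val_one, one_mul, one_mul, sub_self, zero_add] at h
    exact h.trans ((ext₂_apply f.1 1 1).trans (hf1 1))
  refine ⟨Yb, U, hU, hid, fun u hu huU ↦ ?_⟩
  obtain ⟨y, rfl⟩ : ∃ y, ι y = u := ⟨_, hlift ⟨u, hu⟩⟩
  rw [hYb, ← one_mul y, hYU 1 y huU, ← hYb 1, show ι 1 = 1 from map_one _, hYb1]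

/-- The values of a splitting of an inflated class have integral valuations on stabilisers. -/
theorem exists_int_val_stab {E : IntermediateField ℚ Ω} (hE : E.IsUnramifiedOutside S)
    (hEH : E.fixingSubgroup ≤ H) (f : ↥(Z2 (levelsOn H) (muOn p H)))
    (hf1 : ∀ s, f.1 (s, 1) = 0)
    (hz : ∀ v g, ¬ InPlaces S v →
      (placeMor p H v g).map₂ (H2mk (levelsOn H) (muOn p H) f) = 0)
    {M : Subgroup Γ} (hM : fullLevels.mem M) {Φ : Γ → Ω} (hΦ0 : ∀ s, Φ s ≠ 0) (hΦ1 : Φ 1 = 1)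
    (hΦM : ∀ s ∈ H, ∀ m ∈ M, Φ (s * m) = Φ s)
    (hc : ∀ s ∈ H, ∀ n ∈ E.fixingSubgroup, mu p (ext₂ f.1 n s) * dd Φ n s = 1 ∧
      mu p (ext₂ f.1 s n) * dd Φ s n = 1)
    (x : OutPlace S) {s : Γ} (hs : s ∈ H) (hsx : s • x = x) : ∃ m : ℤ, x.val (Φ s) = m := by
  obtain ⟨Y, U, hU, hdY, hYU⟩ := exists_local_split f hf1 x hz
  set J := H ⊓ x.1.decompositionSubgroup ℚ
  let w : Γ → Ω := fun r ↦ mu p (Y r) * Φ r
  have hw0 : ∀ r, w r ≠ 0 := fun r ↦ mul_ne_zero (mu_ne_zero _) (hΦ0 r)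
  have hdw : ∀ r ∈ J, ∀ t ∈ J, dd w r t = mu p (ext₂ f.1 r t) * dd Φ r t := fun r hr t ht ↦ by
    rw [show w = fun r ↦ mu p (Y r) * Φ r from rfl, dd_mul, ← hdY r hr t ht, mu_add, mu_sub,
      ← apply_mu]
    simp only [dd]
    ring
  set I := x.1.inertiaSubgroupIn ℚ
  have hIG : I ≤ E.fixingSubgroup := hE.2 x.prime x.prime_notMem x.1 x.liesOver
  have hIJ : I ≤ J := fun i hi ↦
    ⟨hEH (hIG hi), ((FreyReducible.mem_inertiaSubgroupIn_iff x.1 i).mp hi).1⟩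
  have hcoc : ∀ i ∈ I, ∀ i' ∈ I, w (i * i') = i (w i') * w i := fun i hi i' hi' ↦ by
    have h := hdw i (hIJ hi) i' (hIJ hi')
    rw [(hc i' (hEH (hIG hi')) i (hIG hi)).1, dd, div_eq_one_iff_eq (hw0 _)] at h
    exact h.symm
  have hwU : ∀ u ∈ J, u ∈ U ⊓ M → w u = 1 := fun u hu hu' ↦ by
    simp only [w, hYU u hu hu'.1, mu_zero, one_mul]
    rw [← one_mul u, hΦM 1 (one_mem H) u hu'.2, hΦ1]
  obtain ⟨a, ha0, ha⟩ := hilbert90 (J := I) (a := w) (fullLevels.inf_mem hU hM) (fun r _ ↦ hw0 r)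
    hcoc fun i hi i' hi' hu ↦ by rw [hcoc i hi i' hi', hwU i' (hIJ hi') hu, map_one, one_mul]
  have hra : ∀ r : Γ, r a ≠ 0 := fun r ↦ by simpa using ha0
  let w₁ : Γ → Ω := fun r ↦ w r / (r a / a)
  have hw₁0 : ∀ r, w₁ r ≠ 0 := fun r ↦ div_ne_zero (hw0 r) (div_ne_zero (hra r) ha0)
  have hw₁I : ∀ i ∈ I, w₁ i = 1 := fun i hi ↦ by
    simp only [w₁, ha i hi, div_self (div_ne_zero (hra i) ha0)]
  have hdw₁ : ∀ r ∈ J, ∀ t ∈ J, dd w₁ r t = mu p (ext₂ f.1 r t) * dd Φ r t := fun r hr t ht ↦ by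
    rw [show w₁ = fun r ↦ w r / (r a / a) from rfl, dd_div, dd_apply_div ha0, div_one,
      hdw r hr t ht]
  have hsJ : s ∈ J := ⟨hs, congrArg Subtype.val hsx⟩
  have hfix : ∀ i ∈ I, i (w₁ s) = w₁ s := fun i hi ↦ by
    have hconj : s⁻¹ * i * s ∈ I := by
      have h := conj_mem_inertiaSubgroupIn hi s⁻¹
      rwa [inv_inv, show s⁻¹ • x.1 = x.1 from
        (x.1.decompositionSubgroup ℚ).inv_mem hsJ.2] at h
    have h1 := hdw₁ i (hIJ hi) s hsJ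
    have h2 := hdw₁ s hsJ _ (hIJ hconj)
    rw [(hc s hs i (hIG hi)).1, dd, hw₁I i hi, mul_one, div_eq_one_iff_eq (hw₁0 _)] at h1
    rw [(hc s hs _ (hIG hconj)).2, dd, hw₁I _ hconj, map_one, one_mul,
      div_eq_one_iff_eq (hw₁0 _), show s * (s⁻¹ * i * s) = i * s by group] at h2
    rw [h1, ← h2]
  obtain ⟨m, hm⟩ := exists_int_nu_eq x.prime.2 x.liesOver (hw₁0 s) hfix
  refine ⟨m, ?_⟩
  have hsinv : s⁻¹ • x = x := by rw [inv_smul_eq_iff, hsx]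
  have h1 : x.val (w₁ s) = x.val (Φ s) := by
    rw [show w₁ s = w s / (s a / a) from rfl, x.val_div (hw0 s) (div_ne_zero (hra s) ha0),
      show w s = mu p (Y s) * Φ s from rfl, x.val_mul (mu_ne_zero _) (hΦ0 s),
      x.val_of_pow_eq_one (Fact.out : p.Prime).ne_zero (mu_pow _), x.val_div (hra s) ha0,
      x.val_apply s ha0, hsinv, sub_self, sub_zero, zero_add]
  rw [← h1]
  exact hm

/-- The subgroup `ℤ` of `ℚ`. -/
abbrev intSub : AddSubgroup ℚ := (Int.castAddHom ℚ).range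

theorem mk_intSub_eq_zero {r : ℚ} : (r : ℚ ⧸ intSub) = 0 ↔ ∃ m : ℤ, r = m := by
  rw [QuotientAddGroup.eq_zero_iff]
  exact ⟨fun ⟨m, h⟩ ↦ ⟨m, h.symm⟩, fun ⟨m, h⟩ ↦ ⟨m, h.symm⟩⟩

/-- A representative, zero at zero. -/
def liftInt (z : ℚ ⧸ intSub) : ℚ := Int.fract z.out

theorem mk_liftInt (z : ℚ ⧸ intSub) : (liftInt z : ℚ ⧸ intSub) = z := by
  rw [liftInt, Int.fract, QuotientAddGroup.mk_sub, QuotientAddGroup.out_eq',
    mk_intSub_eq_zero.mpr ⟨_, rfl⟩, sub_zero]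

theorem liftInt_zero : liftInt 0 = 0 := by
  obtain ⟨m, hm⟩ := mk_intSub_eq_zero.mp (QuotientAddGroup.out_eq' (0 : ℚ ⧸ intSub))
  rw [liftInt, hm, Int.fract_intCast]

section Principal

variable {F : Γ → Γ → Ω} {E : IntermediateField ℚ Ω}

/-- Making the values of an inflated cocycle units outside `S`. -/
theorem exists_unit_cocycle (hE : E.IsUnramifiedOutside S) (hpS : pPrime p ∈ S) [Normal ℚ E]
    (hEH : E.fixingSubgroup ≤ H) {M : Subgroup Γ} (hM : fullLevels.mem M)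
    (hF0 : ∀ s t, F s t ≠ 0) (hFp : ∀ s t, F s t ^ p = 1) {Φ : Γ → Ω} (hΦ0 : ∀ s, Φ s ≠ 0)
    (hΦ1 : Φ 1 = 1) (hΦM : ∀ s ∈ H, ∀ m ∈ M, Φ (s * m) = Φ s)
    (hΦG : ∀ n ∈ E.fixingSubgroup, Φ n ^ p = 1)
    (hΦp : ∀ s ∈ H, ∀ n ∈ E.fixingSubgroup, Φ (s * n) ^ p = Φ s ^ p)
    (hc : ∀ s ∈ H, ∀ t ∈ H, ∀ n ∈ E.fixingSubgroup, ∀ n' ∈ E.fixingSubgroup,
      F (s * n) (t * n') * dd Φ (s * n) (t * n') = F s t * dd Φ s t ∧
      n (F s t * dd Φ s t) = F s t * dd Φ s t ∧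
      F n t * dd Φ n t = 1 ∧ F s n * dd Φ s n = 1)
    (hstab : ∀ x : OutPlace S, ∀ s ∈ H, s • x = x → ∃ m : ℤ, x.val (Φ s) = m) :
    ∃ (m : ℕ) (E' : IntermediateField ℚ Ω) (b : Γ → Ω), ¬ p ∣ m ∧ E'.IsUnramifiedOutside S ∧
      Normal ℚ E' ∧ E ≤ E' ∧ (∀ s, b s ≠ 0) ∧ b 1 = 1 ∧
      (∀ s, ∀ n ∈ E.fixingSubgroup, b (s * n) = b s) ∧
      ∀ s ∈ H, ∀ t ∈ H, ∀ n ∈ E'.fixingSubgroup, ∀ n' ∈ E'.fixingSubgroup,
        (F (s * n) (t * n') ^ m * dd (fun r ↦ Φ r ^ m / b r) (s * n) (t * n') =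
          F s t ^ m * dd (fun r ↦ Φ r ^ m / b r) s t) ∧
        n (F s t ^ m * dd (fun r ↦ Φ r ^ m / b r) s t) =
          F s t ^ m * dd (fun r ↦ Φ r ^ m / b r) s t ∧
        ∀ x : OutPlace S, x.val (F s t ^ m * dd (fun r ↦ Φ r ^ m / b r) s t) = 0 := by
  classical
  have hp : p.Prime := Fact.out
  haveI := hE.1
  haveI : IsGalois ℚ E := IsGalois.mk
  haveI : NumberField E := { to_charZero := inferInstance, to_finiteDimensional := inferInstance }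
  have hGn : E.fixingSubgroup.Normal := normal_fixing E
  set G := E.fixingSubgroup with hGdef
  have hGmem : fullLevels.mem G := ⟨E, hE.1, le_rfl⟩
  haveI := finite_quotient hGmem
  haveI := finite_quotient hM
  have hcint : ∀ s ∈ H, ∀ t ∈ H, ∀ x : OutPlace S, ∃ k : ℤ, x.val (F s t * dd Φ s t) = k :=
    fun s hs t ht x ↦ x.exists_int_val hE
      (mem_of_fixed fun n hn ↦ (hc s hs t ht n hn 1 (one_mem _)).2.1)
      (mul_ne_zero (hF0 s t) (dd_ne_zero hΦ0 s t))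
  have hvalc : ∀ s t, ∀ x : OutPlace S, x.val (F s t * dd Φ s t) =
      (s⁻¹ • x).val (Φ t) + x.val (Φ s) - x.val (Φ (s * t)) := fun s t x ↦ by
    rw [x.val_mul (hF0 s t) (dd_ne_zero hΦ0 s t),
      x.val_of_pow_eq_one hp.ne_zero (hFp s t), zero_add, x.val_dd hΦ0]
  have hνn : ∀ s ∈ H, ∀ n ∈ G, ∀ x : OutPlace S, x.val (Φ (s * n)) = x.val (Φ s) :=
    fun s hs n hn x ↦ by
      have h := congrArg x.val (hΦp s hs n hn)
      rw [x.val_pow (hΦ0 _), x.val_pow (hΦ0 _)] at h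
      exact mul_left_cancel₀ (Nat.cast_ne_zero.mpr hp.ne_zero) h
  let θ : ↥H → OutPlace S → ℚ ⧸ intSub := fun s x ↦ (x.val (Φ s) : ℚ ⧸ intSub)
  obtain ⟨η, hη, hη0⟩ := exists_coboundary θ (fun s t x ↦ by
    obtain ⟨k, hk⟩ := hcint s s.2 t t.2 x
    rw [hvalc] at hk
    show (x.val (Φ ((s : Γ) * t)) : ℚ ⧸ intSub) =
      (x.val (Φ s) : ℚ ⧸ intSub) + (((s : Γ)⁻¹ • x).val (Φ t) : ℚ ⧸ intSub)
    rw [← QuotientAddGroup.mk_add, ← sub_eq_zero, ← QuotientAddGroup.mk_sub, mk_intSub_eq_zero]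
    exact ⟨-k, by push_cast; linarith⟩)
    (fun s x h ↦ mk_intSub_eq_zero.mpr (hstab x s s.2 h))
  have hηG : ∀ n ∈ G, ∀ x : OutPlace S, η (n • x) = η x := fun n hn x ↦ by
    have h := hη ⟨n, hEH hn⟩ (n • x)
    rw [show ((⟨n, hEH hn⟩ : ↥H)⁻¹ • n • x : OutPlace S) = x from inv_smul_smul n x] at h
    have h0 : θ ⟨n, hEH hn⟩ (n • x) = 0 := by
      show ((n • x).val (Φ n) : ℚ ⧸ intSub) = 0
      rw [(n • x).val_of_pow_eq_one hp.ne_zero (hΦG n hn), QuotientAddGroup.mk_zero]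
    rw [h0, eq_comm, sub_eq_zero] at h
    exact h
  let ξq : Γ → OutPlace S → ℚ := fun s x ↦
    x.val (Φ s) - liftInt (η x) + liftInt (η (s⁻¹ • x))
  have hξint : ∀ s ∈ H, ∀ x, ξq s x = ((⌊ξq s x⌋ : ℤ) : ℚ) := fun s hs x ↦ by
    have h : (ξq s x : ℚ ⧸ intSub) = 0 := by
      simp only [ξq, QuotientAddGroup.mk_add, QuotientAddGroup.mk_sub, mk_liftInt]
      show θ ⟨s, hs⟩ x - η x + η (s⁻¹ • x) = 0
      rw [hη ⟨s, hs⟩ x]
      show η x - η (s⁻¹ • x) - η x + η (s⁻¹ • x) = 0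
      abel
    obtain ⟨k, hk⟩ := mk_intSub_eq_zero.mp h
    rw [hk, Int.floor_intCast]
  have hξn : ∀ s ∈ H, ∀ n ∈ G, ∀ x, ξq (s * n) x = ξq s x := fun s hs n hn x ↦ by
    simp only [ξq, hνn s hs n hn x, mul_inv_rev, mul_smul, hηG n⁻¹ (inv_mem hn)]
  have hξ1 : ∀ x, ξq 1 x = 0 := fun x ↦ by
    simp only [ξq, hΦ1, x.val_one, inv_one, one_smul]; ring
  have hξc : ∀ s t : Γ, ∀ x : OutPlace S,
      ξq t (s⁻¹ • x) + ξq s x - ξq (s * t) x = x.val (F s t * dd Φ s t) := fun s t x ↦ by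
    simp only [ξq, hvalc, mul_inv_rev, mul_smul]; ring
  have hξinv : ∀ t ∈ H, ∀ n ∈ G, ∀ x, ξq t (n • x) = ξq t x := fun t ht n hn x ↦ by
    have h := hξc n⁻¹ t x
    rw [(hc t ht t ht n⁻¹ (inv_mem hn) 1 (one_mem _)).2.2.1, x.val_one, inv_inv,
      show n⁻¹ * t = t * (t⁻¹ * n⁻¹ * t) by group,
      hξn t ht _ (hGn.conj_mem' _ (inv_mem hn) t), ← one_mul n⁻¹,
      hξn 1 (one_mem H) _ (inv_mem hn), hξ1] at h
    linarith
  obtain ⟨T, hT⟩ := exists_finite_val_family (S := S) (fun q : Γ ⧸ M ↦ hΦ0 (repIn H q))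
  have hT' : ∀ s ∈ H, ∀ x : OutPlace S, x.prime ∉ T → x.val (Φ s) = 0 := fun s hs x hx ↦ by
    have h := hT (QuotientGroup.mk s) x hx
    rwa [apply_repIn (U := M) (φ := Φ) (fun a ha u hu _ ↦ hΦM a ha u hu) hs] at h
  have hηT : ∀ x : OutPlace S, x.prime ∉ T → η x = 0 := fun x hx ↦ hη0 x fun s ↦ by
    show (x.val (Φ s) : ℚ ⧸ intSub) = 0
    rw [hT' s s.2 x hx, QuotientAddGroup.mk_zero]
  have hξT : ∀ s ∈ H, ∀ x : OutPlace S, x.prime ∉ T → ξq s x = 0 := fun s hs x hx ↦ by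
    simp only [ξq, hT' s hs x hx, hηT x hx,
      hηT (s⁻¹ • x) (by rwa [OutPlace.prime_smul]), liftInt_zero]
    ring
  let D : Γ ⧸ G → ValuationSubring Ω → ℤ := fun q A ↦
    if h : ∃ r : Nat.Primes, r ∉ S ∧ A.LiesOverPrime (r : ℕ) then ⌊ξq (repIn H q) ⟨A, h⟩⌋ else 0
  have hD : ∀ s ∈ H, ∀ x : OutPlace S, (D (QuotientGroup.mk s) x.1 : ℚ) = ξq s x :=
    fun s hs x ↦ by
      simp only [D, dif_pos x.2]
      rw [show (⟨x.1, x.2⟩ : OutPlace S) = x from rfl, ← hξint _ (repIn_mem _),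
        apply_repIn (U := G) (φ := fun r ↦ ξq r x) (fun a ha u hu _ ↦ hξn a ha u hu x) hs]
  have hex : ∀ q : Γ ⧸ G, ∃ a : Ω, a ∈ E ∧ a ≠ 0 ∧ (q = QuotientGroup.mk 1 → a = 1) ∧
      ∀ x : OutPlace S, x.val a = (Fintype.card (ClassGroup (𝓞 E)) : ℚ) * D q x.1 := fun q ↦ by
    by_cases hq : q = QuotientGroup.mk 1
    · exact ⟨1, one_mem E, one_ne_zero, fun _ ↦ rfl, fun x ↦ by
        rw [hq, x.val_one, hD 1 (one_mem H), hξ1, mul_zero]⟩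
    obtain ⟨a, haE, ha0, ha⟩ := exists_elem_nu hE (D q) (fun n hn r A hr hA ↦ by
      simp only [D, dif_pos (⟨r, hr, GalCoh.liesOverPrime_smul hA n⟩ :
        ∃ r : Nat.Primes, r ∉ S ∧ (n • A).LiesOverPrime (r : ℕ)),
        dif_pos (⟨r, hr, hA⟩ : ∃ r : Nat.Primes, r ∉ S ∧ A.LiesOverPrime (r : ℕ))]
      exact congrArg Int.floor (hξinv _ (repIn_mem q) n hn ⟨A, r, hr, hA⟩))
      ⟨T, fun r A hr hrT hA ↦ by
        simp only [D, dif_pos (⟨r, hr, hA⟩ : ∃ r : Nat.Primes, r ∉ S ∧ A.LiesOverPrime (r : ℕ))]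
        rw [hξT _ (repIn_mem q) ⟨A, r, hr, hA⟩ (by
          show (OutPlace.of hr hA).prime ∉ T
          rwa [OutPlace.prime_of]), Int.floor_zero]⟩
    exact ⟨a, haE, ha0, fun h ↦ absurd h hq, fun x ↦ ha x.prime x.1 x.prime_notMem x.liesOver⟩
  choose α hαE hα0 hα1 hα using hex
  obtain ⟨k, m, hm, hh⟩ :=
    Nat.exists_eq_pow_mul_and_not_dvd (Fintype.card_ne_zero (α := ClassGroup (𝓞 E))) p hp.ne_one
  have hroot : ∀ q, ∃ y : Ω, y ^ p ^ k = α q ∧ (q = QuotientGroup.mk 1 → y = 1) := fun q ↦ by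
    by_cases hq : q = QuotientGroup.mk 1
    · exact ⟨1, by rw [one_pow, hα1 q hq], fun _ ↦ rfl⟩
    · obtain ⟨y, hy⟩ := IsAlgClosed.exists_pow_nat_eq (α q) (Nat.pow_pos hp.pos (n := k))
      exact ⟨y, hy, fun h ↦ absurd h hq⟩
  choose β hβ hβ1 using hroot
  have hβ0 : ∀ q, β q ≠ 0 := fun q h ↦ hα0 q (by rw [← hβ q, h, zero_pow (pow_ne_zero k hp.ne_zero)])
  have hvβ : ∀ q, ∀ x : OutPlace S, x.val (β q) = (m : ℚ) * D q x.1 := fun q x ↦ by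
    have h := hα q x
    rw [← hβ q, x.val_pow (hβ0 q), hh] at h
    push_cast at h
    rw [mul_assoc] at h
    exact mul_left_cancel₀ (pow_ne_zero k (Nat.cast_ne_zero.mpr hp.ne_zero)) h
  obtain ⟨E', hE', hE'n, hEE', hβE'⟩ := exists_root_level hpS hE k β hβ0
    (fun q ↦ by rw [pPrime_coe, hβ q]; exact hαE q) fun q r A hr hA ↦ by
      obtain ⟨c, hcE, hc0, hcν⟩ := exists_mem_nu_eq hE hr hA ((m : ℤ) * D q A)
      refine ⟨c, hcE, hc0, ?_⟩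
      have h := hα q (OutPlace.of hr hA)
      rw [OutPlace.val_of, show (OutPlace.of hr hA).1 = A from rfl, hh] at h
      rw [pPrime_coe, hβ q, hcν, h]
      push_cast
      ring
  let b : Γ → Ω := fun s ↦ β (QuotientGroup.mk s)
  have hb0 : ∀ s, b s ≠ 0 := fun s ↦ hβ0 _
  have hbn : ∀ s, ∀ n ∈ G, b (s * n) = b s := fun s n hn ↦ congrArg β (QuotientGroup.eq.mpr (by
    rw [show (s * n)⁻¹ * s = n⁻¹ by group]; exact inv_mem hn))
  haveI := hE'n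
  haveI := hE'.1
  haveI : IsGalois ℚ E' := IsGalois.mk
  have hG'n : E'.fixingSubgroup.Normal := normal_fixing E'
  have hG'G : E'.fixingSubgroup ≤ G := IntermediateField.fixingSubgroup_antitone hEE'
  have hbfix : ∀ n ∈ E'.fixingSubgroup, ∀ (g : Γ) s, n (g (b s)) = g (b s) := fun n hn g s ↦ by
    have h := (IntermediateField.mem_fixingSubgroup_iff _ _).mp (hG'n.conj_mem' n hn g) _
      (hβE' (QuotientGroup.mk s))
    rw [AlgEquiv.mul_apply, AlgEquiv.mul_apply, AlgEquiv.aut_inv, AlgEquiv.symm_apply_eq] at h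
    exact h
  have key : ∀ s t, F s t ^ m * dd (fun r ↦ Φ r ^ m / b r) s t =
      (F s t * dd Φ s t) ^ m / dd b s t := fun s t ↦ by
    rw [dd_div, dd_pow, mul_pow, mul_div_assoc]
  refine ⟨m, E', b, hm, hE', hE'n, hEE', hb0, hβ1 _ rfl, hbn, fun s hs t ht n hn n' hn' ↦ ?_⟩
  simp only [key]
  have hst : b (s * n * (t * n')) = b (s * t) := by
    rw [show s * n * (t * n') = s * t * (t⁻¹ * n * t * n') by group,
      hbn _ _ (mul_mem (hGn.conj_mem' n (hG'G hn) t) (hG'G hn'))]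
  refine ⟨?_, ?_, fun x ↦ ?_⟩
  · rw [(hc s hs t ht n (hG'G hn) n' (hG'G hn')).1, dd, dd, hbn t n' (hG'G hn'),
      hbn s n (hG'G hn), hst, AlgEquiv.mul_apply]
    have h := hbfix n hn 1 t
    rw [AlgEquiv.one_apply] at h
    rw [h]
    rfl
  · rw [map_div₀, map_pow, (hc s hs t ht n (hG'G hn) 1 (one_mem _)).2.1]
    simp only [dd]
    rw [map_div₀ n (s (b t) * b s), map_mul,
      hbfix n hn s t]
    have h1 := hbfix n hn 1 s
    have h2 := hbfix n hn 1 (s * t)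
    rw [AlgEquiv.one_apply] at h1 h2
    rw [h1, h2]
  · have h0 : F s t * dd Φ s t ≠ 0 :=
      mul_ne_zero (hF0 s t) (dd_ne_zero hΦ0 s t)
    rw [x.val_div (pow_ne_zero _ h0)
      (dd_ne_zero hb0 s t), x.val_pow h0,
      x.val_dd hb0, ← hξc]
    simp only [b, hvβ, hD s hs, hD t ht, hD (s * t) (mul_mem hs ht)]
    ring

/-- From unit values to an `S`-level cocycle. -/
theorem exists_level_cocycle (hE : E.IsUnramifiedOutside S) (hpS : pPrime p ∈ S) [Normal ℚ E]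
    {E' : IntermediateField ℚ Ω} (hE' : E'.IsUnramifiedOutside S) [Normal ℚ E'] (hEE' : E ≤ E')
    (hEH : E.fixingSubgroup ≤ H) {M : Subgroup Γ} (hM : fullLevels.mem M)
    (hF0 : ∀ s t, F s t ≠ 0) (hFp : ∀ s t, F s t ^ p = 1) (hF1 : ∀ s ∈ H, F 1 s = 1)
    {y : Γ → Ω} (hy0 : ∀ s, y s ≠ 0) (hy1 : y 1 = 1) (hyM : ∀ s ∈ H, ∀ m ∈ M, y (s * m) = y s)
    (hyG : ∀ n ∈ E.fixingSubgroup, y n ^ p = 1)
    (hyp : ∀ s ∈ H, ∀ n ∈ E.fixingSubgroup, y (s * n) ^ p = y s ^ p)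
    (hc : ∀ s ∈ H, ∀ t ∈ H, ∀ n ∈ E'.fixingSubgroup, ∀ n' ∈ E'.fixingSubgroup,
      F (s * n) (t * n') * dd y (s * n) (t * n') = F s t * dd y s t ∧
      n (F s t * dd y s t) = F s t * dd y s t ∧
      ∀ x : OutPlace S, x.val (F s t * dd y s t) = 0) :
    ∃ (m : ℕ) (e : Γ → Ω) (U : Subgroup Γ) (E₃ : IntermediateField ℚ Ω), ¬ p ∣ m ∧
      (∀ s ∈ H, e s ^ p = 1) ∧ fullLevels.mem U ∧ (∀ s ∈ H, ∀ u ∈ U, e (s * u) = e s) ∧
      E₃.IsUnramifiedOutside S ∧ E₃.fixingSubgroup ≤ H ∧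
      ∀ s ∈ H, ∀ t ∈ H, ∀ n ∈ E₃.fixingSubgroup, ∀ n' ∈ E₃.fixingSubgroup,
        F (s * n) (t * n') ^ m * dd e (s * n) (t * n') = F s t ^ m * dd e s t := by
  classical
  have hp : p.Prime := Fact.out
  haveI := hE'.1
  haveI := hE.1
  haveI : IsGalois ℚ E' := IsGalois.mk
  haveI : NumberField E' := { to_charZero := inferInstance, to_finiteDimensional := inferInstance }
  haveI : IsGalois ℚ E := IsGalois.mk
  have hGn : E.fixingSubgroup.Normal := normal_fixing E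
  set G := E.fixingSubgroup
  have hG'G : E'.fixingSubgroup ≤ G := IntermediateField.fixingSubgroup_antitone hEE'
  haveI := finite_quotient (U := G) ⟨E, hE.1, le_rfl⟩
  let x : Γ → Ω := fun s ↦ y s ^ p
  have hx0 : ∀ s, x s ≠ 0 := fun s ↦ pow_ne_zero _ (hy0 s)
  have hdx : ∀ s t, dd x s t = (F s t * dd y s t) ^ p := fun s t ↦ by
    rw [mul_pow, hFp, one_mul, dd_pow]
  have hxE' : ∀ s ∈ H, x s ∈ E' := fun s hs ↦ mem_of_fixed fun n hn ↦ by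
    have hnH : n ∈ H := hEH (hG'G hn)
    have h1 := (hc 1 (one_mem H) s hs n hn 1 (one_mem _)).1
    rw [one_mul, mul_one, hF1 s hs, one_mul] at h1
    have h2 : dd y 1 s = 1 := by
      rw [dd, one_mul, AlgEquiv.one_apply, hy1, mul_one, div_self (hy0 s)]
    rw [h2] at h1
    have h3 := hdx n s
    rw [h1, one_pow, dd, show x n = 1 from hyG n (hG'G hn), mul_one,
      show x (n * s) = x s by
        rw [show n * s = s * (s⁻¹ * n * s) by group]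
        exact hyp s hs _ (hGn.conj_mem' n (hG'G hn) s),
      div_eq_one_iff_eq (hx0 s)] at h3
    exact h3
  have hvdx : ∀ s ∈ H, ∀ t ∈ H, ∀ z : OutPlace S,
      (s⁻¹ • z).val (x t) + z.val (x s) - z.val (x (s * t)) = 0 := fun s hs t ht z ↦ by
    rw [← z.val_dd hx0, hdx,
      z.val_pow (mul_ne_zero (hF0 s t) (dd_ne_zero hy0 s t)), (hc s hs t ht 1 (one_mem _) 1 (one_mem _)).2.2 z, mul_zero]
  let ζ : ↥H → OutPlace S → ℤ := fun s z ↦ intNu S z.1 (x s)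
  have hζ : ∀ (s : ↥H) (z : OutPlace S), (ζ s z : ℚ) = z.val (x s) := fun s z ↦
    (intNu_spec z.prime_notMem z.liesOver (z.exists_int_val hE' (hxE' s s.2) (hx0 _))).symm
  obtain ⟨η, hη, hη0⟩ := exists_coboundary ζ (fun s t z ↦ by
    have h := hvdx s s.2 t t.2 z
    have e : (ζ (s * t) z : ℚ) = ζ s z + ζ t (s⁻¹ • z) := by
      rw [hζ, hζ, hζ]
      show z.val (x ((s : Γ) * t)) = z.val (x s) + ((s : Γ)⁻¹ • z).val (x t)
      linarith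
    exact_mod_cast e) (fun s z hsz ↦ by
    have hG : fullLevels.mem G := ⟨E, hE.1, le_rfl⟩
    obtain ⟨n, hn, hnG⟩ := exists_pow_mem hG (s : Γ)
    have hpow : ∀ j : ℕ, z.val (x ((s : Γ) ^ j)) = j * z.val (x s) := fun j ↦ by
      induction j with
      | zero => simp [x, hy1, z.val_one]
      | succ j ih =>
        have h := hvdx _ (pow_mem s.2 j) s s.2 z
        have hfix : ((s : Γ) ^ j)⁻¹ • z = z := by
          rw [inv_smul_eq_iff]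
          exact (MulAction.mem_stabilizer_iff.mp
            (pow_mem (MulAction.mem_stabilizer_iff.mpr (show (s : Γ) • z = z from hsz)) j)).symm
        rw [hfix, ← pow_succ, ih] at h
        push_cast
        linarith
    have h1 := hpow n
    rw [show x ((s : Γ) ^ n) = 1 from hyG _ hnG, z.val_one, ← hζ] at h1
    exact_mod_cast (mul_eq_zero.mp h1.symm).resolve_left (Nat.cast_ne_zero.mpr hn.ne'))
  have hηG : ∀ n ∈ G, ∀ z : OutPlace S, η (n • z) = η z := fun n hn z ↦ by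
    have h := hη ⟨n, hEH hn⟩ (n • z)
    rw [show ((⟨n, hEH hn⟩ : ↥H)⁻¹ • n • z : OutPlace S) = z from inv_smul_smul n z] at h
    have h0 : (ζ ⟨n, hEH hn⟩ (n • z) : ℚ) = 0 := by
      rw [hζ, show x ((⟨n, hEH hn⟩ : ↥H) : Γ) = 1 from hyG n hn, OutPlace.val_one]
    rw [show ζ ⟨n, hEH hn⟩ (n • z) = 0 from Int.cast_eq_zero.mp h0, eq_comm, sub_eq_zero] at h
    exact h
  obtain ⟨T, hT⟩ := exists_finite_val_family (S := S) (fun q : Γ ⧸ G ↦ hx0 (repIn H q))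
  have hηT : ∀ z : OutPlace S, z.prime ∉ T → η z = 0 := fun z hz ↦ hη0 z fun s ↦ by
    have h := hT (QuotientGroup.mk (s : Γ)) z hz
    rw [apply_repIn (U := G) (φ := x) (fun a ha u hu _ ↦ hyp a ha u hu) s.2, ← hζ] at h
    exact Int.cast_eq_zero.mp h
  let D : ValuationSubring Ω → ℤ := fun A ↦
    if h : ∃ r : Nat.Primes, r ∉ S ∧ A.LiesOverPrime (r : ℕ) then η ⟨A, h⟩ else 0
  have hD : ∀ z : OutPlace S, D z.1 = η z := fun z ↦ dif_pos z.2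
  obtain ⟨a, haE', ha0, ha⟩ := exists_elem_nu hE' D
    (fun n hn r A hr hA ↦ by
      show D (n • OutPlace.of hr hA).1 = D (OutPlace.of hr hA).1
      rw [hD, hD, hηG n (hG'G hn)])
    ⟨T, fun r A hr hrT hA ↦ by
      rw [← show (OutPlace.of hr hA).1 = A from rfl, hD]
      exact hηT _ (by rwa [OutPlace.prime_of])⟩
  obtain ⟨k, m, hm, hh⟩ :=
    Nat.exists_eq_pow_mul_and_not_dvd (Fintype.card_ne_zero (α := ClassGroup (𝓞 E'))) p hp.ne_one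
  obtain ⟨γ, hγ⟩ := IsAlgClosed.exists_pow_nat_eq a (Nat.pow_pos hp.pos (n := k))
  have hγ0 : γ ≠ 0 := fun h ↦ ha0 (by rw [← hγ, h, zero_pow (pow_ne_zero k hp.ne_zero)])
  have hvγ : ∀ z : OutPlace S, z.val γ = (m : ℚ) * η z := fun z ↦ by
    have h := ha z.prime z.1 z.prime_notMem z.liesOver
    rw [show nu (z.prime : ℕ) z.1 a = z.val a from rfl, ← hγ, z.val_pow hγ0, hh, hD] at h
    push_cast at h
    rw [mul_assoc] at h
    exact mul_left_cancel₀ (pow_ne_zero k (Nat.cast_ne_zero.mpr hp.ne_zero)) h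
  obtain ⟨E₂, hE₂, hE₂n, hE'E₂, hγE₂⟩ := exists_root_level hpS hE' k (fun _ : Unit ↦ γ)
    (fun _ ↦ hγ0) (fun _ ↦ by rw [pPrime_coe, hγ]; exact haE') fun _ r A hr hA ↦ by
      obtain ⟨c, hcE, hc0, hcν⟩ := exists_mem_nu_eq hE' hr hA ((m : ℤ) * D A)
      refine ⟨c, hcE, hc0, ?_⟩
      rw [pPrime_coe, hγ, ha r A hr hA, hh, hcν]
      push_cast
      ring
  haveI := hE₂n
  haveI := hE₂.1
  haveI : IsGalois ℚ E₂ := IsGalois.mk
  have hG₂n : E₂.fixingSubgroup.Normal := normal_fixing E₂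
  set G₂ := E₂.fixingSubgroup
  have hG₂G : G₂ ≤ G := (IntermediateField.fixingSubgroup_antitone hE'E₂).trans hG'G
  haveI := finite_quotient (U := G₂) ⟨E₂, hE₂.1, le_rfl⟩
  have hsγ : ∀ s : Γ, s γ ≠ 0 := fun s ↦ by simpa using hγ0
  let v : Γ → Ω := fun s ↦ x s ^ m * (s γ / γ)
  have hv0 : ∀ s, v s ≠ 0 := fun s ↦ mul_ne_zero (pow_ne_zero _ (hx0 s)) (div_ne_zero (hsγ s) hγ0)
  have hvn : ∀ s ∈ H, ∀ n ∈ G₂, v (s * n) = v s := fun s hs n hn ↦ by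
    simp only [v, show x (s * n) = x s from hyp s hs n (hG₂G hn), AlgEquiv.mul_apply,
      (IntermediateField.mem_fixingSubgroup_iff _ _).mp hn γ (hγE₂ ())]
  have hvval : ∀ s ∈ H, ∀ z : OutPlace S, z.val (v s) = 0 := fun s hs z ↦ by
    rw [z.val_mul (pow_ne_zero _ (hx0 s)) (div_ne_zero (hsγ s) hγ0), z.val_pow (hx0 s),
      z.val_div (hsγ s) hγ0, z.val_apply s hγ0, hvγ, hvγ,
      show z.val (x s) = (ζ ⟨s, hs⟩ z : ℚ) from (hζ ⟨s, hs⟩ z).symm, hη ⟨s, hs⟩ z]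
    show (m : ℚ) * ((η z - η (s⁻¹ • z) : ℤ) : ℚ) + ((m : ℚ) * η (s⁻¹ • z) - (m : ℚ) * η z) = 0
    push_cast
    ring
  have hvE₂ : ∀ s ∈ H, v s ∈ E₂ := fun s hs ↦ by
    refine mul_mem (pow_mem (hE'E₂ (hxE' s hs)) m) (div_mem ?_ (hγE₂ ()))
    refine mem_of_fixed fun n hn ↦ ?_
    have h := (IntermediateField.mem_fixingSubgroup_iff _ _).mp (hG₂n.conj_mem' n hn s) γ (hγE₂ ())
    rwa [AlgEquiv.mul_apply, AlgEquiv.mul_apply, AlgEquiv.aut_inv, AlgEquiv.symm_apply_eq] at h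
  let Y : Γ → Ω := fun s ↦ pRoot p (v s)
  have hYp : ∀ s, Y s ^ p = v s := fun s ↦ pRoot_pow hp.pos _
  have hY0 : ∀ s, Y s ≠ 0 := fun s h ↦ hv0 s (by rw [← hYp s, h, zero_pow hp.ne_zero])
  have hYn : ∀ s ∈ H, ∀ n ∈ G₂, Y (s * n) = Y s := fun s hs n hn ↦
    congrArg (pRoot p) (hvn s hs n hn)
  obtain ⟨E₃, hE₃, hE₃n, hE₂E₃, hYE₃⟩ := exists_root_level hpS hE₂ 1
    (fun q : Γ ⧸ G₂ ↦ Y (repIn H q)) (fun q ↦ hY0 _)
    (fun q ↦ by rw [pow_one, pPrime_coe, hYp]; exact hvE₂ _ (repIn_mem q))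
    fun q r A hr hA ↦ ⟨1, one_mem _, one_ne_zero, by
      rw [pow_one, pPrime_coe, hYp, nu_one r.2 hA, mul_zero, ← OutPlace.val_of hr hA,
        hvval _ (repIn_mem q)]⟩
  haveI := hE₃n
  set G₃ := E₃.fixingSubgroup
  have hG₃G₂ : G₃ ≤ G₂ := IntermediateField.fixingSubgroup_antitone hE₂E₃
  have hYE : ∀ s ∈ H, Y s ∈ E₃ := fun s hs ↦ by
    have h := hYE₃ (QuotientGroup.mk s)
    rwa [apply_repIn (U := G₂) (φ := Y) (fun a ha u hu _ ↦ hYn a ha u hu) hs] at h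
  obtain ⟨δ, hδ⟩ := IsAlgClosed.exists_pow_nat_eq γ hp.pos
  have hδ0 : δ ≠ 0 := fun h ↦ hγ0 (by rw [← hδ, h, zero_pow hp.ne_zero])
  let e : Γ → Ω := fun s ↦ y s ^ m * (s δ / δ) / Y s
  obtain ⟨U, hU, -, hUM, hUfix⟩ := exists_normal_fixes
    (fullLevels.inf_mem hM ⟨E₂, hE₂.1, le_rfl⟩) ![δ]
  have hde : ∀ s t, dd e s t = dd y s t ^ m / dd Y s t := fun s t ↦ by
    rw [show e = fun s ↦ y s ^ m * (s δ / δ) / Y s from rfl, dd_div, dd_mul, dd_pow,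
      dd_apply_div hδ0, mul_one]
  refine ⟨m, e, U, E₃, hm, fun s hs ↦ ?_, hU, fun s hs u hu ↦ ?_, hE₃,
    (hG₃G₂.trans hG₂G).trans hEH, fun s hs t ht n hn n' hn' ↦ ?_⟩
  · simp only [e, div_pow, mul_pow, hYp, ← map_pow, hδ, ← pow_mul, mul_comm m p]
    simp only [pow_mul]
    exact div_self (hv0 s)
  · simp only [e, hyM s hs u (hUM hu).1, hYn s hs u (hUM hu).2, AlgEquiv.mul_apply,
      show u δ = δ from hUfix u hu 0]
  · have h1 := (hc s hs t ht n (IntermediateField.fixingSubgroup_antitone hE'E₂ (hG₃G₂ hn))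
      n' (IntermediateField.fixingSubgroup_antitone hE'E₂ (hG₃G₂ hn'))).1
    rw [hde, hde, ← mul_div_assoc, ← mul_div_assoc, ← mul_pow, ← mul_pow, h1]
    congr 1
    rw [dd, dd, hYn t ht n' (hG₃G₂ hn'), hYn s hs n (hG₃G₂ hn),
      show s * n * (t * n') = s * t * (t⁻¹ * n * t * n') by group,
      hYn (s * t) (mul_mem hs ht) _ (mul_mem (hG₂n.conj_mem' n (hG₃G₂ hn) t) (hG₃G₂ hn')),
      AlgEquiv.mul_apply, (IntermediateField.mem_fixingSubgroup_iff _ _).mp hn _ (hYE t ht)]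

end Principal

theorem forgetMor_surjective_of (hHasse : HasseInjective p) (hLoc : LocalH2Cyclic p)
    (hH : fullLevels.mem H) {E₀ : IntermediateField ℚ Ω} (hE₀ : E₀.IsUnramifiedOutside S)
    (hE₀H : E₀.fixingSubgroup ≤ H) (hz : zetaP p ∈ E₀) (hpS : pPrime p ∈ S)
    {k : ℕ} (hk0 : k ≠ 0) (hk : ∀ σ : Γ, σ ^ k ∈ H) {ℓ : Nat.Primes} (hℓp : (ℓ : ℕ) ≠ p)
    (hℓ : p ∣ orderOf (((p : ℕ) : ZMod ℓ) ^ k)) {ζℓ : Ω} (hζℓ : IsPrimitiveRoot ζℓ ℓ)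
    (hζℓE : ζℓ ∈ E₀) {I : Ω} (hI : I ^ 2 = -1) (hIE : I ∈ E₀)
    (z : H2 (levelsOn H) (muOn p H))
    (hz0 : ∀ v g, ¬ InPlaces S v → (placeMor p H v g).map₂ z = 0) :
    z ∈ LinearMap.range (forgetMor p H S).map₂ := by
  classical
  have hp : p.Prime := Fact.out
  haveI := hE₀.1
  have hρ : IsCtsRep (levelsOn H) (muOn p H) :=
    isCtsRep_muOn (L := fullLevels) ⟨E₀, hE₀.1, le_rfl⟩ hz
  obtain ⟨f, rfl, hf1⟩ := exists_normalized hρ z
  obtain ⟨E, hE, hEn, hE₀E, hle, hloc⟩ :=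
    exists_killing hLoc hH hE₀ hE₀H hpS hk0 hk hℓp hℓ hζℓ hζℓE hI hIE hz0
  haveI := hE.1
  haveI : IsGalois ℚ E := IsGalois.mk
  have hGn : E.fixingSubgroup.Normal := normal_fixing E
  set G := E.fixingSubgroup
  have h0 := hHasse G ⟨E, hE.1, le_rfl⟩ _ hloc
  rw [Mor.map₂_mk, H2mk_eq_zero_iff, mem_B2_iff] at h0
  obtain ⟨g, ⟨W₁, ⟨U₁, hU₁, hUW₁⟩, hg⟩, hdg⟩ := h0
  obtain ⟨W₂, ⟨U₂, hU₂, hUW₂⟩, hf⟩ := (mem_Z2_iff.mp f.2).2
  obtain ⟨M, hM, hMn, hMle⟩ := fullLevels.exists_normal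
    (fullLevels.inf_mem (fullLevels.inf_mem hU₁ hU₂) ⟨E, hE.1, le_rfl⟩)
  have hMG : M ≤ G := fun m hm ↦ (hMle hm).2
  let F : Γ → Γ → Ω := fun s t ↦ mu p (ext₂ f.1 s t)
  have hF0 : ∀ s t, F s t ≠ 0 := fun s t ↦ mu_ne_zero _
  have hF1 : ∀ s ∈ H, F s 1 = 1 ∧ F 1 s = 1 := fun s hs ↦ by
    constructor
    · simp only [F]
      rw [show ext₂ f.1 s 1 = f.1 (⟨s, hs⟩, 1) from ext₂_apply f.1 ⟨s, hs⟩ 1, (hf1 _).1, mu_zero]
    · simp only [F]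
      rw [show ext₂ f.1 1 s = f.1 (1, ⟨s, hs⟩) from ext₂_apply f.1 1 ⟨s, hs⟩, (hf1 _).2, mu_zero]
  have hFM : ∀ s ∈ H, ∀ t ∈ H, ∀ m ∈ M, ∀ m' ∈ M, F (s * m) (t * m') = F s t :=
    fun s hs t ht m hm m' hm' ↦ by
      have h := hf ⟨s, hs⟩ ⟨t, ht⟩ ⟨m, hle (hMG hm)⟩ (hUW₂ (hMle hm).1.2)
        ⟨m', hle (hMG hm')⟩ (hUW₂ (hMle hm').1.2)
      rw [← ext₂_apply f.1, ← ext₂_apply f.1] at h
      exact congrArg (mu p) h
  obtain ⟨Φ, hΦ0, hΦM, hΦ1, hΦG, hΦp, hc⟩ :=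
    exists_inflated (p := p) (g := fun n ↦ mu p (ext₁ g n)) hGn hle hM hMn hMG hF0
      (isMulCoc_mu f.2) (fun s t ↦ mu_pow _) hF1 hFM (fun n ↦ mu_ne_zero _) (fun n ↦ mu_pow _)
      (fun n hn m hm ↦ by
        have h := hg ⟨n, hn⟩ ⟨m, hMG hm⟩ (hUW₁ (hMle hm).1.1)
        rw [← ext₁_apply g, ← ext₁_apply g] at h
        exact congrArg (mu p) h)
      (fun n hn n' hn' ↦ by
        refine Eq.trans ?_ (mu_d1 g ⟨n, hn⟩ ⟨n', hn'⟩)
        simp only [F]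
        rw [congrFun hdg (⟨n, hn⟩, ⟨n', hn'⟩)]
        exact congrArg (mu p) (ext₂_apply f.1 ⟨n, hle hn⟩ ⟨n', hle hn'⟩))
  have hstab : ∀ x : OutPlace S, ∀ s ∈ H, s • x = x → ∃ m : ℤ, x.val (Φ s) = m :=
    fun x s hs hsx ↦ exists_int_val_stab hE hle f (fun r ↦ (hf1 r).1) hz0 hM hΦ0 hΦ1 hΦM
      (fun r hr n hn ↦ ⟨(hc r hr r hr n hn 1 (one_mem _)).2.2.1,
        (hc r hr r hr n hn 1 (one_mem _)).2.2.2⟩) x hs hsx
  obtain ⟨m, E', b, hm, hE', hE'n, hEE', hb0, hb1, hbn, hc'⟩ :=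
    exists_unit_cocycle (p := p) hE hpS hle hM hF0 (fun s t ↦ mu_pow _) hΦ0 hΦ1 hΦM hΦG hΦp hc hstab
  haveI := hE'n
  obtain ⟨m', e, U, E₃, hm', hep, hU, heU, hE₃, hE₃H, hc''⟩ :=
    exists_level_cocycle (p := p) (F := fun s t ↦ F s t ^ m) (y := fun s ↦ Φ s ^ m / b s) hE hpS
      hE' hEE' hle hM (fun s t ↦ pow_ne_zero _ (hF0 s t))
      (fun s t ↦ by rw [← pow_mul, mul_comm, pow_mul, mu_pow, one_pow])
      (fun s hs ↦ by rw [(hF1 s hs).2, one_pow])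
      (fun s ↦ div_ne_zero (pow_ne_zero _ (hΦ0 s)) (hb0 s))
      (by simp only [hΦ1, hb1, one_pow, div_one])
      (fun s hs u hu ↦ by simp only [hΦM s hs u hu, hbn s u (hMG hu)])
      (fun n hn ↦ by
        rw [div_pow, ← pow_mul, mul_comm, pow_mul, hΦG n hn, ← one_mul n, hbn 1 n hn, hb1,
          one_pow, one_pow, div_one])
      (fun s hs n hn ↦ by
        rw [div_pow, div_pow, ← pow_mul, ← pow_mul, mul_comm, pow_mul, pow_mul, hΦp s hs n hn,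
          hbn s n hn])
      hc'
  let ε : ↥H → ZMod p := fun s ↦ muLog p (e s)
  let f'' : ↥H × ↥H → ZMod p := ((m * m' : ℕ) : ZMod p) • f.1 + d1 (muOn p H) ε
  have hεcts : (levelsOn H).IsCts₁ ε :=
    ⟨U.comap H.subtype, ⟨U, hU, le_rfl⟩, fun s u hu ↦ congrArg (muLog p) (heU s s.2 u hu)⟩
  have hval : ∀ s t : ↥H, mu p (f'' (s, t)) = F s t ^ (m * m') * dd e s t := fun s t ↦ by
    simp only [f'', Pi.add_apply, Pi.smul_apply, smul_eq_mul, mu_add, mu_natCast_mul]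
    rw [mu_d1, ← ext₂_apply f.1]
    congr 1
    have he : ∀ r : ↥H, mu p (ext₁ ε r) = e r := fun r ↦ by
      rw [ext₁_apply]; exact mu_muLog (hep r r.2)
    simp only [dd, ← Subgroup.coe_mul, he]
  have hinv : ∀ s t n n' : ↥H, (n : Γ) ∈ E₃.fixingSubgroup → (n' : Γ) ∈ E₃.fixingSubgroup →
      f'' (s * n, t * n') = f'' (s, t) := fun s t n n' hn hn' ↦ mu_injective (p := p) (by
    rw [hval, hval]
    have h := hc'' s s.2 t t.2 n hn n' hn'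
    rw [← pow_mul, ← pow_mul] at h
    exact h)
  have hf''2 : d2 (muOn p H) f'' = 0 := by
    rw [map_add, map_smul, LinearMap.mem_ker.mp f.2.1, smul_zero, d2_d1, add_zero]
  have hf''Z : f'' ∈ Z2 (levelsSOn H S) (muOn p H) :=
    ⟨LinearMap.mem_ker.mpr hf''2, E₃.fixingSubgroup.comap H.subtype, ⟨_, ⟨E₃, hE₃, le_rfl⟩, le_rfl⟩,
      fun s t n hn n' hn' ↦ hinv s t n n' hn hn'⟩
  have ha : ((m * m' : ℕ) : ZMod p) ≠ 0 := by
    rw [ne_eq, CharP.cast_eq_zero_iff (ZMod p) p]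
    exact fun h ↦ (hp.dvd_mul.mp h).elim hm hm'
  refine ⟨((m * m' : ℕ) : ZMod p)⁻¹ • H2mk (levelsSOn H S) (muOn p H) ⟨f'', hf''Z⟩, ?_⟩
  rw [map_smul, inv_smul_eq_iff₀ ha, ← map_smul, Mor.map₂_mk, H2mk_eq_iff, mem_B2_iff]
  refine ⟨ε, hεcts, ?_⟩
  show d1 (muOn p H) ε = f'' - ((m * m' : ℕ) : ZMod p) • f.1
  simp [f'']

end Fermat.Agent.GalCoh.Descent

namespace Fermat.Agent.GalCoh

open ExtCitation Descent

/-- Descent to a large finite set of places follows from Hasse–Brauer–Noether and the local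
bound. -/
theorem descentS_of (p : ℕ) [Fact p.Prime] (hHasse : HasseInjective p) (hLoc : LocalH2Cyclic p) :
    DescentS p := by
  intro H hH
  classical
  obtain ⟨N, hN, hNn, hNH⟩ := fullLevels.exists_normal hH
  haveI := fullLevels.finiteIndex hN
  set k := N.index
  have hk0 : k ≠ 0 := Subgroup.FiniteIndex.index_ne_zero
  have hk : ∀ σ, σ ^ k ∈ H := fun σ ↦ hNH (Subgroup.pow_index_mem N σ)
  obtain ⟨ℓ, hℓp, hℓ⟩ := exists_aux_prime (p := p) k hk0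
  haveI : NeZero (ℓ : ℕ) := ⟨ℓ.2.ne_zero⟩
  obtain ⟨ζℓ, hζℓ⟩ := exists_primitiveRoot ℓ
  obtain ⟨I, hI⟩ := IsAlgClosed.exists_pow_nat_eq (-1 : AlgebraicClosure ℚ) two_pos
  obtain ⟨F₀, hF₀, hF₀H⟩ := hH
  haveI := hF₀
  haveI : Algebra.IsAlgebraic ℚ (AlgebraicClosure ℚ) := AlgebraicClosure.isAlgebraic ℚ
  haveI : FiniteDimensional ℚ
      (IntermediateField.adjoin ℚ ({zetaP p, ζℓ, I} : Set (AlgebraicClosure ℚ))) :=
    IntermediateField.finiteDimensional_adjoin fun x _ ↦ Algebra.IsIntegral.isIntegral x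
  let E₀ : IntermediateField ℚ (AlgebraicClosure ℚ) :=
    F₀ ⊔ IntermediateField.adjoin ℚ ({zetaP p, ζℓ, I} : Set (AlgebraicClosure ℚ))
  haveI : FiniteDimensional ℚ E₀ := IntermediateField.finiteDimensional_sup _ _
  have hmem : ∀ x ∈ ({zetaP p, ζℓ, I} : Set (AlgebraicClosure ℚ)), x ∈ E₀ := fun x hx ↦
    (le_sup_right : _ ≤ E₀) (IntermediateField.subset_adjoin ℚ _ hx)
  have hE₀H : E₀.fixingSubgroup ≤ H :=
    (IntermediateField.fixingSubgroup_antitone le_sup_left).trans hF₀H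
  obtain ⟨S₁, hS₁⟩ := exists_unramifiedOutside E₀
  haveI := finiteDimensional_fixedField (U := H) ⟨F₀, hF₀, hF₀H⟩
  haveI : NumberField (IntermediateField.fixedField H : IntermediateField ℚ (AlgebraicClosure ℚ)) :=
    { to_charZero := inferInstance, to_finiteDimensional := inferInstance }
  obtain ⟨S₂, hS₂⟩ := exists_genClass_primes
    (IntermediateField.fixedField H : IntermediateField ℚ (AlgebraicClosure ℚ))
  refine ⟨insert (pPrime p) (S₁ ∪ S₂), fun S hS ↦ ?_⟩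
  have hpS : pPrime p ∈ S := hS (Finset.mem_insert_self _ _)
  have hE₀ : E₀.IsUnramifiedOutside S := hS₁.mono fun q hq ↦
    hS (Finset.mem_insert_of_mem (Finset.mem_union_left _ hq))
  refine ⟨forgetMor_injective ⟨F₀, hF₀, hF₀H⟩ hE₀ hE₀H (hmem _ (by simp)) hpS
      (hS₂ S fun q hq ↦ hS (Finset.mem_insert_of_mem (Finset.mem_union_right _ hq))),
    fun z hz ↦ forgetMor_surjective_of hHasse hLoc ⟨F₀, hF₀, hF₀H⟩ hE₀ hE₀H (hmem _ (by simp)) hpS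
      hk0 hk hℓp hℓ hζℓ (hmem _ (by simp)) hI (hmem _ (by simp)) z hz⟩

end Fermat.Agent.GalCoh
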