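import Fermat.Agent.GalCoh.Descent.Place
import Fermat.Agent.GalCoh.GlobalLevels
import Fermat.Agent.Frobenius.Exists
import Fermat.Agent.ExtVanishing.IdealCount

/-!
# Places, inertia and divisors for fields unramified outside a finite set
-/

set_option autoImplicit false
set_option linter.unusedSectionVars false
set_option linter.style.haveILetI false

noncomputable section

open NumberField IsDedekindDomain
open scoped Pointwise NumberField nonZeroDivisors

namespace Fermat.Agent.GalCoh.Descent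

open Fermat.Agent.FreyReducible Fermat.Agent.CFT

local notation "Ω" => AlgebraicClosure ℚ
local notation "Γ" => (AlgebraicClosure ℚ ≃ₐ[ℚ] AlgebraicClosure ℚ)

local instance isAlgebraicQbar_in : Algebra.IsAlgebraic ℚ (AlgebraicClosure ℚ) :=
  AlgebraicClosure.isAlgebraic ℚ
local instance isAlgClosureQbar_in : IsAlgClosure ℚ (AlgebraicClosure ℚ) :=
  ⟨inferInstance, inferInstance⟩
local instance isGaloisQbar_in : IsGalois ℚ (AlgebraicClosure ℚ) :=
  have : Normal ℚ (AlgebraicClosure ℚ) := IsAlgClosure.normal ℚ (AlgebraicClosure ℚ)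
  have : Algebra.IsSeparable ℚ (AlgebraicClosure ℚ) :=
    Algebra.IsAlgebraic.isSeparable_of_perfectField
  IsGalois.mk

/-- The ramification index over an intermediate field is the order of the inertia fixing it. -/
lemma ramIdx_eq_card {M : Type} [Field M] [NumberField M] [IsGalois ℚ M]
    (L : IntermediateField ℚ M) (w : HeightOneSpectrum (𝓞 M)) :
    ramIdx L w = Nat.card ↥(w.asIdeal.inertia (M ≃ₐ[ℚ] M) ⊓ L.fixingSubgroup) := by
  haveI : IsGaloisGroup (M ≃ₐ[L] M) (𝓞 L) (𝓞 M) := IsGaloisGroup.of_isFractionRing _ _ _ L M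
  haveI := (primeUnder L w).isPrime
  haveI := w.isPrime
  haveI : Finite (𝓞 L ⧸ (primeUnder L w).asIdeal) :=
    Ring.HasFiniteQuotients.finiteQuotient (primeUnder L w).ne_bot
  haveI : (primeUnder L w).asIdeal.IsMaximal := (primeUnder L w).isMaximal
  haveI : Finite (primeUnder L w).asIdeal.ResidueField :=
    Finite.of_surjective _ (Ideal.bijective_algebraMap_quotient_residueField _).2
  have hI : Nat.card (w.asIdeal.inertia (M ≃ₐ[L] M)) = ramIdx L w := by
    rw [Ideal.card_inertia_eq_ramificationIdxIn (primeUnder L w).asIdeal,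
      Ideal.ramificationIdxIn_eq_ramificationIdx (primeUnder L w).asIdeal w.asIdeal (M ≃ₐ[L] M),
      ramIdx, Ideal.ramificationIdx'_eq_ramificationIdx _ _ (primeUnder L w).ne_bot]
  rw [← hI]
  refine Nat.card_congr
    { toFun := fun g ↦ ⟨g.1.restrictScalars ℚ, g.2,
        (IntermediateField.mem_fixingSubgroup_iff _ _).mpr fun x hx ↦ g.1.commutes ⟨x, hx⟩⟩
      invFun := fun g ↦ ⟨IntermediateField.fixingSubgroupEquiv L ⟨g.1, g.2.2⟩, g.2.1⟩
      left_inv := fun g ↦ Subtype.ext (AlgEquiv.ext fun _ ↦ rfl)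
      right_inv := fun g ↦ Subtype.ext (AlgEquiv.ext fun _ ↦ rfl) }

variable {A : ValuationSubring Ω} {q : ℕ} (hq : q.Prime) (hA : A.LiesOverPrime q)

include hq hA in
lemma exists_base_nu_eq_of_mem (K M : IntermediateField ℚ Ω) [FiniteDimensional ℚ M]
    [IsGalois ℚ M] (hKM : K ≤ M) {x : Ω} (hx : x ≠ 0) (hxM : x ∈ M)
    (hfix : ∀ σ ∈ A.inertiaSubgroupIn ℚ, σ ∈ K.fixingSubgroup → σ x = x) :
    ∃ k ∈ K, k ≠ 0 ∧ nu q A k = nu q A x := by
  haveI : NumberField M := { to_charZero := inferInstance, to_finiteDimensional := inferInstance }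
  set w := fieldPlace hq hA M
  let K' : IntermediateField ℚ M := IntermediateField.restrict hKM
  set I := w.asIdeal.inertia (M ≃ₐ[ℚ] M) ⊓ K'.fixingSubgroup with hI
  let L : IntermediateField ℚ M := IntermediateField.fixedField I
  have hL : L.fixingSubgroup = I := IntermediateField.fixingSubgroup_fixedField I
  have hxL : (⟨x, hxM⟩ : M) ∈ L := by
    refine (IntermediateField.mem_fixedField_iff _ _).mpr fun g hg ↦ ?_
    obtain ⟨σ, hσ, hσg⟩ := exists_mem_inertiaSubgroupIn_extending hq.ne_zero hA M g fun b ↦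
      mem_fieldPrime.mp (hg.1 b)
    refine Subtype.ext ?_
    show ((g ⟨x, hxM⟩ : M) : Ω) = x
    rw [← hσg]
    refine hfix σ hσ ((IntermediateField.mem_fixingSubgroup_iff _ _).mpr fun k hk ↦ ?_)
    rw [show k = ((⟨k, hKM hk⟩ : M) : Ω) from rfl, hσg,
      (IntermediateField.mem_fixingSubgroup_iff _ _).mp hg.2 _
        ((IntermediateField.mem_restrict hKM _).mpr hk)]
  have he : ramIdx L w = ramIdx K' w := by
    rw [ramIdx_eq_card, ramIdx_eq_card, hL, hI, ← inf_assoc, inf_idem]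
  obtain ⟨π, hπ0, hπ⟩ := exists_ordv_eq_one (primeUnder K' w)
  set n := ordv (primeUnder L w) (⟨_, hxL⟩ : L)
  refine ⟨((algebraMap K' M (π ^ n) : M) : Ω), ?_, ?_, ?_⟩
  · exact (IntermediateField.mem_restrict hKM _).mp (π ^ n).2
  · exact fun h ↦ zpow_ne_zero n hπ0 ((algebraMap K' M).injective
      ((Subtype.ext h : algebraMap K' M (π ^ n) = 0).trans (map_zero _).symm))
  · have hx' : (⟨x, hxM⟩ : M) ≠ 0 := fun h ↦ hx (congrArg Subtype.val h)
    have h1 : ordv w (⟨x, hxM⟩ : M) = ramIdx L w * n := ordv_algebraMap w (⟨_, hxL⟩ : L)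
    have h2 : ordv w (algebraMap K' M (π ^ n)) = ramIdx K' w * n := by
      rw [ordv_algebraMap, ordv_zpow, hπ, mul_one]
    rw [nu_eq_div hq hA M (by simpa only [ne_eq, ZeroMemClass.coe_eq_zero, map_eq_zero] using zpow_ne_zero n hπ0), show x = ((⟨x, hxM⟩ : M) : Ω) from rfl,
      nu_eq_div hq hA M hx', h1, h2, he]

include hq hA in
/-- An element fixed by the part of inertia fixing `K` has the valuation of an element of `K`. -/
theorem exists_base_nu_eq (K : IntermediateField ℚ Ω) [FiniteDimensional ℚ K] {x : Ω} (hx : x ≠ 0)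
    (hfix : ∀ σ ∈ A.inertiaSubgroupIn ℚ, σ ∈ K.fixingSubgroup → σ x = x) :
    ∃ k ∈ K, k ≠ 0 ∧ nu q A k = nu q A x := by
  haveI : FiniteDimensional ℚ (IntermediateField.adjoin ℚ ({x} : Set Ω)) :=
    IntermediateField.adjoin.finiteDimensional (Algebra.IsIntegral.isIntegral x)
  let F := K ⊔ IntermediateField.adjoin ℚ ({x} : Set Ω)
  haveI : FiniteDimensional ℚ F := IntermediateField.finiteDimensional_sup _ _
  let M := IntermediateField.normalClosure ℚ F Ω
  haveI : Normal ℚ M := normalClosure.normal ℚ F Ω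
  haveI : IsGalois ℚ M := IsGalois.mk
  exact exists_base_nu_eq_of_mem hq hA K M (le_sup_left.trans F.le_normalClosure) hx
    (F.le_normalClosure (le_sup_right (a := K) (IntermediateField.mem_adjoin_simple_self ℚ x))) hfix

include hq hA in
lemma valuation_natCast_eq_one {n : ℕ} (hn : ¬ q ∣ n) : A.valuation (n : Ω) = 1 := by
  refine le_antisymm ((A.valuation_le_one_iff _).mpr (natCast_mem A n)) (not_lt.mp fun h ↦ ?_)
  obtain ⟨u, v, huv⟩ := Int.isCoprime_iff_gcd_eq_one.mpr
    (show Int.gcd (n : ℤ) q = 1 by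
      rw [Int.gcd_natCast_natCast]; exact (hq.coprime_iff_not_dvd.mpr hn).symm)
  have h1 : (u : Ω) * (n : Ω) + (v : Ω) * (q : Ω) = 1 := by exact_mod_cast congrArg (Int.cast : ℤ → Ω) huv
  have hle : ∀ m : ℤ, A.valuation (m : Ω) ≤ 1 := fun m ↦
    (A.valuation_le_one_iff _).mpr (intCast_mem A m)
  have h2 : A.valuation ((u : Ω) * (n : Ω) + (v : Ω) * (q : Ω)) < 1 := by
    refine Valuation.map_add_lt _ ?_ ?_ <;> rw [map_mul]
    · exact mul_lt_one_of_nonneg_of_lt_one_right (hle u) zero_le h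
    · exact mul_lt_one_of_nonneg_of_lt_one_right (hle v) zero_le (valuation_q_lt_one hq hA)
  rw [h1, map_one] at h2
  exact lt_irrefl _ h2

include hq hA in
lemma exists_int_nu_natCast {n : ℕ} (hn : n ≠ 0) : ∃ m : ℤ, nu q A (n : Ω) = m := by
  obtain ⟨k, n', hn', rfl⟩ := Nat.exists_eq_pow_mul_and_not_dvd hn q hq.ne_one
  have hn0 : (n' : Ω) ≠ 0 := Nat.cast_ne_zero.mpr fun h ↦ hn' (h ▸ dvd_zero q)
  refine ⟨k, ?_⟩
  push_cast
  rw [nu_mul hq hA (pow_ne_zero _ (Nat.cast_ne_zero.mpr hq.ne_zero)) hn0,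
    nu_pow hq hA (Nat.cast_ne_zero.mpr hq.ne_zero), nu_natCast_self hq hA,
    (nu_eq_zero_iff hq hA hn0).mpr (valuation_natCast_eq_one hq hA hn'), mul_one, add_zero]

include hq hA in
/-- An element fixed by inertia has integral valuation. -/
theorem exists_int_nu_eq {x : Ω} (hx : x ≠ 0)
    (hfix : ∀ σ ∈ A.inertiaSubgroupIn ℚ, σ x = x) : ∃ m : ℤ, nu q A x = m := by
  obtain ⟨k, hk, hk0, hk'⟩ := exists_base_nu_eq hq hA ⊥ hx fun σ hσ _ ↦ hfix σ hσ
  obtain ⟨r, rfl⟩ := IntermediateField.mem_bot.mp hk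
  have hr : r ≠ 0 := fun h ↦ hk0 (by rw [h, map_zero])
  obtain ⟨a, ha⟩ := exists_int_nu_natCast hq hA (n := r.num.natAbs) (by simpa using hr)
  obtain ⟨b, hb⟩ := exists_int_nu_natCast hq hA (n := r.den) r.den_pos.ne'
  refine ⟨a - b, ?_⟩
  rw [← hk', Int.cast_sub, ← ha, ← hb]
  have hd : ((r.den : ℕ) : Ω) ≠ 0 := Nat.cast_ne_zero.mpr r.den_pos.ne'
  have hn : ((r.num.natAbs : ℕ) : Ω) ≠ 0 := Nat.cast_ne_zero.mpr (by simpa using hr)
  rcases Int.natAbs_eq r.num with h | h
  · rw [show algebraMap ℚ Ω r = ((r.num.natAbs : ℕ) : Ω) / (r.den : Ω) by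
      rw [eq_ratCast, Rat.cast_def, h]; push_cast; simp, nu_div hq hA hn hd]
  · rw [show algebraMap ℚ Ω r = -((r.num.natAbs : ℕ) : Ω) / (r.den : Ω) by
      rw [eq_ratCast, Rat.cast_def, h]; push_cast; simp, nu_div hq hA (neg_ne_zero.mpr hn) hd,
      show nu q A (-((r.num.natAbs : ℕ) : Ω)) = nu q A ((r.num.natAbs : ℕ) : Ω) by
        rw [neg_eq_neg_one_mul, nu_mul hq hA (by simp) hn,
          nu_of_pow_eq_one hq hA two_ne_zero neg_one_sq, zero_add]]

include hq hA in
/-- Two places over the same prime of a Galois field are conjugate over it. -/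
theorem exists_fixing_smul_eq (E : IntermediateField ℚ Ω) [FiniteDimensional ℚ E] [IsGalois ℚ E]
    {A' : ValuationSubring Ω} (hA' : A'.LiesOverPrime q) (h : fieldPrime A E = fieldPrime A' E) :
    ∃ n ∈ E.fixingSubgroup, n • A = A' := by
  obtain ⟨g, hg⟩ := Frobenius.exists_smul_eq_of_liesOverPrime_qbar hq hA hA'
  let g' : E ≃ₐ[ℚ] E := AlgEquiv.restrictNormalHom E g
  have hg' : ∀ y : E, g (y : Ω) = (g' y : Ω) := fun y ↦ (g.restrictNormal_commutes E y).symm
  have hP : g' • fieldPrime A E = fieldPrime A E := by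
    conv_rhs => rw [h, ← hg]
    ext b
    rw [Ideal.mem_pointwise_smul_iff_inv_smul_mem, mem_fieldPrime, mem_fieldPrime,
      GalCoh.mem_nonunits_smul_iff]
    have e : (((g'⁻¹ • b : 𝓞 E) : E) : Ω) = g.symm ((b : E) : Ω) := by
      rw [AlgEquiv.eq_symm_apply, hg']
      exact congrArg Subtype.val (g'.apply_symm_apply (b : E))
    rw [e]
  obtain ⟨σ, hσ, hσg⟩ := exists_mem_decompositionSubgroup_extending hq.ne_zero hA E g' hP
  refine ⟨g * σ⁻¹, (IntermediateField.mem_fixingSubgroup_iff _ _).mpr fun y hy ↦ ?_, ?_⟩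
  · have h1 : σ⁻¹ y = ((g'⁻¹ ⟨y, hy⟩ : E) : Ω) := by
      apply σ.injective
      rw [hσg, ← AlgEquiv.mul_apply, mul_inv_cancel, AlgEquiv.one_apply, ← AlgEquiv.mul_apply,
        mul_inv_cancel, AlgEquiv.one_apply]
    rw [AlgEquiv.mul_apply, h1, hg', ← AlgEquiv.mul_apply, mul_inv_cancel, AlgEquiv.one_apply]
  · rw [mul_smul, show σ⁻¹ • A = A from (A.decompositionSubgroup ℚ).inv_mem hσ, hg]

include hq hA in
/-- Inertia at `q ≠ p` fixes `p`-power roots of elements whose valuation is divisible. -/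
theorem apply_root_eq {p k : ℕ} (hp : p.Prime) (hpq : p ≠ q) {σ : Γ}
    (hσ : σ ∈ A.inertiaSubgroupIn ℚ) {a y b : Ω} (hy0 : y ≠ 0) (hy : y ^ p ^ k = a)
    (ha : σ a = a) (hb0 : b ≠ 0) (hb : σ b = b) (hab : nu q A a = (p ^ k : ℕ) * nu q A b) :
    σ y = y := by
  set P := p ^ k
  have hP : P ≠ 0 := pow_ne_zero _ hp.ne_zero
  set w := y / b with hw
  have hw0 : w ≠ 0 := div_ne_zero hy0 hb0
  have hwP : σ (w ^ P) = w ^ P := by rw [hw, div_pow, hy, map_div₀, map_pow, ha, hb]
  have hwu : A.valuation w = 1 := by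
    rw [← nu_eq_zero_iff hq hA hw0]
    have h : (P : ℚ) * nu q A w = 0 := by
      rw [← nu_pow hq hA hw0, hw, div_pow, hy,
        nu_div hq hA (hy ▸ pow_ne_zero _ hy0) (pow_ne_zero _ hb0), nu_pow hq hA hb0, hab, sub_self]
    exact (mul_eq_zero.mp h).resolve_left (Nat.cast_ne_zero.mpr hP)
  set ε := σ w / w with hε
  have hεP : ε ^ P = 1 := by rw [hε, div_pow, ← map_pow, hwP, div_self (pow_ne_zero _ hw0)]
  suffices h : ε = 1 by
    have h1 : σ w = w := (div_eq_one_iff_eq hw0).mp h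
    rw [hw, map_div₀, hb, div_left_inj' hb0] at h1
    exact h1
  by_contra hne
  have hsum : ∑ i ∈ Finset.range P, ε ^ i = 0 := by
    have h := geom_sum_mul ε P
    rw [hεP, sub_self, mul_eq_zero] at h
    exact h.resolve_right (sub_ne_zero.mpr hne)
  have hwA : w ∈ A := (A.valuation_le_one_iff w).mp hwu.le
  have hn := ((mem_inertiaSubgroupIn_iff A σ).mp hσ).2 w hwA
  rw [ValuationSubring.mem_nonunits_iff] at hn
  have hε1 : A.valuation (ε - 1) < 1 := by
    rw [hε, div_sub_one hw0, map_div₀, hwu, div_one]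
    exact hn
  have hεA : ε ∈ A := mem_of_isIntegral_int A
    (IsIntegral.of_pow (Nat.pos_of_ne_zero hP) (hεP ▸ isIntegral_one))
  have hres : IsLocalRing.residue A ⟨ε, hεA⟩ = 1 := by
    rw [← sub_eq_zero, ← map_one (IsLocalRing.residue A), ← map_sub, IsLocalRing.residue_eq_zero_iff,
      ← ValuationSubring.coe_mem_nonunits_iff, ValuationSubring.mem_nonunits_iff]
    exact hε1
  have hsum' : ∑ i ∈ Finset.range P, (⟨ε, hεA⟩ : A) ^ i = 0 := Subtype.ext (by
    push_cast
    exact hsum)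
  have hP0 : (P : IsLocalRing.ResidueField A) = 0 := by
    have h := congrArg (IsLocalRing.residue A) hsum'
    rw [map_sum] at h
    simpa only [map_pow, hres, one_pow, map_zero, Finset.sum_const, Finset.card_range, nsmul_one] using h
  haveI := Frobenius.residueField_charP hq hA
  have hd : q ∣ P := (CharP.cast_eq_zero_iff (IsLocalRing.ResidueField A) q P).mp hP0
  exact hpq ((Nat.prime_dvd_prime_iff_eq hq hp).mp (hq.dvd_of_dvd_pow hd)).symm

/-- Finitely many primes ramify in a finite extension. -/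
theorem exists_unramifiedOutside (E : IntermediateField ℚ Ω) [FiniteDimensional ℚ E] :
    ∃ S : Finset Nat.Primes, E.IsUnramifiedOutside S := by
  classical
  let M := IntermediateField.normalClosure ℚ E Ω
  haveI : Normal ℚ M := normalClosure.normal ℚ E Ω
  haveI : IsGalois ℚ M := IsGalois.mk
  haveI : NumberField M := { to_charZero := inferInstance, to_finiteDimensional := inferInstance }
  have hθ : ∀ g : M ≃ₐ[ℚ] M, g ≠ 1 → ∃ r : 𝓞 M, g • r - r ≠ 0 := fun g hg ↦ by
    by_contra! h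
    refine hg (AlgEquiv.ext fun x ↦ ?_)
    obtain ⟨a, b, hb, rfl⟩ := IsFractionRing.div_surjective (A := 𝓞 M) x
    have e : ∀ r : 𝓞 M, g (algebraMap (𝓞 M) M r) = algebraMap (𝓞 M) M r := fun r ↦ by
      rw [show g (algebraMap (𝓞 M) M r) = algebraMap (𝓞 M) M (g • r) from rfl, sub_eq_zero.mp (h r)]
    simp only [map_div₀, e, AlgEquiv.one_apply]
  choose! θ hθ using hθ
  let m : ℕ := ∏ g ∈ Finset.univ.filter (fun g : M ≃ₐ[ℚ] M ↦ g ≠ 1),
    Ideal.absNorm (Ideal.span {g • θ g - θ g})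
  have hm : m ≠ 0 := Finset.prod_ne_zero_iff.mpr fun g hg ↦ by
    rw [ne_eq, Ideal.absNorm_eq_zero_iff, Ideal.span_singleton_eq_bot]
    exact hθ g (Finset.mem_filter.mp hg).2
  refine ⟨m.primeFactors.subtype Nat.Prime, inferInstance, fun q hq A hA σ hσ ↦ ?_⟩
  suffices h : σ ∈ M.fixingSubgroup from IntermediateField.fixingSubgroup_antitone E.le_normalClosure h
  let g : M ≃ₐ[ℚ] M := AlgEquiv.restrictNormalHom M σ
  have hg : ∀ y : M, σ (y : Ω) = (g y : Ω) := fun y ↦ (σ.restrictNormal_commutes M y).symm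
  by_cases hg1 : g = 1
  · refine (IntermediateField.mem_fixingSubgroup_iff _ _).mpr fun y hy ↦ ?_
    rw [show y = ((⟨y, hy⟩ : M) : Ω) from rfl, hg, hg1]
    rfl
  · exfalso
    refine hq (Finset.mem_subtype.mpr (Nat.mem_primeFactors.mpr ⟨q.2, ?_, hm⟩))
    set d := g • θ g - θ g
    have hd : d ∈ fieldPrime A M := by
      rw [mem_fieldPrime]
      have h1 := ((mem_inertiaSubgroupIn_iff A σ).mp hσ).2 ((θ g : M) : Ω)
        (mem_of_isIntegral_int A ((θ g).isIntegral_coe.map (M.val.restrictScalars ℤ)))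
      rw [hg] at h1
      exact h1
    have h2 : Ideal.absNorm (fieldPrime A M) ∣ m :=
      (Ideal.absNorm_dvd_absNorm_of_le ((Ideal.span_singleton_le_iff_mem _).mpr hd)).trans
        (Finset.dvd_prod_of_mem (fun g ↦ Ideal.absNorm (Ideal.span {g • θ g - θ g}))
          (Finset.mem_filter.mpr ⟨Finset.mem_univ g, hg1⟩))
    refine dvd_trans ?_ h2
    by_contra hnd
    have hcop := (q.2.coprime_iff_not_dvd).mpr hnd
    refine (fieldPlace q.2 hA M).isPrime.ne_top ((Ideal.eq_top_iff_one _).mpr ?_)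
    have hu := Nat.gcd_eq_gcd_ab (q : ℕ) (Ideal.absNorm (fieldPrime A M))
    rw [hcop.gcd_eq_one] at hu
    have := congrArg (Int.cast : ℤ → 𝓞 M) hu
    push_cast at this
    rw [this]
    exact add_mem (Ideal.mul_mem_right _ _ (natCast_mem_fieldPrime q.2 hA M))
      (Ideal.mul_mem_right _ _ (Ideal.absNorm_mem _))

theorem exists_levelsS_mem {N : Subgroup Γ} (hN : fullLevels.mem N) :
    ∃ S : Finset Nat.Primes, (levelsS S).mem N := by
  obtain ⟨F, hF, hle⟩ := hN
  have := hF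
  obtain ⟨S, hS⟩ := exists_unramifiedOutside F
  exact ⟨S, F, hS, hle⟩

end Fermat.Agent.GalCoh.Descent
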