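import Fermat.Agent.GalCoh.Descent.Principal
import Fermat.Agent.GalCoh.Descent.Mu
import Fermat.Agent.GalCoh.Descent.LocalClass

/-!
# Cochains of `H` with values in `μ_p`, seen inside `ℚ̄`
-/

set_option autoImplicit false
set_option linter.unusedSectionVars false
set_option linter.style.haveILetI false

noncomputable section

open scoped Pointwise

namespace Fermat.Agent.GalCoh.Descent

open Fermat.Agent.FreyReducible ExtCitation

local notation "Ω" => AlgebraicClosure ℚ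
local notation "Γ" => (AlgebraicClosure ℚ ≃ₐ[ℚ] AlgebraicClosure ℚ)

theorem liesOverPrime_unique {A : ValuationSubring Ω} {q q' : Nat.Primes}
    (h : A.LiesOverPrime (q : ℕ)) (h' : A.LiesOverPrime (q' : ℕ)) : q = q' := by
  by_contra hne
  have hnd : ¬ (q : ℕ) ∣ (q' : ℕ) := fun hd ↦
    hne (Subtype.ext ((Nat.prime_dvd_prime_iff_eq q.2 q'.2).mp hd))
  exact (valuation_q_lt_one q'.2 h').ne (valuation_natCast_eq_one q.2 h hnd)

open Classical in
/-- The integer attached by `nu` to a place outside `S`. -/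
def intNu (S : Finset Nat.Primes) (A : ValuationSubring Ω) (x : Ω) : ℤ :=
  if h : ∃ q : Nat.Primes, q ∉ S ∧ A.LiesOverPrime (q : ℕ) ∧ ∃ m : ℤ, nu q A x = m then
    h.choose_spec.2.2.choose else 0

theorem intNu_spec {S : Finset Nat.Primes} {A : ValuationSubring Ω} {x : Ω} {q : Nat.Primes}
    (hq : q ∉ S) (hA : A.LiesOverPrime (q : ℕ)) (hm : ∃ m : ℤ, nu q A x = m) :
    nu q A x = intNu S A x := by
  have hex : ∃ r : Nat.Primes, r ∉ S ∧ A.LiesOverPrime (r : ℕ) ∧ ∃ m : ℤ, nu r A x = m :=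
    ⟨q, hq, hA, hm⟩
  rw [intNu, dif_pos hex]
  obtain ⟨-, hA', -⟩ := hex.choose_spec
  conv_lhs => rw [liesOverPrime_unique hA hA']
  exact hex.choose_spec.2.2.choose_spec

theorem isUnramifiedOutside_of_le {S : Finset Nat.Primes} {K E : IntermediateField ℚ Ω}
    (hKE : K ≤ E) (hE : E.IsUnramifiedOutside S) : K.IsUnramifiedOutside S :=
  haveI := hE.1
  ⟨FiniteDimensional.of_injective (IntermediateField.inclusion hKE).toLinearMap
    (IntermediateField.inclusion hKE).toRingHom.injective,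
    fun q hq A hA _ hσ ↦ IntermediateField.fixingSubgroup_antitone hKE (hE.2 q hq A hA hσ)⟩

theorem fixedField_le {U : Subgroup Γ} {E : IntermediateField ℚ Ω} [FiniteDimensional ℚ E]
    (h : E.fixingSubgroup ≤ U) : IntermediateField.fixedField U ≤ E :=
  fun _ hx ↦ mem_of_fixed fun g hg ↦ (IntermediateField.mem_fixedField_iff _ _).mp hx g (h hg)

variable {p : ℕ} [Fact p.Prime] {H : Subgroup Γ}

open Classical in
/-- Extension by zero of a two-cochain of `H`. -/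
def ext₂ (f : ↥H × ↥H → ZMod p) (s t : Γ) : ZMod p :=
  if h : s ∈ H ∧ t ∈ H then f (⟨s, h.1⟩, ⟨t, h.2⟩) else 0

open Classical in
/-- Extension by zero of a one-cochain of `H`. -/
def ext₁ (f : ↥H → ZMod p) (s : Γ) : ZMod p := if h : s ∈ H then f ⟨s, h⟩ else 0

theorem ext₂_apply (f : ↥H × ↥H → ZMod p) (s t : ↥H) : ext₂ f s t = f (s, t) :=
  dif_pos ⟨s.2, t.2⟩

theorem ext₁_apply (f : ↥H → ZMod p) (s : ↥H) : ext₁ f s = f s := dif_pos s.2

theorem mu_d1 (x : ↥H → ZMod p) (s t : ↥H) :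
    mu p (d1 (muOn p H) x (s, t)) = dd (fun r ↦ mu p (ext₁ x r)) s t := by
  rw [d1_apply, mu_add, mu_sub, dd, ← Subgroup.coe_mul, ext₁_apply, ext₁_apply, ext₁_apply,
    show muOn p H s (x t) = (cycloChar p (s : Γ) : ZMod p) * x t from muRep_apply p (s : Γ) (x t),
    ← apply_mu]
  ring

theorem isCtsRep_muOn {L : Levels Γ} {E : IntermediateField ℚ Ω} (hL : L.mem E.fixingSubgroup)
    (hz : zetaP p ∈ E) : IsCtsRep (L.comap H.subtype) (muOn p H) :=
  ⟨E.fixingSubgroup.comap H.subtype, ⟨_, hL, le_rfl⟩, fun s hs ↦ LinearMap.ext fun x ↦ by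
    show muRep p (s : Γ) x = x
    rw [muRep_apply, cycloChar_eq_one (σ := (s : Γ))
      ((IntermediateField.mem_fixingSubgroup_iff _ _).mp hs _ hz), Units.val_one, one_mul]⟩

/-- Every class has a normalised cocycle. -/
theorem exists_normalized {L : Levels ↥H} (hρ : IsCtsRep L (muOn p H))
    (z : H2 L (muOn p H)) : ∃ f : ↥(Z2 L (muOn p H)), H2mk L (muOn p H) f = z ∧
      ∀ s, f.1 (s, 1) = 0 ∧ f.1 (1, s) = 0 := by
  obtain ⟨f, rfl⟩ := H2mk_surjective z
  set c := f.1 (1, 1) with hc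
  have hd : d1 (muOn p H) (fun _ ↦ c) ∈ B2 L (muOn p H) :=
    mem_B2_iff.mpr ⟨_, L.isCts₁_const c, rfl⟩
  refine ⟨f - ⟨_, B2_le_Z2 hρ hd⟩, ?_, fun s ↦ ?_⟩
  · rw [H2mk_eq_iff]
    simpa using hd
  have hcoc := (mem_Z2_iff.mp f.2).1
  have hρ' : ∀ g x, muOn p H g x = (cycloChar p (g : Γ) : ZMod p) * x := fun g x ↦
    muRep_apply p (g : Γ) x
  have h1 := hcoc s 1 1
  have h2 := hcoc 1 1 s
  simp only [one_mul, mul_one, hρ', map_one] at h1 h2
  simp only [AddSubgroupClass.coe_sub, Pi.sub_apply, d1_apply, hρ', map_one]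
  constructor
  · linear_combination h1
  · linear_combination -h2

theorem isMulCoc_mu {L : Levels ↥H} {f : ↥H × ↥H → ZMod p} (hf : f ∈ Z2 L (muOn p H)) :
    (∀ s ∈ H, ∀ t ∈ H, ∀ u ∈ H, mu p (ext₂ f (s * t) u) * mu p (ext₂ f s t) =
      s (mu p (ext₂ f t u)) * mu p (ext₂ f s (t * u))) := fun s hs t ht u hu ↦ by
  have h := congrArg (mu p) ((mem_Z2_iff.mp hf).1 ⟨s, hs⟩ ⟨t, ht⟩ ⟨u, hu⟩)
  rw [mu_add, mu_add, show muOn p H ⟨s, hs⟩ (f (⟨t, ht⟩, ⟨u, hu⟩)) =
    (cycloChar p s : ZMod p) * f (⟨t, ht⟩, ⟨u, hu⟩) from muRep_apply p s _, ← apply_mu] at h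
  simp only [← ext₂_apply f] at h
  exact h

/-- The Kummer cochain of a root. -/
def kummer (β : Ω) (s : Γ) : ZMod p := muLog p (s β / β)

theorem mu_kummer {β : Ω} (hβ : β ≠ 0) {s : Γ} (hs : s (β ^ p) = β ^ p) :
    mu p (kummer (p := p) β s) = s β / β :=
  mu_muLog (by rw [div_pow, ← map_pow, hs, div_self (pow_ne_zero _ hβ)])

theorem kummer_mul {β : Ω} (hβ : β ≠ 0) {s t : Γ} (hs : s (β ^ p) = β ^ p)
    (ht : t (β ^ p) = β ^ p) :
    kummer (p := p) β (s * t) = (cycloChar p s : ZMod p) * kummer β t + kummer β s := by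
  refine mu_injective ?_
  rw [mu_add, ← apply_mu, mu_kummer hβ ht, mu_kummer hβ hs,
    mu_kummer hβ (by rw [AlgEquiv.mul_apply, ht, hs]), map_div₀, AlgEquiv.mul_apply,
    div_mul_div_cancel₀ (by simpa using hβ)]

end Fermat.Agent.GalCoh.Descent
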