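import Fermat.Agent.GalCoh.Descent.LocalClass
import Fermat.Agent.GalCoh.Descent.Divisor

/-!
# A field unramified outside `S` killing classes supported on `S`
-/

set_option autoImplicit false
set_option linter.unusedSectionVars false
set_option linter.style.haveILetI false

noncomputable section

open scoped Pointwise

namespace Fermat.Agent.GalCoh.Descent

open Fermat.Agent.FreyReducible ExtCitation

local notation "Ω" => AlgebraicClosure ℚ
local notation "Γ" => (AlgebraicClosure ℚ ≃ₐ[ℚ] AlgebraicClosure ℚ)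

variable {p : ℕ} [Fact p.Prime] {H : Subgroup Γ}

theorem exists_aux_prime (k : ℕ) (hk : k ≠ 0) :
    ∃ ℓ : Nat.Primes, (ℓ : ℕ) ≠ p ∧ p ∣ orderOf (((p : ℕ) : ZMod ℓ) ^ k) := by
  have hp : p.Prime := Fact.out
  set x := p ^ k with hx
  set s := ∑ i ∈ Finset.range p, x ^ i with hs
  have hx2 : 2 ≤ x := hp.two_le.trans (Nat.le_self_pow hk p)
  have hs1 : s ≠ 1 := by
    intro h
    have h2 := Finset.single_le_sum (f := fun i ↦ x ^ i) (fun i _ ↦ Nat.zero_le _)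
      (Finset.mem_range.mpr hp.one_lt)
    simp only [pow_one, ← hs, h] at h2
    omega
  obtain ⟨ℓ, hℓ, hℓs⟩ := Nat.exists_prime_and_dvd hs1
  have hℓp : ℓ ≠ p := by
    rintro rfl
    have h0 : ((s : ℕ) : ZMod ℓ) = 0 := (CharP.cast_eq_zero_iff (ZMod ℓ) ℓ s).mpr hℓs
    rw [hs, hx] at h0
    push_cast at h0
    rw [ZMod.natCast_self, zero_pow hk, Finset.sum_eq_single 0 (fun i _ hi ↦ zero_pow hi)
      (fun h ↦ absurd (Finset.mem_range.mpr hℓ.pos) h), pow_zero] at h0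
    haveI : Fact ℓ.Prime := ⟨hℓ⟩
    exact one_ne_zero h0
  refine ⟨⟨ℓ, hℓ⟩, hℓp, dvd_of_eq (Eq.symm ?_)⟩
  haveI : Fact ℓ.Prime := ⟨hℓ⟩
  have h0 : ∑ i ∈ Finset.range p, ((p : ZMod ℓ) ^ k) ^ i = 0 := by
    have h := (CharP.cast_eq_zero_iff (ZMod ℓ) ℓ s).mpr hℓs
    rw [hs, hx] at h
    push_cast at h
    exact h
  refine orderOf_eq_prime ?_ fun h1 ↦ hℓp ?_
  · exact sub_eq_zero.mp (by rw [← geom_sum_mul, h0, zero_mul])
  · simp only [h1, one_pow, Finset.sum_const, Finset.card_range, nsmul_one] at h0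
    exact (Nat.prime_dvd_prime_iff_eq hℓ hp).mp ((CharP.cast_eq_zero_iff (ZMod ℓ) ℓ p).mp h0)

theorem dvd_orderOf_natCast {c n : ℕ} (hc : 1 < c) (hcp : ¬ p ∣ c) (hn : c ^ (p - 1) < p ^ n) :
    p ∣ orderOf ((c : ℕ) : ZMod (p ^ n)) := by
  have hp : p.Prime := Fact.out
  have hn0 : 0 < n := by
    rcases Nat.eq_zero_or_pos n with rfl | h
    · have := Nat.one_le_pow (p - 1) c (by omega)
      simp at hn
      omega
    · exact h
  haveI : NeZero (p ^ n) := ⟨pow_ne_zero _ hp.ne_zero⟩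
  by_contra hd
  let u : (ZMod (p ^ n))ˣ :=
    ZMod.unitOfCoprime c (((hp.coprime_iff_not_dvd.mpr hcp).symm).pow_right n)
  have hu : orderOf ((c : ℕ) : ZMod (p ^ n)) = orderOf u := by
    rw [← orderOf_units]; rfl
  rw [hu] at hd
  have h1 : orderOf u ∣ p ^ (n - 1) * (p - 1) := by
    rw [← Nat.totient_prime_pow hp hn0, ← ZMod.card_units_eq_totient]
    exact orderOf_dvd_card
  have h2 : orderOf u ∣ p - 1 :=
    (((hp.coprime_iff_not_dvd.mpr hd).symm).pow_right (n - 1)).dvd_of_dvd_mul_left h1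
  have h3 := congrArg Units.val (orderOf_dvd_iff_pow_eq_one.mp h2)
  rw [Units.val_pow_eq_pow_val, ZMod.coe_unitOfCoprime, Units.val_one, ← Nat.cast_pow,
    ← Nat.cast_one (R := ZMod (p ^ n)), ZMod.natCast_eq_natCast_iff] at h3
  replace h3 := (Nat.modEq_iff_dvd' (Nat.one_le_pow _ _ (by omega))).mp h3.symm
  have hpos : 0 < c ^ (p - 1) - 1 :=
    Nat.sub_pos_of_lt (Nat.one_lt_pow (by have := hp.two_le; omega) hc)
  have := Nat.le_of_dvd hpos h3
  omega

theorem eq_one_of_conj_mem {g i : Ω ≃ₐ[ℚ] Ω} {z : Ω} (hz : z ^ 2 = -1)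
    (hi : i ∈ ExtCitation.archimedeanDecomposition) (h : (g * i * g⁻¹) z = z) : i = 1 := by
  obtain ⟨n, rfl⟩ := Subgroup.mem_zpowers_iff.mp hi
  rcases Int.emod_two_eq_zero_or_one n with h2 | h2
  · obtain ⟨j, rfl⟩ := Int.dvd_of_emod_eq_zero h2
    rw [zpow_mul, zpow_two, complexConjugation_mul_self, one_zpow]
  · exfalso
    have hc : complexConjugation ^ n = complexConjugation := by
      rw [← Int.mul_ediv_add_emod n 2, h2, zpow_add, zpow_mul, zpow_two,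
        complexConjugation_mul_self, one_zpow, one_mul, zpow_one]
    rw [hc, AlgEquiv.mul_apply, AlgEquiv.mul_apply] at h
    have hfix : complexConjugation (g⁻¹ z) = g⁻¹ z := by
      apply g.injective
      rw [h, AlgEquiv.aut_inv, AlgEquiv.apply_symm_apply]
    have hreal := complexEmbedding_complexConjugation (g⁻¹ z)
    rw [hfix] at hreal
    obtain ⟨r, hr⟩ := Complex.conj_eq_iff_real.mp hreal.symm
    have h2 : complexEmbedding (g⁻¹ z) ^ 2 = -1 := by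
      rw [← map_pow, ← map_pow, hz, map_neg, map_one, map_neg, map_one]
    rw [hr, ← Complex.ofReal_pow] at h2
    have h3 := congrArg Complex.re h2
    rw [Complex.ofReal_re, Complex.neg_re, Complex.one_re] at h3
    nlinarith [sq_nonneg r]

theorem H2_eq_zero_of_subsingleton {k G V : Type} [CommRing k] [Group G] [Subsingleton G]
    [AddCommGroup V] [Module k V] {L : Levels G} {ρ : Representation k G V} (x : H2 L ρ) :
    x = 0 := by
  obtain ⟨⟨f, hf⟩, rfl⟩ := H2mk_surjective x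
  rw [H2mk_eq_zero_iff, mem_B2_iff]
  refine ⟨fun _ ↦ f (1, 1), L.isCts₁_const _, funext fun ⟨a, b⟩ ↦ ?_⟩
  obtain rfl := Subsingleton.elim a 1
  obtain rfl := Subsingleton.elim b 1
  simp

/-- Restriction to a subgroup. -/
def restrictMor {H' : Subgroup Γ} (hle : H' ≤ H) :
    Mor (levelsOn H) (levelsOn H') (muOn p H) (muOn p H') where
  f := Subgroup.inclusion hle
  φ := LinearMap.id
  comm _ _ := rfl
  compat := fun _ ⟨U, hU, hUV⟩ ↦ ⟨U, hU, fun _ hx ↦ hUV hx⟩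

theorem placeMor_restrict {H' : Subgroup Γ} (hle : H' ≤ H) (v : Place) (g : Γ)
    (z : H2 (levelsOn H) (muOn p H)) :
    (placeMor p H' v g).map₂ ((restrictMor hle).map₂ z) =
      (shrinkMor hle v g).map₂ ((placeMor p H v g).map₂ z) := by
  obtain ⟨c, rfl⟩ := H2mk_surjective z
  rfl

/-- A class supported on `S` dies locally everywhere on a field unramified outside `S`. -/
theorem exists_killing (hLoc : LocalH2Cyclic p) (hH : fullLevels.mem H) {S : Finset Nat.Primes}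
    {E₀ : IntermediateField ℚ Ω} (hE₀ : E₀.IsUnramifiedOutside S) (hE₀H : E₀.fixingSubgroup ≤ H)
    (hpS : pPrime p ∈ S) {k : ℕ} (hk0 : k ≠ 0) (hk : ∀ σ : Γ, σ ^ k ∈ H)
    {ℓ : Nat.Primes} (hℓp : (ℓ : ℕ) ≠ p) (hℓ : p ∣ orderOf (((p : ℕ) : ZMod ℓ) ^ k))
    {ζℓ : Ω} (hζℓ : IsPrimitiveRoot ζℓ ℓ) (hζℓE : ζℓ ∈ E₀) {I : Ω} (hI : I ^ 2 = -1)
    (hIE : I ∈ E₀) {z : H2 (levelsOn H) (muOn p H)}
    (hz : ∀ v g, ¬ InPlaces S v → (placeMor p H v g).map₂ z = 0) :
    ∃ E : IntermediateField ℚ Ω, E.IsUnramifiedOutside S ∧ Normal ℚ E ∧ E₀ ≤ E ∧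
      ∃ hle : E.fixingSubgroup ≤ H, ∀ v g,
        (placeMor p E.fixingSubgroup v g).map₂ ((restrictMor hle).map₂ z) = 0 := by
  classical
  have hp : p.Prime := Fact.out
  let n := 1 + ∑ q ∈ S, ((q : ℕ) ^ k) ^ (p - 1)
  haveI : NeZero (p ^ n) := ⟨pow_ne_zero _ hp.ne_zero⟩
  obtain ⟨ζ, hζ⟩ := exists_primitiveRoot (p ^ n)
  have hζn : ζ ^ ((pPrime p : Nat.Primes) : ℕ) ^ n = 1 := by rw [pPrime_coe]; exact hζ.pow_eq_one
  obtain ⟨E, hE, hEn, hE₀E, hζE⟩ := exists_root_level hpS hE₀ n (fun _ : Unit ↦ ζ)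
    (fun _ ↦ hζ.ne_zero (NeZero.ne _)) (fun _ ↦ by rw [hζn]; exact one_mem E₀)
    (fun _ q A _ hA ↦ ⟨1, one_mem E₀, one_ne_zero, by rw [hζn, nu_one q.2 hA, mul_zero]⟩)
  have hle : E.fixingSubgroup ≤ H :=
    (IntermediateField.fixingSubgroup_antitone hE₀E).trans hE₀H
  refine ⟨E, hE, hEn, hE₀E, hle, fun v g ↦ ?_⟩
  have hfix : ∀ {m : ℕ} [NeZero m] {μ : Ω}, IsPrimitiveRoot μ m → μ ∈ E →
      ∀ σ ∈ E.fixingSubgroup, ∀ w : Ω, w ^ m = 1 → σ w = w := fun hμ hμE σ hσ w hw ↦ by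
    obtain ⟨i, -, rfl⟩ := hμ.eq_pow_of_pow_eq_one hw
    rw [map_pow, (IntermediateField.mem_fixingSubgroup_iff _ _).mp hσ _ hμE]
  match v with
  | Sum.inl u =>
    haveI : Subsingleton ↥(decompIn E.fixingSubgroup (Sum.inl u) g) :=
      ⟨fun a b ↦ by
        have key : ∀ c : ↥(decompIn E.fixingSubgroup (Sum.inl u) g), c.1 = 1 := fun c ↦
          Subtype.ext (eq_one_of_conj_mem hI c.1.2
            ((IntermediateField.mem_fixingSubgroup_iff _ _).mp c.2 _ (hE₀E hIE)))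
        exact Subtype.ext ((key a).trans (key b).symm)⟩
    exact H2_eq_zero_of_subsingleton _
  | Sum.inr q =>
    rw [placeMor_restrict]
    rcases eq_or_ne ((placeMor p H (Sum.inr q) g).map₂ z) 0 with h0 | h0
    · rw [h0, map_zero]
    have hqS : q ∈ S := by_contra fun h ↦ h0 (hz _ _ h)
    obtain ⟨y, hy0, hy⟩ : ∃ y, y ≠ 0 ∧ (shrinkMor (p := p) hle (Sum.inr q) g).map₂ y = 0 := by
      by_cases hqp : (q : ℕ) = p
      · haveI : NeZero (ℓ : ℕ) := ⟨ℓ.2.ne_zero⟩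
        obtain ⟨y, hy0, hy⟩ := exists_local_class (p := p) hH q g (m := ℓ) (k := k)
          (by rw [hqp]; exact fun h ↦ hℓp ((Nat.prime_dvd_prime_iff_eq hp ℓ.2).mp h).symm) hk
          (by rw [hqp]; exact hℓ)
        exact ⟨y, hy0, hy _ hle (hfix hζℓ (hE₀E hζℓE))⟩
      · have hnd : ¬ p ∣ (q : ℕ) ^ k := fun h ↦
          hqp ((Nat.prime_dvd_prime_iff_eq hp q.2).mp (hp.dvd_of_dvd_pow h)).symm
        have hn : ((q : ℕ) ^ k) ^ (p - 1) < p ^ n :=
          lt_of_lt_of_le (Nat.lt_succ_of_le (Finset.single_le_sum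
            (f := fun q : Nat.Primes ↦ ((q : ℕ) ^ k) ^ (p - 1)) (fun _ _ ↦ Nat.zero_le _) hqS))
            ((Nat.add_comm _ 1).le.trans (Nat.lt_pow_self hp.one_lt).le)
        obtain ⟨y, hy0, hy⟩ := exists_local_class (p := p) hH q g (m := p ^ n) (k := k)
          (fun h ↦ hqp ((Nat.prime_dvd_prime_iff_eq q.2 hp).mp (q.2.dvd_of_dvd_pow h))) hk
          (by
            have h := dvd_orderOf_natCast (p := p) (Nat.one_lt_pow hk0 q.2.one_lt) hnd hn
            rwa [Nat.cast_pow] at h)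
        exact ⟨y, hy0, hy _ hle (hfix hζ (hζE ()))⟩
    obtain ⟨a, ha⟩ := hLoc H hH (Sum.inr q) g y ((placeMor p H (Sum.inr q) g).map₂ z) hy0
    rw [ha, map_smul, hy, smul_zero]

end Fermat.Agent.GalCoh.Descent
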