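import Fermat.Agent.FreyReducible.InertiaLift
import Fermat.Agent.CFT.Val

/-!
# The normalised valuation of a place of `ℚ̄`

`nu A q x` is the rational number `a / b` with `|x|^b = |q|^a` at the place `A` above `q`.
-/

set_option autoImplicit false
set_option linter.unusedSectionVars false
set_option linter.style.haveILetI false

noncomputable section

open NumberField IsDedekindDomain
open scoped Pointwise NumberField

namespace Fermat.Agent.GalCoh.Descent

open Fermat.Agent.FreyReducible Fermat.Agent.CFT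

local notation "Ω" => AlgebraicClosure ℚ
local notation "Γ" => (AlgebraicClosure ℚ ≃ₐ[ℚ] AlgebraicClosure ℚ)

local instance isAlgebraicQbar_pl : Algebra.IsAlgebraic ℚ (AlgebraicClosure ℚ) :=
  AlgebraicClosure.isAlgebraic ℚ

variable {A : ValuationSubring Ω} {q : ℕ} (hq : q.Prime) (hA : A.LiesOverPrime q)

/-- The ideal of a place in a subfield. -/
def fieldPrime (A : ValuationSubring Ω) (M : IntermediateField ℚ Ω) : Ideal (𝓞 M) :=
  (placeIdeal A).under (𝓞 M)

lemma mem_fieldPrime {M : IntermediateField ℚ Ω} {b : 𝓞 M} :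
    b ∈ fieldPrime A M ↔ ((b : M) : Ω) ∈ A.nonunits := by
  rw [fieldPrime, Ideal.mem_comap, mem_placeIdeal]
  rfl

include hq hA in
lemma natCast_mem_fieldPrime (M : IntermediateField ℚ Ω) : (q : 𝓞 M) ∈ fieldPrime A M := by
  rw [mem_fieldPrime]
  have h : (((q : 𝓞 M) : M) : Ω) = (q : Ω) := by push_cast; rfl
  rw [h]
  exact hA

/-- The prime of a number field under a place. -/
def fieldPlace (M : IntermediateField ℚ Ω) [NumberField M] : HeightOneSpectrum (𝓞 M) :=
  ⟨fieldPrime A M, by unfold fieldPrime; infer_instance, fun h ↦ hq.ne_zero (by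
    have h0 := natCast_mem_fieldPrime hq hA M
    rw [h] at h0
    exact_mod_cast (Ideal.mem_bot.mp h0))⟩

lemma valuation_coe_eq_one_of_not_mem (M : IntermediateField ℚ Ω) {b : 𝓞 M}
    (hb : b ∉ fieldPrime A M) : A.valuation ((b : M) : Ω) = 1 :=
  valuation_coe_eq_one (d := algebraMap (𝓞 M) (𝓞 Ω) b) fun h ↦ hb h

/-- Elements of valuation zero at the prime under `A` are units of `A`. -/
lemma valuation_eq_one_of_ordv (M : IntermediateField ℚ Ω) [NumberField M] {x : M} (hx : x ≠ 0)
    (h : ordv (fieldPlace hq hA M) x = 0) : A.valuation (x : Ω) = 1 := by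
  set v := fieldPlace hq hA M
  obtain ⟨n, ⟨d, hd⟩, hnd⟩ := v.exists_primeCompl_mul_eq_or_mul_eq x
  have hdne' : d ≠ 0 := fun h0 ↦ by
    subst h0
    exact hd v.asIdeal.zero_mem
  have hd0 : ordv v (algebraMap (𝓞 M) M d) = 0 := by
    refine le_antisymm (not_lt.mp fun hlt ↦ hd ?_) (ordv_algebraMap_nonneg v d)
    exact (one_le_ordv_algebraMap_iff v hdne').mp hlt
  have hdne : algebraMap (𝓞 M) M d ≠ 0 := by simpa using hdne'
  rcases hnd with e | e
  · have hne : algebraMap (𝓞 M) M n ≠ 0 := e ▸ mul_ne_zero hx hdne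
    have hn : n ∉ v.asIdeal := fun hmem ↦ by
      have h1 := (one_le_ordv_algebraMap_iff v (by simpa using hne)).mpr hmem
      rw [← e, ordv_mul v hx hdne, h, hd0] at h1
      omega
    have := congrArg (fun t : M ↦ A.valuation (t : Ω)) e
    simp only [IntermediateField.coe_mul, map_mul] at this
    rwa [valuation_coe_eq_one_of_not_mem M hd, valuation_coe_eq_one_of_not_mem M hn, mul_one] at this
  · have hne : algebraMap (𝓞 M) M n ≠ 0 := fun h0 ↦ by
      rw [h0, mul_zero] at e; exact hdne e.symm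
    have hn : n ∉ v.asIdeal := fun hmem ↦ by
      have h1 := (one_le_ordv_algebraMap_iff v (by simpa using hne)).mpr hmem
      rw [← e, ordv_mul v hx hne, h] at hd0
      omega
    have := congrArg (fun t : M ↦ A.valuation (t : Ω)) e
    simp only [IntermediateField.coe_mul, map_mul] at this
    rwa [valuation_coe_eq_one_of_not_mem M hd, valuation_coe_eq_one_of_not_mem M hn, mul_one] at this

include hq hA in
lemma valuation_q_lt_one : A.valuation (q : Ω) < 1 := by
  have h := hA
  rw [ValuationSubring.LiesOverPrime, ValuationSubring.mem_nonunits_iff] at h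
  exact h

lemma ordv_natCast_pos (M : IntermediateField ℚ Ω) [NumberField M] :
    0 < ordv (fieldPlace hq hA M) (q : M) := by
  have h := (one_le_ordv_algebraMap_iff (fieldPlace hq hA M)
    (r := (q : 𝓞 M)) (Nat.cast_ne_zero.mpr hq.ne_zero)).mpr (natCast_mem_fieldPrime hq hA M)
  rw [map_natCast] at h
  omega

/-- The relation `|x|^e = |q|^a` with `e` the ramification index and `a` the order of `x`. -/
lemma valuation_pow_eq (M : IntermediateField ℚ Ω) [NumberField M] {x : M} (hx : x ≠ 0) :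
    A.valuation (x : Ω) ^ ordv (fieldPlace hq hA M) (q : M) =
      A.valuation (q : Ω) ^ ordv (fieldPlace hq hA M) x := by
  set v := fieldPlace hq hA M
  have hq0 : (q : M) ≠ 0 := Nat.cast_ne_zero.mpr hq.ne_zero
  have h0 : ordv v (x ^ ordv v (q : M) / (q : M) ^ ordv v x) = 0 := by
    rw [ordv_div v (zpow_ne_zero _ hx) (zpow_ne_zero _ hq0), ordv_zpow, ordv_zpow]
    ring
  have h1 := valuation_eq_one_of_ordv hq hA M
    (div_ne_zero (zpow_ne_zero _ hx) (zpow_ne_zero _ hq0)) h0
  have hcoe : ((x ^ ordv v (q : M) / (q : M) ^ ordv v x : M) : Ω) =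
      (x : Ω) ^ ordv v (q : M) / (q : Ω) ^ ordv v x := by
    push_cast
    rfl
  rw [hcoe, map_div₀, map_zpow₀, map_zpow₀, div_eq_one_iff_eq] at h1
  · exact h1
  · exact zpow_ne_zero _ (by simpa using hq.ne_zero)

variable (q) in
/-- The defining property of `nu`. -/
def HasNu (A : ValuationSubring Ω) (x : Ω) (r : ℚ) : Prop :=
  ∃ (a : ℤ) (b : ℕ), 0 < b ∧ r = a / b ∧ A.valuation x ^ b = A.valuation (q : Ω) ^ a

variable (q) in
open Classical in
/-- The valuation at `A`, normalised by `nu q = 1`. -/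
def nu (A : ValuationSubring Ω) (x : Ω) : ℚ :=
  if h : ∃ r, HasNu q A x r then h.choose else 0

include hq hA in
lemma zpow_valuation_q_injective : Function.Injective fun a : ℤ ↦ A.valuation (q : Ω) ^ a := by
  have h0 : 0 < A.valuation (q : Ω) := zero_lt_iff.mpr (by simpa using hq.ne_zero)
  exact (zpow_right_strictAnti₀ h0 (valuation_q_lt_one hq hA)).injective

include hq hA in
lemma hasNu_unique {x : Ω} {r r' : ℚ} (h : HasNu q A x r) (h' : HasNu q A x r') : r = r' := by
  obtain ⟨a, b, hb, rfl, hab⟩ := h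
  obtain ⟨a', b', hb', rfl, hab'⟩ := h'
  have : a * b' = a' * b := zpow_valuation_q_injective hq hA (by
    show A.valuation (q : Ω) ^ (a * (b' : ℤ)) = A.valuation (q : Ω) ^ (a' * (b : ℤ))
    rw [zpow_mul, zpow_mul, ← hab, ← hab', zpow_natCast, zpow_natCast, ← pow_mul, ← pow_mul,
      mul_comm])
  rw [div_eq_div_iff (by exact_mod_cast hb.ne') (by exact_mod_cast hb'.ne')]
  exact_mod_cast this

include hq hA in
lemma nu_eq_of_hasNu {x : Ω} {r : ℚ} (h : HasNu q A x r) : nu q A x = r := by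
  rw [nu, dif_pos ⟨r, h⟩]
  exact hasNu_unique hq hA (Exists.choose_spec (⟨r, h⟩ : ∃ r, HasNu q A x r)) h

include hq hA in
lemma exists_hasNu {x : Ω} (hx : x ≠ 0) : ∃ r, HasNu q A x r := by
  haveI : FiniteDimensional ℚ (IntermediateField.adjoin ℚ ({x} : Set Ω)) :=
    IntermediateField.adjoin.finiteDimensional (Algebra.IsIntegral.isIntegral x)
  let M := IntermediateField.adjoin ℚ ({x} : Set Ω)
  haveI : NumberField M := { to_charZero := inferInstance, to_finiteDimensional := inferInstance }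
  let x' : M := ⟨x, IntermediateField.mem_adjoin_simple_self ℚ x⟩
  have h := valuation_pow_eq hq hA M (x := x') (fun h ↦ hx (congrArg Subtype.val h))
  have hpos := ordv_natCast_pos hq hA M
  refine ⟨_, ordv (fieldPlace hq hA M) x', (ordv (fieldPlace hq hA M) (q : M)).toNat, by omega,
    rfl, ?_⟩
  rw [← zpow_natCast, Int.toNat_of_nonneg hpos.le]
  exact h

include hq hA in
lemma hasNu_nu {x : Ω} (hx : x ≠ 0) : HasNu q A x (nu q A x) := by
  rw [nu, dif_pos (exists_hasNu hq hA hx)]
  exact Exists.choose_spec (exists_hasNu hq hA hx)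

include hq hA in
/-- `nu` through the orders at the prime of a number field. -/
lemma nu_eq_div (M : IntermediateField ℚ Ω) [NumberField M] {x : M} (hx : x ≠ 0) :
    nu q A (x : Ω) = ordv (fieldPlace hq hA M) x / ordv (fieldPlace hq hA M) (q : M) := by
  have hpos := ordv_natCast_pos hq hA M
  refine nu_eq_of_hasNu hq hA ⟨ordv (fieldPlace hq hA M) x,
    (ordv (fieldPlace hq hA M) (q : M)).toNat, by omega, ?_, ?_⟩
  · rw [show (((ordv (fieldPlace hq hA M) (q : M)).toNat : ℕ) : ℚ) =
      ((((ordv (fieldPlace hq hA M) (q : M)).toNat : ℕ) : ℤ) : ℚ) from (Int.cast_natCast _).symm,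
      Int.toNat_of_nonneg hpos.le]
  · rw [← zpow_natCast, Int.toNat_of_nonneg hpos.le]
    exact valuation_pow_eq hq hA M hx

include hq hA in
lemma nu_mul {x y : Ω} (hx : x ≠ 0) (hy : y ≠ 0) :
    nu q A (x * y) = nu q A x + nu q A y := by
  obtain ⟨a, b, hb, hr, hab⟩ := hasNu_nu hq hA hx
  obtain ⟨a', b', hb', hr', hab'⟩ := hasNu_nu hq hA hy
  refine nu_eq_of_hasNu hq hA ⟨a * b' + a' * b, b * b', Nat.mul_pos hb hb', ?_, ?_⟩
  · rw [hr, hr', div_add_div _ _ (by exact_mod_cast hb.ne') (by exact_mod_cast hb'.ne')]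
    push_cast
    ring
  · rw [map_mul, mul_pow, pow_mul, hab, mul_comm b, pow_mul, hab',
      zpow_add₀ (by simpa using hq.ne_zero), ← zpow_natCast, ← zpow_natCast, ← zpow_mul,
      ← zpow_mul]

include hq hA in
lemma nu_eq_zero_iff {x : Ω} (hx : x ≠ 0) : nu q A x = 0 ↔ A.valuation x = 1 := by
  constructor
  · intro h
    obtain ⟨a, b, hb, hr, hab⟩ := hasNu_nu hq hA hx
    rw [h, eq_comm, div_eq_zero_iff, Int.cast_eq_zero, Nat.cast_eq_zero] at hr
    rw [(hr.resolve_right hb.ne'), zpow_zero] at hab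
    exact (pow_eq_one_iff.mp hab).resolve_right hb.ne'
  · intro h
    exact nu_eq_of_hasNu hq hA ⟨0, 1, one_pos, by simp, by simp [h]⟩

include hq hA in
lemma nu_one : nu q A 1 = 0 := (nu_eq_zero_iff hq hA one_ne_zero).mpr (map_one _)

include hq hA in
lemma nu_natCast_self : nu q A (q : Ω) = 1 :=
  nu_eq_of_hasNu hq hA ⟨1, 1, one_pos, by simp, by simp⟩

include hq hA in
lemma nu_inv {x : Ω} (hx : x ≠ 0) : nu q A x⁻¹ = -nu q A x := by
  have h := nu_mul hq hA hx (inv_ne_zero hx)
  rw [mul_inv_cancel₀ hx, nu_one hq hA] at h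
  linarith

include hq hA in
lemma nu_div {x y : Ω} (hx : x ≠ 0) (hy : y ≠ 0) : nu q A (x / y) = nu q A x - nu q A y := by
  rw [div_eq_mul_inv, nu_mul hq hA hx (inv_ne_zero hy), nu_inv hq hA hy, sub_eq_add_neg]

include hq hA in
lemma nu_pow {x : Ω} (hx : x ≠ 0) (n : ℕ) : nu q A (x ^ n) = n * nu q A x := by
  induction n with
  | zero => simp [nu_one hq hA]
  | succ n ih => rw [pow_succ, nu_mul hq hA (pow_ne_zero _ hx) hx, ih]; push_cast; ring

include hq hA in
/-- A root of unity has valuation zero. -/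
lemma nu_of_pow_eq_one {x : Ω} {n : ℕ} (hn : n ≠ 0) (h : x ^ n = 1) : nu q A x = 0 := by
  have hx : x ≠ 0 := fun h0 ↦ by simp [h0, hn] at h
  have h1 := nu_pow hq hA hx n
  rw [h, nu_one hq hA] at h1
  exact (mul_eq_zero.mp h1.symm).resolve_left (Nat.cast_ne_zero.mpr hn)

/-- Galois equivariance. -/
lemma valuation_apply_eq_one (A : ValuationSubring Ω) (σ : Γ) (x : Ω) :
    (σ • A).valuation (σ x) = 1 ↔ A.valuation x = 1 := by
  have key : ∀ y : Ω, (σ • A).valuation (σ y) ≤ 1 ↔ A.valuation y ≤ 1 := fun y ↦ by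
    rw [ValuationSubring.valuation_le_one_iff, ValuationSubring.valuation_le_one_iff,
      ← AlgEquiv.smul_def, ValuationSubring.smul_mem_pointwise_smul_iff]
  rcases eq_or_ne x 0 with rfl | hx
  · simp
  · simp only [le_antisymm_iff, ← inv_le_one₀ (zero_lt_iff.mpr ((A.valuation.ne_zero_iff).mpr hx)),
      ← inv_le_one₀ (zero_lt_iff.mpr (((σ • A).valuation.ne_zero_iff).mpr
        (by simpa using hx : σ x ≠ 0))), ← map_inv₀, key]

include hq hA in
lemma nu_smul (σ : Γ) {x : Ω} (hx : x ≠ 0) : nu q (σ • A) (σ x) = nu q A x := by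
  have hA' : (σ • A).LiesOverPrime q := by
    rw [ValuationSubring.LiesOverPrime, ValuationSubring.mem_nonunits_iff]
    have h := valuation_q_lt_one hq hA
    refine lt_of_le_of_ne ?_ fun h1 ↦ h.ne ?_
    · rw [ValuationSubring.valuation_le_one_iff, show (q : Ω) = σ • (q : Ω) by simp,
        ValuationSubring.smul_mem_pointwise_smul_iff, ← ValuationSubring.valuation_le_one_iff]
      exact h.le
    · rw [← valuation_apply_eq_one A σ, map_natCast]
      exact h1
  obtain ⟨a, b, hb, hr, hab⟩ := hasNu_nu hq hA hx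
  refine nu_eq_of_hasNu hq hA' ⟨a, b, hb, hr, ?_⟩
  have hq0 : (q : Ω) ≠ 0 := Nat.cast_ne_zero.mpr hq.ne_zero
  have h1 : A.valuation (x ^ b / (q : Ω) ^ a) = 1 := by
    rw [map_div₀, map_pow, map_zpow₀, hab, div_self]
    exact zpow_ne_zero _ ((Valuation.ne_zero_iff _).mpr hq0)
  rw [← valuation_apply_eq_one A σ, map_div₀ σ, map_pow σ, map_zpow₀ σ, map_natCast, map_div₀,
    map_pow, map_zpow₀] at h1
  exact (div_eq_one_iff_eq (zpow_ne_zero _ ((Valuation.ne_zero_iff _).mpr hq0))).mp h1

end Fermat.Agent.GalCoh.Descent
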