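import Fermat.Agent.GalCoh.Descent.Divisor
import Fermat.Agent.CFT.SUnits

/-!
# Principal divisors outside `S` on a field whose class group is generated by primes over `S`
-/

set_option autoImplicit false
set_option linter.unusedSectionVars false
set_option linter.style.haveILetI false

noncomputable section

open NumberField IsDedekindDomain
open scoped Pointwise NumberField

namespace Fermat.Agent.GalCoh.Descent

open Fermat.Agent.FreyReducible Fermat.Agent.CFT

local notation "Ω" => AlgebraicClosure ℚ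
local notation "Γ" => (AlgebraicClosure ℚ ≃ₐ[ℚ] AlgebraicClosure ℚ)

local instance isAlgebraicQbar_pr : Algebra.IsAlgebraic ℚ (AlgebraicClosure ℚ) :=
  AlgebraicClosure.isAlgebraic ℚ
local instance isAlgClosureQbar_pr : IsAlgClosure ℚ (AlgebraicClosure ℚ) :=
  ⟨inferInstance, inferInstance⟩
local instance isGaloisQbar_pr : IsGalois ℚ (AlgebraicClosure ℚ) :=
  have : Normal ℚ (AlgebraicClosure ℚ) := IsAlgClosure.normal ℚ (AlgebraicClosure ℚ)
  have : Algebra.IsSeparable ℚ (AlgebraicClosure ℚ) :=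
    Algebra.IsAlgebraic.isSeparable_of_perfectField
  IsGalois.mk

/-- The primes of `M` over a set of rational primes. -/
def primesOver (S : Finset Nat.Primes) (M : IntermediateField ℚ Ω) [NumberField M] :
    Set (HeightOneSpectrum (𝓞 M)) :=
  {w | ∃ q ∈ S, ((q : ℕ) : 𝓞 M) ∈ w.asIdeal}

/-- The class group is generated by primes over `S`. -/
theorem exists_genClass_primes (K : IntermediateField ℚ Ω) [NumberField K] :
    ∃ S₀ : Finset Nat.Primes, ∀ S, S₀ ⊆ S → GenClass (primesOver S K) := by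
  classical
  obtain ⟨T, hT⟩ := exists_genClass K
  choose qw Aw hAw hAwK using fun w : HeightOneSpectrum (𝓞 K) ↦ exists_place_over w
  refine ⟨T.image qw, fun S hS ↦ hT _ fun w hw ↦ ⟨qw w, hS (Finset.mem_image_of_mem qw hw), ?_⟩⟩
  rw [← hAwK w]
  exact natCast_mem_fieldPrime (qw w).2 (hAw w) K

theorem exists_finite_nu {x : Ω} (hx : x ≠ 0) :
    ∃ T : Finset Nat.Primes, ∀ (q : Nat.Primes) A, q ∉ T → A.LiesOverPrime (q : ℕ) →
      nu q A x = 0 := by
  classical
  haveI : FiniteDimensional ℚ (IntermediateField.adjoin ℚ ({x} : Set Ω)) :=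
    IntermediateField.adjoin.finiteDimensional (Algebra.IsIntegral.isIntegral x)
  let M := IntermediateField.adjoin ℚ ({x} : Set Ω)
  haveI : NumberField M := { to_charZero := inferInstance, to_finiteDimensional := inferInstance }
  let x' : M := ⟨x, IntermediateField.mem_adjoin_simple_self ℚ x⟩
  have hx' : x' ≠ 0 := fun h ↦ hx (congrArg Subtype.val h)
  choose qw Aw hAw hAwM using fun w : HeightOneSpectrum (𝓞 M) ↦ exists_place_over w
  refine ⟨(finite_setOf_ordv_ne_zero hx').toFinset.image qw, fun q A hq hA ↦ ?_⟩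
  have h0 : ordv (fieldPlace q.2 hA M) x' = 0 := by
    by_contra h
    refine hq (Finset.mem_image.mpr ⟨fieldPlace q.2 hA M, by simpa using h, ?_⟩)
    refine prime_unique (fieldPlace q.2 hA M) ?_ (natCast_mem_fieldPrime q.2 hA M)
    conv => arg 1; rw [← hAwM (fieldPlace q.2 hA M)]
    exact natCast_mem_fieldPrime (qw _).2 (hAw _) M
  rw [show x = (x' : Ω) from rfl, nu_eq_div q.2 hA M hx', h0, Int.cast_zero, zero_div]

theorem exists_finite_nu_family {ι : Type*} [Finite ι] {x : ι → Ω} (hx : ∀ i, x i ≠ 0) :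
    ∃ T : Finset Nat.Primes, ∀ i (q : Nat.Primes) A, q ∉ T → A.LiesOverPrime (q : ℕ) →
      nu q A (x i) = 0 := by
  classical
  cases nonempty_fintype ι
  choose T hT using fun i ↦ exists_finite_nu (hx i)
  exact ⟨Finset.univ.biUnion T, fun i q A hq hA ↦
    hT i q A (fun h ↦ hq (Finset.mem_biUnion.mpr ⟨i, Finset.mem_univ i, h⟩)) hA⟩

/-- Places over the same prime of `K` are conjugate over `K`. -/
theorem exists_fixing_smul_eq_base {q : ℕ} (hq : q.Prime) (K : IntermediateField ℚ Ω)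
    [FiniteDimensional ℚ K] {A A' : ValuationSubring Ω} (hA : A.LiesOverPrime q)
    (hA' : A'.LiesOverPrime q) (h : fieldPrime A K = fieldPrime A' K) :
    ∃ n ∈ K.fixingSubgroup, n • A = A' := by
  let M := IntermediateField.normalClosure ℚ K Ω
  haveI : Normal ℚ M := normalClosure.normal ℚ K Ω
  haveI : IsGalois ℚ M := IsGalois.mk
  haveI : NumberField M := { to_charZero := inferInstance, to_finiteDimensional := inferInstance }
  have hKM : K ≤ M := K.le_normalClosure
  let K' : IntermediateField ℚ M := IntermediateField.restrict hKM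
  have hu : primeUnder K' (fieldPlace hq hA M) = primeUnder K' (fieldPlace hq hA' M) := by
    refine HeightOneSpectrum.ext (Ideal.ext fun b ↦ ?_)
    show algebraMap (𝓞 K') (𝓞 M) b ∈ fieldPrime A M ↔ algebraMap (𝓞 K') (𝓞 M) b ∈ fieldPrime A' M
    rw [mem_fieldPrime, mem_fieldPrime]
    have hbK : (((b : K') : M) : Ω) ∈ K := (IntermediateField.mem_restrict hKM _).mp (b : K').2
    have hint : IsIntegral ℤ (⟨_, hbK⟩ : K) := by
      rw [← isIntegral_algebraMap_iff (FaithfulSMul.algebraMap_injective K Ω)]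
      exact b.isIntegral_coe.map ((M.val.comp K'.val).restrictScalars ℤ)
    have := SetLike.ext_iff.mp h (⟨⟨_, hbK⟩, hint⟩ : 𝓞 K)
    exact (mem_fieldPrime (A := A) (b := (⟨⟨_, hbK⟩, hint⟩ : 𝓞 K))).symm.trans
      (this.trans (mem_fieldPrime (A := A') (b := (⟨⟨_, hbK⟩, hint⟩ : 𝓞 K))))
  obtain ⟨σ, hσ⟩ := exists_smul_eq_of_primeUnder_eq hu
  let g : Γ := (σ.restrictScalars ℚ).liftNormal Ω
  have hg : ∀ y : M, g (y : Ω) = ((σ y : M) : Ω) := fun y ↦
    (σ.restrictScalars ℚ).liftNormal_commutes Ω y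
  have hgK : g ∈ K.fixingSubgroup := (IntermediateField.mem_fixingSubgroup_iff _ _).mpr fun y hy ↦ by
    rw [show y = ((⟨y, hKM hy⟩ : M) : Ω) from rfl, hg]
    exact congrArg Subtype.val
      (σ.commutes ⟨⟨y, hKM hy⟩, (IntermediateField.mem_restrict hKM _).mpr hy⟩)
  have hP : fieldPrime (g • A) M = fieldPrime A' M := by
    refine Eq.trans (Ideal.ext fun b ↦ ?_) (congrArg HeightOneSpectrum.asIdeal hσ)
    show b ∈ fieldPrime (g • A) M ↔ b ∈ σ • fieldPrime A M
    rw [Ideal.mem_pointwise_smul_iff_inv_smul_mem, mem_fieldPrime, mem_fieldPrime,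
      GalCoh.mem_nonunits_smul_iff]
    have e : (((σ⁻¹ • b : 𝓞 M) : M) : Ω) = g.symm ((b : M) : Ω) := by
      rw [AlgEquiv.eq_symm_apply, hg]
      exact congrArg Subtype.val (σ.apply_symm_apply (b : M))
    rw [e]
  obtain ⟨n, hn, hnA⟩ :=
    exists_fixing_smul_eq hq (GalCoh.liesOverPrime_smul hA g) M hA' hP
  exact ⟨n * g, mul_mem (IntermediateField.fixingSubgroup_antitone hKM hn) hgK,
    by rw [mul_smul, hnA]⟩

variable {S : Finset Nat.Primes} {K : IntermediateField ℚ Ω}

/-- A divisor outside `S` of a field whose class group is generated over `S` is principal. -/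
theorem exists_base_elem (hK : K.IsUnramifiedOutside S) [NumberField K]
    (hgen : GenClass (primesOver S K)) (D : ValuationSubring Ω → ℤ)
    (hinv : ∀ n ∈ K.fixingSubgroup, ∀ (q : Nat.Primes) A,
      q ∉ S → A.LiesOverPrime (q : ℕ) → D (n • A) = D A)
    (hfin : ∃ T : Finset Nat.Primes, ∀ (q : Nat.Primes) A, q ∉ S → q ∉ T →
      A.LiesOverPrime (q : ℕ) → D A = 0) :
    ∃ b : Ω, b ∈ K ∧ b ≠ 0 ∧ ∀ (q : Nat.Primes) A, q ∉ S → A.LiesOverPrime (q : ℕ) →
      nu q A b = D A := by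
  classical
  haveI := hK.1
  choose qw Aw hAw hAwK using fun w : HeightOneSpectrum (𝓞 K) ↦ exists_place_over w
  let n : HeightOneSpectrum (𝓞 K) → ℤ := fun w ↦ if qw w ∈ S then 0 else D (Aw w)
  obtain ⟨T, hT⟩ := hfin
  have hmemq : ∀ w, ((qw w : ℕ) : 𝓞 K) ∈ w.asIdeal := fun w ↦ by
    rw [← hAwK w]; exact natCast_mem_fieldPrime (qw w).2 (hAw w) K
  have hT0 : Ideal.span {((∏ q ∈ T, (q : ℕ) : ℕ) : 𝓞 K)} ≠ 0 := by
    rw [ne_eq, Submodule.zero_eq_bot, Ideal.span_singleton_eq_bot, Nat.cast_eq_zero]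
    exact Finset.prod_ne_zero_iff.mpr fun q _ ↦ q.2.ne_zero
  have hsupp : (Function.support n).Finite := by
    refine (Ideal.finite_factors hT0).subset fun w hw ↦ ?_
    simp only [Function.mem_support, n] at hw
    split_ifs at hw with hS
    · exact absurd rfl hw
    refine Ideal.dvd_span_singleton.mpr ?_
    have hqT : qw w ∈ T := by_contra fun hq ↦ hw (hT _ _ hS hq (hAw w))
    obtain ⟨c, hc⟩ := Finset.dvd_prod_of_mem (fun q : Nat.Primes ↦ (q : ℕ)) hqT
    rw [hc, Nat.cast_mul]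
    exact Ideal.mul_mem_right _ _ (hmemq w)
  obtain ⟨b, hb0, hb⟩ := hgen.exists_ordv (Finsupp.ofSupportFinite n hsupp)
  refine ⟨(b : Ω), b.2, fun h ↦ hb0 (Subtype.ext h), fun q A hqS hA ↦ ?_⟩
  set w := fieldPlace q.2 hA K with hw
  have hqw : qw w = q := prime_unique w (hmemq w) (natCast_mem_fieldPrime q.2 hA K)
  have hwS : w ∉ primesOver S K := fun ⟨r, hr, hrw⟩ ↦
    hqS (prime_unique w hrw (natCast_mem_fieldPrime q.2 hA K) ▸ hr)
  have hAw' : (Aw w).LiesOverPrime (q : ℕ) := hqw ▸ hAw w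
  obtain ⟨g, hg, hgA⟩ := exists_fixing_smul_eq_base q.2 K hAw' hA (hAwK w)
  rw [nu_eq_ordv hK hqS hA hb0, hb w hwS, Finsupp.ofSupportFinite_coe]
  simp only [n, hqw, if_neg hqS]
  rw [← hgA, hinv g hg q _ hqS hAw']

/-- At a place outside `S` every integer is a valuation. -/
theorem exists_mem_nu_eq {E : IntermediateField ℚ Ω} (hE : E.IsUnramifiedOutside S)
    {q : Nat.Primes} (hqS : q ∉ S) {A : ValuationSubring Ω} (hA : A.LiesOverPrime (q : ℕ))
    (z : ℤ) : ∃ b ∈ E, b ≠ 0 ∧ nu q A b = (z : ℚ) := by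
  haveI := hE.1
  haveI : NumberField E := { to_charZero := inferInstance, to_finiteDimensional := inferInstance }
  obtain ⟨π, hπ0, hπ⟩ := exists_ordv_eq_one (fieldPlace q.2 hA E)
  refine ⟨((π ^ z : E) : Ω), (π ^ z).2, fun h ↦ zpow_ne_zero z hπ0 (Subtype.ext h), ?_⟩
  rw [nu_eq_ordv hE hqS hA (zpow_ne_zero z hπ0), ordv_zpow, hπ, mul_one]

end Fermat.Agent.GalCoh.Descent
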